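/-
DS-W / [W-EIS], part 1: the Weierstrass zeta function of the lattice `ℤ τ + ℤ`, as an absolutely
convergent sum over `ℤ²`, and its homogeneity under `SL(2, ℤ)`.

  `dsw_zeta z τ = ∑' v, (1 / (z + ω_v) - 1 / ω_v + z / ω_v ^ 2)`,   `ω_v = v 0 * τ + v 1`

(the term `v = 0` is `1 / z` thanks to `1 / 0 = 0`).
-/
import Mathlib

set_option autoImplicit false

namespace Fermat.Agent.DS

open UpperHalfPlane Matrix Filter Topology Asymptotics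
open scoped MatrixGroups

noncomputable section

/-- The lattice point `v 0 * τ + v 1`. -/
def dsw_om (τ : ℍ) (v : Fin 2 → ℤ) : ℂ := (v 0 : ℂ) * (τ : ℂ) + (v 1 : ℂ)

/-- The summand of the Weierstrass zeta function. -/
def dsw_zt (z : ℂ) (τ : ℍ) (v : Fin 2 → ℤ) : ℂ :=
  1 / (z + dsw_om τ v) - 1 / dsw_om τ v + z / (dsw_om τ v) ^ 2

/-- The Weierstrass zeta function of `ℤ τ + ℤ`. -/
def dsw_zeta (z : ℂ) (τ : ℍ) : ℂ := ∑' v : Fin 2 → ℤ, dsw_zt z τ v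

/-- Right multiplication by `A : SL(2, ℤ)` as a permutation of `ℤ²`. -/
def dsw_vecMulEquiv (A : SL(2, ℤ)) : (Fin 2 → ℤ) ≃ (Fin 2 → ℤ) where
  toFun v := v ᵥ* A
  invFun v := v ᵥ* ↑(A⁻¹)
  left_inv v := by
    show (v ᵥ* (A : Matrix (Fin 2) (Fin 2) ℤ)) ᵥ* ((A⁻¹ : SL(2, ℤ)) : Matrix (Fin 2) (Fin 2) ℤ) = v
    rw [vecMul_vecMul, ← Matrix.SpecialLinearGroup.coe_mul, mul_inv_cancel,
      Matrix.SpecialLinearGroup.coe_one, vecMul_one]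
  right_inv v := by
    show (v ᵥ* ((A⁻¹ : SL(2, ℤ)) : Matrix (Fin 2) (Fin 2) ℤ)) ᵥ* (A : Matrix (Fin 2) (Fin 2) ℤ) = v
    rw [vecMul_vecMul, ← Matrix.SpecialLinearGroup.coe_mul, inv_mul_cancel,
      Matrix.SpecialLinearGroup.coe_one, vecMul_one]

@[simp] lemma dsw_vecMulEquiv_apply (A : SL(2, ℤ)) (v : Fin 2 → ℤ) :
    dsw_vecMulEquiv A v = v ᵥ* A := rfl

lemma dsw_om_smul (γ : SL(2, ℤ)) (τ : ℍ) (v : Fin 2 → ℤ) :
    dsw_om (γ • τ) v = dsw_om τ (v ᵥ* γ) / denom γ τ := by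
  have hd : denom γ τ ≠ 0 := denom_ne_zero γ τ
  have hd' : ((γ 1 0 : ℤ) : ℂ) * τ + (γ 1 1 : ℤ) ≠ 0 := by
    simpa [ModularGroup.denom_apply] using hd
  rw [eq_div_iff hd]
  simp only [dsw_om, UpperHalfPlane.specialLinearGroup_apply, ModularGroup.denom_apply,
    Matrix.vecMul, dotProduct, Fin.sum_univ_two, eq_intCast, Complex.ofReal_intCast]
  rw [add_mul, mul_assoc, div_mul_cancel₀ _ hd']
  push_cast
  ring

lemma dsw_zt_smul (γ : SL(2, ℤ)) (τ : ℍ) (w : ℂ) (v : Fin 2 → ℤ) :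
    dsw_zt (w / denom γ τ) (γ • τ) v = denom γ τ * dsw_zt w τ (v ᵥ* γ) := by
  have hd : denom γ τ ≠ 0 := denom_ne_zero γ τ
  simp only [dsw_zt, dsw_om_smul]
  generalize denom γ τ = j at hd
  generalize dsw_om τ (v ᵥ* γ) = ω
  rw [← add_div, one_div_div, one_div_div, div_pow, div_div_div_eq, mul_add, mul_sub]
  congr 1
  · ring
  · rw [show w * j ^ 2 / (j * ω ^ 2) = (w * j) * j / (ω ^ 2 * j) by ring_nf,
      mul_div_mul_right _ _ hd]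
    ring

lemma dsw_tendsto_norm : Tendsto (fun v : Fin 2 → ℤ => ‖v‖) cofinite atTop :=
  tendsto_norm_comp_cofinite_atTop_of_isClosedEmbedding IsClosedEmbedding.id

lemma dsw_zt_eq (z : ℂ) (τ : ℍ) (v : Fin 2 → ℤ) (h1 : dsw_om τ v ≠ 0) (h2 : z + dsw_om τ v ≠ 0) :
    dsw_zt z τ v = z ^ 2 / ((dsw_om τ v) ^ 2 * (z + dsw_om τ v)) := by
  rw [dsw_zt]
  field_simp
  ring

lemma dsw_zt_isBigO (z : ℂ) (τ : ℍ) :
    dsw_zt z τ =O[cofinite] fun v : Fin 2 → ℤ => (‖v‖ ^ (3 : ℝ))⁻¹ := by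
  have hr : 0 < EisensteinSeries.r τ := EisensteinSeries.r_pos τ
  set r := EisensteinSeries.r τ with hrdef
  rw [Asymptotics.isBigO_iff]
  refine ⟨2 * ‖z‖ ^ 2 / r ^ 3, ?_⟩
  filter_upwards [dsw_tendsto_norm.eventually_ge_atTop (2 * ‖z‖ / r + 1)] with v hv
  have hv0 : 0 < ‖v‖ := lt_of_lt_of_le (by positivity) hv
  have hvne : v ≠ 0 := norm_pos_iff.mp hv0
  have hω : r * ‖v‖ ≤ ‖dsw_om τ v‖ := EisensteinSeries.r_mul_max_le τ hvne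
  have hz : ‖z‖ ≤ r * ‖v‖ / 2 := by
    have : 2 * ‖z‖ / r ≤ ‖v‖ := by linarith
    rw [div_le_iff₀ hr] at this
    linarith
  have hzω : r * ‖v‖ / 2 ≤ ‖z + dsw_om τ v‖ := by
    have := norm_sub_norm_le (dsw_om τ v) (-z)
    rw [sub_neg_eq_add, norm_neg, add_comm] at this
    linarith
  have hpos : 0 < r * ‖v‖ := by positivity
  have h1 : dsw_om τ v ≠ 0 := norm_pos_iff.mp (lt_of_lt_of_le hpos hω)
  have h2 : z + dsw_om τ v ≠ 0 := norm_pos_iff.mp (lt_of_lt_of_le (by positivity) hzω)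
  rw [dsw_zt_eq z τ v h1 h2, norm_div, norm_mul, norm_pow, norm_pow, norm_inv,
    Real.norm_rpow_of_nonneg (norm_nonneg _), norm_norm]
  rw [div_le_iff₀ (by positivity)]
  have h3 : (r * ‖v‖) ^ 2 * (r * ‖v‖ / 2) ≤ ‖dsw_om τ v‖ ^ 2 * ‖z + dsw_om τ v‖ := by
    gcongr
  have h4 : (‖v‖ ^ (3 : ℝ)) = ‖v‖ ^ 3 := by
    rw [show (3 : ℝ) = ((3 : ℕ) : ℝ) by norm_num, Real.rpow_natCast]
  rw [h4]
  calc ‖z‖ ^ 2 = 2 * ‖z‖ ^ 2 / r ^ 3 * (‖v‖ ^ 3)⁻¹ * ((r * ‖v‖) ^ 2 * (r * ‖v‖ / 2)) := by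
        field_simp
    _ ≤ _ := by gcongr

/-- The zeta sum converges absolutely (for every `z`, thanks to `1 / 0 = 0`). -/
lemma dsw_zt_summable (z : ℂ) (τ : ℍ) : Summable (dsw_zt z τ) :=
  EisensteinSeries.summable_of_isBigO_rpow_norm (by norm_num) (dsw_zt_isBigO z τ)

lemma dsw_zeta_hasSum (z : ℂ) (τ : ℍ) : HasSum (dsw_zt z τ) (dsw_zeta z τ) :=
  (dsw_zt_summable z τ).hasSum

/-- Homogeneity: `ζ(w / j(γ, τ); γ τ) = j(γ, τ) ζ(w; τ)`. -/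
theorem dsw_zeta_smul (γ : SL(2, ℤ)) (τ : ℍ) (w : ℂ) :
    dsw_zeta (w / denom γ τ) (γ • τ) = denom γ τ * dsw_zeta w τ := by
  unfold dsw_zeta
  rw [← tsum_mul_left, ← (dsw_vecMulEquiv γ).tsum_eq (fun v => denom γ τ * dsw_zt w τ v)]
  exact tsum_congr fun v => dsw_zt_smul γ τ w v

end

end Fermat.Agent.DS
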