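/-
DS-W / [W-EIS], part 2: Eisenstein summation.  For `z ∉ ℤ τ + ℤ` the symmetric partial sums of
`∑_m π cot π (z + m τ)` converge to `ζ(z; τ) - z G₂(τ)` (`ζ` = `dsw_zeta`, `G₂` = Mathlib's `G2`).
-/
import Mathlib
import Fermat.Agent.DS.Wt.ZetaSum

set_option autoImplicit false

namespace Fermat.Agent.DS

open UpperHalfPlane Complex Filter Topology EisensteinSeries SummationFilter
open scoped Real MatrixGroups

local notation "ℂ_ℤ" => Complex.integerComplement

noncomputable section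


lemma dsw_cot_pi_zero : (π : ℂ) * cot (π * 0) = 0 := by
  simp [Complex.cot]

/-- `∑_{n ∈ ℤ} (1 / (u + n) - 1 / (v + n)) = π cot π u - π cot π v` (`v = 0` allowed, with
`1 / 0 = 0` and `cot 0 = 0`). -/
lemma dsw_tsum_cot_sub {u v : ℂ} (hu : u ∈ ℂ_ℤ) (hv : v ∈ ℂ_ℤ ∨ v = 0)
    (hf : Summable fun n : ℤ => 1 / (u + n) - 1 / (v + n)) :
    ∑' n : ℤ, (1 / (u + n) - 1 / (v + n)) = π * cot (π * u) - π * cot (π * v) := by
  set f : ℤ → ℂ := fun n => 1 / (u + n) - 1 / (v + n) with hfdef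
  set S := ∑' n : ℤ, f n with hS
  have h1 : HasSum (fun n : ℕ => f n + f (-n)) (S + f 0) := hf.hasSum.nat_add_neg
  have h2 := (hasSum_nat_add_iff' 1).mpr h1
  have hu' : HasSum (fun n : ℕ => cotTerm u n) (π * cot (π * u) - 1 / u) := by
    have := (summable_cotTerm hu).hasSum
    rwa [← cot_series_rep' hu] at this
  have hf0 : f 0 = 1 / u - 1 / v := by simp [hfdef]
  rcases hv with hv | hv
  · have hv' : HasSum (fun n : ℕ => cotTerm v n) (π * cot (π * v) - 1 / v) := by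
      have := (summable_cotTerm hv).hasSum
      rwa [← cot_series_rep' hv] at this
    have h3 := hu'.sub hv'
    have h4 : (fun n : ℕ => f ((n + 1 : ℕ) : ℤ) + f (-((n + 1 : ℕ) : ℤ))) =
        fun n : ℕ => cotTerm u n - cotTerm v n := by
      funext n
      simp only [hfdef, cotTerm]
      push_cast
      ring
    rw [h4] at h2
    have h5 := h2.unique h3
    simp only [Finset.range_one, Finset.sum_singleton, Nat.cast_zero, neg_zero] at h5
    rw [hf0] at h5
    linear_combination h5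
  · subst hv
    have h4 : (fun n : ℕ => f ((n + 1 : ℕ) : ℤ) + f (-((n + 1 : ℕ) : ℤ))) =
        fun n : ℕ => cotTerm u n := by
      funext n
      simp only [hfdef, cotTerm]
      push_cast
      rw [zero_add, zero_add, one_div_neg_eq_neg_one_div]
      ring
    rw [h4] at h2
    have h5 := h2.unique hu'
    simp only [Finset.range_one, Finset.sum_singleton, Nat.cast_zero, neg_zero] at h5
    rw [hf0] at h5
    rw [dsw_cot_pi_zero]
    simp only [div_zero, sub_zero] at h5 ⊢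
    linear_combination h5


lemma dsw_zt_prod_summable (z : ℂ) (τ : ℍ) :
    Summable (fun p : ℤ × ℤ => dsw_zt z τ ![p.1, p.2]) :=
  (finTwoArrowEquiv _).symm.summable_iff.mpr (dsw_zt_summable z τ)

lemma dsw_zt_prod_hasSum (z : ℂ) (τ : ℍ) :
    HasSum (fun p : ℤ × ℤ => dsw_zt z τ ![p.1, p.2]) (dsw_zeta z τ) := by
  have := (finTwoArrowEquiv ℤ).symm.hasSum_iff.mpr (dsw_zeta_hasSum z τ)
  exact this

lemma dsw_int_mul_mem (τ : ℍ) (m : ℤ) : (m : ℂ) * τ ∈ ℂ_ℤ ∨ (m : ℂ) * τ = 0 := by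
  rcases eq_or_ne m 0 with rfl | hm
  · right; simp
  · left
    rw [mem_integerComplement_iff]
    rintro ⟨n, hn⟩
    have := congrArg Complex.im hn
    simp at this
    rcases this with h | h
    · exact hm h
    · exact τ.im_ne_zero h

lemma dsw_row_sum (z : ℂ) (τ : ℍ) (m : ℤ) (hz : z + m * τ ∈ ℂ_ℤ) :
    ∑' n : ℤ, dsw_zt z τ ![m, n] =
      π * cot (π * (z + m * τ)) - π * cot (π * (m * τ)) + z * e2Summand m τ := by
  have hrow : Summable fun n : ℤ => dsw_zt z τ ![m, n] :=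
    (dsw_zt_prod_summable z τ).prod_factor m
  have hg : Summable fun n : ℤ => z * eisSummand 2 ![m, n] τ :=
    (e2Summand_summable m τ).mul_left z
  have hsplit : ∀ n : ℤ, dsw_zt z τ ![m, n] =
      (1 / ((z + m * τ) + n) - 1 / ((m : ℂ) * τ + n)) + z * eisSummand 2 ![m, n] τ := by
    intro n
    simp only [dsw_zt, dsw_om, eisSummand, Matrix.cons_val_zero, Matrix.cons_val_one,
      Matrix.cons_val_fin_one, zpow_neg, zpow_ofNat, div_eq_mul_inv, one_mul, add_assoc]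
  have hf : Summable fun n : ℤ => 1 / ((z + m * τ) + n) - 1 / ((m : ℂ) * τ + n) := by
    have := hrow.sub hg
    refine this.congr fun n => ?_
    rw [hsplit n]; ring
  rw [tsum_congr hsplit, hf.tsum_add hg, tsum_mul_left, dsw_tsum_cot_sub hz (dsw_int_mul_mem τ m) hf]
  rfl

lemma dsw_cot_neg (x : ℂ) : cot (-x) = -cot x := by
  simp [Complex.cot, Complex.sin_neg, Complex.cos_neg, div_neg]

lemma dsw_sum_Icc_odd {f : ℤ → ℂ} (hf : ∀ m, f (-m) = -f m) (N : ℕ) :
    ∑ m ∈ Finset.Icc (-(N : ℤ)) N, f m = 0 := by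
  have h1 : ∑ m ∈ Finset.Icc (-(N : ℤ)) N, f m = ∑ m ∈ Finset.Icc (-(N : ℤ)) N, f (-m) := by
    refine Finset.sum_nbij' (fun m => -m) (fun m => -m) ?_ ?_ ?_ ?_ ?_
    · intro m hm; simp only [Finset.mem_Icc] at hm ⊢; omega
    · intro m hm; simp only [Finset.mem_Icc] at hm ⊢; omega
    · intro m _; simp
    · intro m _; simp
    · intro m _; simp
  have h2 : ∑ m ∈ Finset.Icc (-(N : ℤ)) N, f (-m) = -∑ m ∈ Finset.Icc (-(N : ℤ)) N, f m := by
    rw [← Finset.sum_neg_distrib]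
    exact Finset.sum_congr rfl fun m _ => hf m
  have h3 : (2 : ℂ) * ∑ m ∈ Finset.Icc (-(N : ℤ)) N, f m = 0 := by
    rw [two_mul]
    nth_rewrite 1 [h1, h2]
    ring
  exact (mul_eq_zero.mp h3).resolve_left two_ne_zero

/-- Eisenstein summation: the symmetric partial sums of `∑_m π cot π (z + m τ)` converge to
`ζ(z; τ) - z G₂(τ)`. -/
theorem dsw_tendsto_cot_sum (z : ℂ) (τ : ℍ) (hz : ∀ m : ℤ, z + m * τ ∈ ℂ_ℤ) :
    Tendsto (fun N : ℕ => ∑ m ∈ Finset.Icc (-(N : ℤ)) N, π * cot (π * (z + m * τ))) atTop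
      (𝓝 (dsw_zeta z τ - z * G2 τ)) := by
  have hR : HasSum (fun m : ℤ => ∑' n : ℤ, dsw_zt z τ ![m, n]) (dsw_zeta z τ) :=
    (dsw_zt_prod_hasSum z τ).prod_fiberwise fun m =>
      ((dsw_zt_prod_summable z τ).prod_factor m).hasSum
  have hR' := hasSum_symmetricIcc_iff.mp (hR.mono_left (symmetricIcc ℤ).le_atTop)
  have hG : Tendsto (fun N : ℕ => ∑ m ∈ Finset.Icc (-(N : ℤ)) N, e2Summand m τ) atTop
      (𝓝 (G2 τ)) :=
    hasSum_symmetricIcc_iff.mp (summable_e2Summand_symmetricIcc τ).hasSum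
  have h := hR'.sub (hG.const_mul z)
  refine h.congr fun N => ?_
  have hodd : ∑ m ∈ Finset.Icc (-(N : ℤ)) N, (π : ℂ) * cot (π * ((m : ℂ) * τ)) = 0 :=
    dsw_sum_Icc_odd (f := fun m : ℤ => (π : ℂ) * cot (π * ((m : ℂ) * τ)))
      (fun m => by simp only [Int.cast_neg, neg_mul, mul_neg, dsw_cot_neg]) N
  rw [Finset.mul_sum, ← Finset.sum_sub_distrib]
  rw [← sub_zero (∑ m ∈ Finset.Icc (-(N : ℤ)) N, π * cot (π * (z + m * τ))), ← hodd,
    ← Finset.sum_sub_distrib]
  refine Finset.sum_congr rfl fun m _ => ?_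
  rw [dsw_row_sum z τ m (hz m)]
  ring


end

end Fermat.Agent.DS
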