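/-
DS-W / [W-EIS], part 3: the weight one "division values"

  `dsw_G ℓ v τ = Z((v₀ τ + v₁) / ℓ; τ) + 2 π i v₀ / ℓ`,   `Z(z; τ) = ζ(z; τ) - z G₂(τ)`,

for `v ∈ ℤ²`, `v ≢ 0 mod ℓ`:
* `dsw_G_smul`  : `G_ℓ(v; γ τ) = j(γ, τ) G_ℓ(v γ; τ)` for `γ ∈ SL(2, ℤ)`;
* `dsw_G_add`   : `G_ℓ(v + ℓ w) = G_ℓ(v)`;
* `dsw_G_mdifferentiable`, `dsw_G_isBoundedAtImInfty`;
* `dsw_Z_tendsto` : `Z(z; τ) = lim_N ∑_{|m| ≤ N} π cot π (z + m τ)` (Eisenstein summation).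
-/
import Mathlib
import Fermat.Agent.DS.Wt.CotSum

set_option autoImplicit false

namespace Fermat.Agent.DS

open UpperHalfPlane hiding I
open Complex Filter Topology EisensteinSeries SummationFilter ModularForm Matrix
open scoped Real MatrixGroups Manifold

local notation "ℂ_ℤ" => Complex.integerComplement

noncomputable section

/-- `Z(z; τ) = ζ(z; τ) - z G₂(τ)`: the Eisenstein-summed `∑_{m,n} 1 / (z + m τ + n)`. -/
def dsw_Z (z : ℂ) (τ : ℍ) : ℂ := dsw_zeta z τ - z * G2 τ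

lemma dsw_G2_smul (γ : SL(2, ℤ)) (τ : ℍ) :
    G2 (γ • τ) = denom γ τ ^ 2 * G2 τ - 2 * π * I * (γ 1 0 : ℤ) * denom γ τ := by
  have hd : denom γ τ ≠ 0 := denom_ne_zero γ τ
  have h := congrFun (G2_slash_action γ) τ
  rw [SL_slash_apply] at h
  simp only [Pi.sub_apply, D2] at h
  rw [_root_.zpow_neg, zpow_ofNat] at h
  field_simp at h
  linear_combination h

theorem dsw_Z_smul (γ : SL(2, ℤ)) (τ : ℍ) (w : ℂ) :
    dsw_Z (w / denom γ τ) (γ • τ) = denom γ τ * dsw_Z w τ + 2 * π * I * (γ 1 0 : ℤ) * w := by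
  have hd : denom γ τ ≠ 0 := denom_ne_zero γ τ
  rw [dsw_Z, dsw_Z, dsw_zeta_smul, dsw_G2_smul]
  field_simp
  ring

/-- `z` is not a point of the lattice `ℤ τ + ℤ`. -/
def dsw_NL (z : ℂ) (τ : ℍ) : Prop := ∀ m : ℤ, z + m * τ ∈ ℂ_ℤ

lemma dsw_Z_tendsto {z : ℂ} {τ : ℍ} (hz : dsw_NL z τ) :
    Tendsto (fun N : ℕ => ∑ m ∈ Finset.Icc (-(N : ℤ)) N, π * cot (π * (z + m * τ))) atTop
      (𝓝 (dsw_Z z τ)) :=
  dsw_tendsto_cot_sum z τ hz

lemma dsw_sum_Icc_succ (f : ℤ → ℂ) (N : ℕ) :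
    ∑ m ∈ Finset.Icc (-((N + 1 : ℕ) : ℤ)) ((N + 1 : ℕ) : ℤ), f m =
      ∑ m ∈ Finset.Icc (-(N : ℤ)) N, f m + f ((N : ℤ) + 1) + f (-((N : ℤ) + 1)) := by
  have h : Finset.Icc (-((N + 1 : ℕ) : ℤ)) ((N + 1 : ℕ) : ℤ) =
      insert (-((N : ℤ) + 1)) (insert ((N : ℤ) + 1) (Finset.Icc (-(N : ℤ)) N)) := by
    ext m
    simp only [Finset.mem_Icc, Finset.mem_insert]
    push_cast
    omega
  rw [h, Finset.sum_insert, Finset.sum_insert]
  · ring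
  · simp only [Finset.mem_Icc]; omega
  · simp only [Finset.mem_insert, Finset.mem_Icc]; omega

lemma dsw_sum_Icc_eq_range (f : ℤ → ℂ) (N : ℕ) :
    ∑ m ∈ Finset.Icc (-(N : ℤ)) N, f m =
      f 0 + ∑ k ∈ Finset.range N, (f ((k : ℤ) + 1) + f (-((k : ℤ) + 1))) := by
  induction N with
  | zero => simp
  | succ N ih =>
    rw [dsw_sum_Icc_succ, ih, Finset.sum_range_succ]
    ring

lemma dsw_sum_Icc_shift (f : ℤ → ℂ) (N : ℕ) :
    ∑ m ∈ Finset.Icc (-(N : ℤ)) N, f (m + 1) =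
      ∑ m ∈ Finset.Icc (-(N : ℤ)) N, f m + f ((N : ℤ) + 1) - f (-(N : ℤ)) := by
  induction N with
  | zero => simp
  | succ N ih =>
    rw [dsw_sum_Icc_succ, dsw_sum_Icc_succ, ih]
    push_cast
    have : -((N : ℤ) + 1) + 1 = -(N : ℤ) := by ring
    rw [this]
    ring

lemma dsw_cot_add_pi (x : ℂ) : cot (x + π) = cot x := by
  simp [Complex.cot, Complex.sin_add_pi, Complex.cos_add_pi]

lemma dsw_tendsto_cot_up (z : ℂ) (τ : ℍ) :
    Tendsto (fun N : ℕ => cot (π * (z + N * τ))) atTop (𝓝 (-I)) := by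
  have hq : ‖cexp (2 * π * I * τ)‖ < 1 := UpperHalfPlane.norm_exp_two_pi_I_lt_one τ
  have hw : Tendsto (fun N : ℕ => cexp (2 * π * I * (z + N * τ))) atTop (𝓝 0) := by
    have h1 : ∀ N : ℕ, cexp (2 * π * I * (z + N * τ)) =
        cexp (2 * π * I * z) * cexp (2 * π * I * τ) ^ N := by
      intro N
      rw [← Complex.exp_nat_mul, ← Complex.exp_add]
      congr 1; ring
    simp_rw [h1]
    simpa using (tendsto_pow_atTop_nhds_zero_of_norm_lt_one hq).const_mul (cexp (2 * π * I * z))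
  have h2 : Tendsto (fun N : ℕ => (cexp (2 * π * I * (z + N * τ)) + 1) /
      (I * (1 - cexp (2 * π * I * (z + N * τ))))) atTop (𝓝 ((0 + 1) / (I * (1 - 0)))) := by
    refine Tendsto.div (hw.add_const 1) ((tendsto_const_nhds.sub hw).const_mul I) ?_
    simp
  have h3 : ((0 : ℂ) + 1) / (I * (1 - 0)) = -I := by
    simp [Complex.inv_I]
  rw [h3] at h2
  refine h2.congr fun N => ?_
  rw [Complex.cot_pi_eq_exp_ratio]

lemma dsw_tendsto_cot_down (z : ℂ) (τ : ℍ) :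
    Tendsto (fun N : ℕ => cot (π * (z - N * τ))) atTop (𝓝 I) := by
  have h := (dsw_tendsto_cot_up (-z) τ).neg
  rw [neg_neg] at h
  refine h.congr fun N => ?_
  rw [← dsw_cot_neg]
  congr 1; ring

lemma dsw_NL_add_one {z : ℂ} {τ : ℍ} (hz : dsw_NL z τ) : dsw_NL (z + 1) τ := by
  intro m
  have := (add_intCast_mem_integerComplement (x := z + m * τ) 1).mpr (hz m)
  convert this using 1
  push_cast; ring

lemma dsw_NL_sub_one {z : ℂ} {τ : ℍ} (hz : dsw_NL z τ) : dsw_NL (z - 1) τ := by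
  intro m
  have := (add_intCast_mem_integerComplement (x := z + m * τ) (-1)).mpr (hz m)
  convert this using 1
  push_cast; ring

lemma dsw_NL_add_tau {z : ℂ} {τ : ℍ} (hz : dsw_NL z τ) : dsw_NL (z + τ) τ := by
  intro m
  have := hz (m + 1)
  convert this using 1
  push_cast; ring

lemma dsw_NL_sub_tau {z : ℂ} {τ : ℍ} (hz : dsw_NL z τ) : dsw_NL (z - τ) τ := by
  intro m
  have := hz (m - 1)
  convert this using 1
  push_cast; ring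

lemma dsw_Z_add_one {z : ℂ} {τ : ℍ} (hz : dsw_NL z τ) : dsw_Z (z + 1) τ = dsw_Z z τ := by
  refine tendsto_nhds_unique (dsw_Z_tendsto (dsw_NL_add_one hz)) ((dsw_Z_tendsto hz).congr fun N => ?_)
  refine Finset.sum_congr rfl fun m _ => ?_
  rw [← dsw_cot_add_pi (π * (z + m * τ))]
  congr 2; ring

lemma dsw_Z_add_tau {z : ℂ} {τ : ℍ} (hz : dsw_NL z τ) :
    dsw_Z (z + τ) τ = dsw_Z z τ - 2 * π * I := by
  have h1 := dsw_Z_tendsto (dsw_NL_add_tau hz)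
  have h2 : Tendsto (fun N : ℕ => ∑ m ∈ Finset.Icc (-(N : ℤ)) N, π * cot (π * (z + m * τ)) +
      π * cot (π * (z + ((N : ℤ) + 1 : ℤ) * τ)) - π * cot (π * (z + (-(N : ℤ) : ℤ) * τ))) atTop
      (𝓝 (dsw_Z z τ + π * (-I) - π * I)) := by
    refine ((dsw_Z_tendsto hz).add (Tendsto.const_mul _ ?_)).sub (Tendsto.const_mul _ ?_)
    · have := (dsw_tendsto_cot_up (z + τ) τ)
      refine this.congr fun N => ?_
      congr 2; push_cast; ring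
    · have := (dsw_tendsto_cot_down z τ)
      refine this.congr fun N => ?_
      congr 2; push_cast; ring
  have h3 := tendsto_nhds_unique h1 (h2.congr fun N => ?_)
  · rw [h3]; ring
  · rw [← dsw_sum_Icc_shift (fun m : ℤ => (π : ℂ) * cot (π * (z + m * τ))) N]
    refine Finset.sum_congr rfl fun m _ => ?_
    congr 2; push_cast; ring

lemma dsw_Z_sub_one {z : ℂ} {τ : ℍ} (hz : dsw_NL z τ) : dsw_Z (z - 1) τ = dsw_Z z τ := by
  have := dsw_Z_add_one (dsw_NL_sub_one hz)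
  rw [sub_add_cancel] at this
  exact this.symm

lemma dsw_Z_sub_tau {z : ℂ} {τ : ℍ} (hz : dsw_NL z τ) :
    dsw_Z (z - τ) τ = dsw_Z z τ + 2 * π * I := by
  have := dsw_Z_add_tau (dsw_NL_sub_tau hz)
  rw [sub_add_cancel] at this
  rw [this]; ring

lemma dsw_NL_add_lattice {z : ℂ} {τ : ℍ} (hz : dsw_NL z τ) (m n : ℤ) :
    dsw_NL (z + m * τ + n) τ := by
  intro k
  have := (add_intCast_mem_integerComplement (x := z + (m + k : ℤ) * τ) n).mpr (hz (m + k))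
  convert this using 1
  push_cast; ring

theorem dsw_Z_add_lattice {z : ℂ} {τ : ℍ} (hz : dsw_NL z τ) (m n : ℤ) :
    dsw_Z (z + m * τ + n) τ = dsw_Z z τ - 2 * π * I * m := by
  have hn : ∀ (w : ℂ), dsw_NL w τ → ∀ n : ℤ, dsw_Z (w + n) τ = dsw_Z w τ := by
    intro w hw n
    induction n using Int.induction_on with
    | zero => simp
    | succ k ih =>
      have h1 : dsw_NL (w + (k : ℤ)) τ := by
        have := dsw_NL_add_lattice hw 0 k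
        simpa using this
      have := dsw_Z_add_one h1
      rw [ih] at this
      rw [← this]; congr 1; push_cast; ring
    | pred k ih =>
      have h1 : dsw_NL (w + ((-(k : ℤ) : ℤ) : ℂ)) τ := by
        have := dsw_NL_add_lattice hw 0 (-(k : ℤ))
        simpa using this
      have := dsw_Z_sub_one h1
      rw [ih] at this
      rw [← this]; congr 1; push_cast; ring
  have hm : ∀ m : ℤ, dsw_Z (z + m * τ) τ = dsw_Z z τ - 2 * π * I * m := by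
    intro m
    induction m using Int.induction_on with
    | zero => simp
    | succ k ih =>
      have h1 : dsw_NL (z + ((k : ℕ) : ℤ) * τ) τ := by
        have := dsw_NL_add_lattice hz k 0
        simpa using this
      have := dsw_Z_add_tau h1
      rw [ih] at this
      rw [show z + (((k : ℕ) : ℤ) + 1 : ℤ) * (τ : ℂ) = z + ((k : ℕ) : ℤ) * τ + τ by push_cast; ring,
        this]
      push_cast; ring
    | pred k ih =>
      have h1 : dsw_NL (z + ((-(k : ℕ) : ℤ) : ℂ) * τ) τ := by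
        have := dsw_NL_add_lattice hz (-(k : ℤ)) 0
        simpa using this
      have := dsw_Z_sub_tau h1
      rw [ih] at this
      rw [show z + ((-(k : ℕ) - 1 : ℤ) : ℂ) * (τ : ℂ) = z + ((-(k : ℕ) : ℤ) : ℂ) * τ - τ by
        push_cast; ring, this]
      push_cast; ring
  rw [hn _ (by simpa using dsw_NL_add_lattice hz m 0) n, hm m]

/-- `cot (π u) + i`, which decays exponentially as `Im u → +∞`. -/
def dsw_cp (u : ℂ) : ℂ := cot (π * u) + I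

lemma dsw_norm_exp (u : ℂ) : ‖cexp (2 * π * I * u)‖ = Real.exp (-2 * π * u.im) := by
  rw [Complex.norm_exp]
  congr 1
  simp

lemma dsw_cp_eq (u : ℂ) (hu : cexp (2 * π * I * u) ≠ 1) :
    dsw_cp u = 2 * cexp (2 * π * I * u) / (I * (1 - cexp (2 * π * I * u))) := by
  rw [dsw_cp, Complex.cot_pi_eq_exp_ratio]
  have h1 : (1 - cexp (2 * π * I * u)) ≠ 0 := sub_ne_zero.mpr (Ne.symm hu)
  field_simp
  ring_nf
  simp only [I_sq]
  ring

lemma dsw_cp_bound (u : ℂ) (a₀ a : ℝ) (ha₀ : 0 < a₀) (h1 : a₀ ≤ u.im) (h2 : a ≤ u.im) :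
    ‖dsw_cp u‖ ≤ 2 * Real.exp (-2 * π * a) / (1 - Real.exp (-2 * π * a₀)) := by
  have hw : ‖cexp (2 * π * I * u)‖ = Real.exp (-2 * π * u.im) := dsw_norm_exp u
  have hw1 : Real.exp (-2 * π * u.im) ≤ Real.exp (-2 * π * a₀) := by
    apply Real.exp_le_exp.mpr
    nlinarith [Real.pi_pos]
  have hw2 : Real.exp (-2 * π * u.im) ≤ Real.exp (-2 * π * a) := by
    apply Real.exp_le_exp.mpr
    nlinarith [Real.pi_pos]
  have hw3 : Real.exp (-2 * π * a₀) < 1 := by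
    rw [Real.exp_lt_one_iff]  
    nlinarith [Real.pi_pos]
  have hne : cexp (2 * π * I * u) ≠ 1 := by
    intro h
    rw [h, norm_one] at hw
    linarith
  rw [dsw_cp_eq u hne, norm_div, norm_mul, norm_mul, Complex.norm_I, one_mul, hw]
  have h3 : 1 - Real.exp (-2 * π * a₀) ≤ ‖1 - cexp (2 * π * I * u)‖ := by
    have := norm_sub_norm_le (1 : ℂ) (cexp (2 * π * I * u))
    rw [norm_one, hw] at this
    linarith
  have h4 : 0 < 1 - Real.exp (-2 * π * a₀) := by linarith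
  rw [Complex.norm_ofNat]
  calc 2 * Real.exp (-2 * π * u.im) / ‖1 - cexp (2 * π * I * u)‖
      ≤ 2 * Real.exp (-2 * π * a) / ‖1 - cexp (2 * π * I * u)‖ := by gcongr
    _ ≤ 2 * Real.exp (-2 * π * a) / (1 - Real.exp (-2 * π * a₀)) := by
        apply div_le_div_of_nonneg_left (by positivity) h4 h3

lemma dsw_sin_ne_zero_of_im_pos {u : ℂ} (hu : 0 < u.im) : Complex.sin (π * u) ≠ 0 := by
  apply sin_pi_mul_ne_zero
  exact UpperHalfPlane.coe_mem_integerComplement ⟨u, hu⟩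

lemma dsw_cot_differentiableAt {u : ℂ} (hu : Complex.sin (π * u) ≠ 0) :
    DifferentiableAt ℂ (fun w : ℂ => cot (π * w)) u := by
  have : (fun w : ℂ => cot (π * w)) = fun w => Complex.cos (π * w) / Complex.sin (π * w) := by
    funext w; rw [Complex.cot_eq_cos_div_sin]
  rw [this]
  exact DifferentiableAt.div (by fun_prop) (by fun_prop) hu

lemma dsw_cp_differentiableAt {u : ℂ} (hu : 0 < u.im) : DifferentiableAt ℂ dsw_cp u := by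
  unfold dsw_cp
  exact (dsw_cot_differentiableAt (dsw_sin_ne_zero_of_im_pos hu)).add_const I

/-- The `k`-th paired term of the cotangent series of `Z(x₁ t + x₂; t)`. -/
def dsw_Tm (x₁ x₂ : ℝ) (k : ℕ) (t : ℂ) : ℂ :=
  π * (dsw_cp ((x₁ + (k + 1)) * t + x₂) - dsw_cp (((k + 1) - x₁) * t - x₂))

lemma dsw_Tm_eq (x₁ x₂ : ℝ) (k : ℕ) (t : ℂ) :
    dsw_Tm x₁ x₂ k t = π * cot (π * ((x₁ * t + x₂) + (((k : ℤ) + 1 : ℤ) : ℂ) * t)) +
      π * cot (π * ((x₁ * t + x₂) + ((-((k : ℤ) + 1) : ℤ) : ℂ) * t)) := by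
  unfold dsw_Tm dsw_cp
  have h1 : (π : ℂ) * ((x₁ * t + x₂) + ((-((k : ℤ) + 1) : ℤ) : ℂ) * t) =
      -(π * (((k + 1) - x₁) * t - x₂)) := by push_cast; ring
  rw [h1, dsw_cot_neg]
  have h2 : (π : ℂ) * ((x₁ * t + x₂) + (((k : ℤ) + 1 : ℤ) : ℂ) * t) =
      π * ((x₁ + (k + 1)) * t + x₂) := by push_cast; ring
  rw [h2]
  ring

/-- The majorant. -/
def dsw_Maj (κ δ : ℝ) (k : ℕ) : ℝ :=
  4 * π / (1 - Real.exp (-2 * π * (κ * δ))) * Real.exp (-2 * π * δ) ^ k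

lemma dsw_Maj_summable (κ δ : ℝ) (hδ : 0 < δ) : Summable (dsw_Maj κ δ) := by
  unfold dsw_Maj
  apply Summable.mul_left
  apply summable_geometric_of_lt_one (Real.exp_pos _).le
  rw [Real.exp_lt_one_iff]
  nlinarith [Real.pi_pos]

lemma dsw_Tm_bound (x₁ x₂ : ℝ) (h0 : 0 ≤ x₁) (h1 : x₁ < 1) (δ : ℝ) (hδ : 0 < δ) (k : ℕ) (t : ℂ)
    (ht : δ ≤ t.im) : ‖dsw_Tm x₁ x₂ k t‖ ≤ dsw_Maj (1 - x₁) δ k := by
  have hκ : 0 < 1 - x₁ := by linarith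
  have hk : (0 : ℝ) ≤ k := Nat.cast_nonneg k
  have him1 : (((x₁ : ℂ) + ((k : ℂ) + 1)) * t + x₂).im = (x₁ + (k + 1)) * t.im := by
    simp [Complex.add_im, Complex.mul_im]
  have him2 : ((((k : ℂ) + 1) - (x₁ : ℂ)) * t - x₂).im = ((k + 1) - x₁) * t.im := by
    simp [Complex.sub_im, Complex.mul_im]
  have ht0 : 0 < t.im := lt_of_lt_of_le hδ ht
  have hb1 := dsw_cp_bound (((x₁ : ℂ) + ((k : ℂ) + 1)) * t + x₂) ((1 - x₁) * δ) (k * δ)
    (by positivity) (by rw [him1]; nlinarith) (by rw [him1]; nlinarith)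
  have hb2 := dsw_cp_bound ((((k : ℂ) + 1) - (x₁ : ℂ)) * t - x₂) ((1 - x₁) * δ) (k * δ)
    (by positivity) (by rw [him2]; nlinarith) (by rw [him2]; nlinarith)
  unfold dsw_Tm dsw_Maj
  rw [norm_mul, Complex.norm_real, Real.norm_of_nonneg Real.pi_pos.le]
  have hexp : Real.exp (-2 * π * (k * δ)) = Real.exp (-2 * π * δ) ^ k := by
    rw [← Real.exp_nat_mul]; congr 1; ring
  rw [hexp] at hb1 hb2
  have hden : 0 < 1 - Real.exp (-2 * π * ((1 - x₁) * δ)) := by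
    have : Real.exp (-2 * π * ((1 - x₁) * δ)) < 1 := by
      rw [Real.exp_lt_one_iff]
      have : 0 < (1 - x₁) * δ := by positivity
      nlinarith [Real.pi_pos]
    linarith
  calc π * ‖dsw_cp (((x₁ : ℂ) + ((k : ℂ) + 1)) * t + x₂) - dsw_cp ((((k : ℂ) + 1) - (x₁ : ℂ)) * t - x₂)‖
      ≤ π * (‖dsw_cp (((x₁ : ℂ) + ((k : ℂ) + 1)) * t + x₂)‖ +
          ‖dsw_cp ((((k : ℂ) + 1) - (x₁ : ℂ)) * t - x₂)‖) := by
        gcongr
        exact norm_sub_le _ _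
    _ ≤ π * (2 * Real.exp (-2 * π * δ) ^ k / (1 - Real.exp (-2 * π * ((1 - x₁) * δ))) +
          2 * Real.exp (-2 * π * δ) ^ k / (1 - Real.exp (-2 * π * ((1 - x₁) * δ)))) := by
        gcongr
    _ = 4 * π / (1 - Real.exp (-2 * π * ((1 - x₁) * δ))) * Real.exp (-2 * π * δ) ^ k := by
        field_simp
        ring

lemma dsw_Tm_differentiableAt (x₁ x₂ : ℝ) (h0 : 0 ≤ x₁) (h1 : x₁ < 1) (k : ℕ) (t : ℂ)
    (ht : 0 < t.im) : DifferentiableAt ℂ (dsw_Tm x₁ x₂ k) t := by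
  have hk : (0 : ℝ) ≤ k := Nat.cast_nonneg k
  have him1 : (((x₁ : ℂ) + ((k : ℂ) + 1)) * t + x₂).im = (x₁ + (k + 1)) * t.im := by
    simp [Complex.add_im, Complex.mul_im]
  have him2 : ((((k : ℂ) + 1) - (x₁ : ℂ)) * t - x₂).im = ((k + 1) - x₁) * t.im := by
    simp [Complex.sub_im, Complex.mul_im]
  unfold dsw_Tm
  refine DifferentiableAt.const_mul (DifferentiableAt.sub ?_ ?_) _
  · have h := dsw_cp_differentiableAt (u := ((x₁ : ℂ) + ((k : ℂ) + 1)) * t + x₂)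
      (by rw [him1]; positivity)
    exact DifferentiableAt.comp (g := dsw_cp) (f := fun t : ℂ => ((x₁ : ℂ) + ((k : ℂ) + 1)) * t + x₂)
      t h (by fun_prop)
  · have h := dsw_cp_differentiableAt (u := (((k : ℂ) + 1) - (x₁ : ℂ)) * t - x₂)
      (by rw [him2]; apply mul_pos _ ht; linarith)
    exact DifferentiableAt.comp (g := dsw_cp) (f := fun t : ℂ => (((k : ℂ) + 1) - (x₁ : ℂ)) * t - x₂)
      t h (by fun_prop)

/-- The cotangent series of `Z(x₁ t + x₂; t) + 2 π i x₁` as a function of the complex variable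
`t`. -/
def dsw_Phi (x₁ x₂ : ℝ) (t : ℂ) : ℂ :=
  π * cot (π * (x₁ * t + x₂)) + 2 * π * I * x₁ + ∑' k : ℕ, dsw_Tm x₁ x₂ k t

lemma dsw_Tm_summable (x₁ x₂ : ℝ) (h0 : 0 ≤ x₁) (h1 : x₁ < 1) (t : ℂ) (ht : 0 < t.im) :
    Summable fun k : ℕ => dsw_Tm x₁ x₂ k t :=
  Summable.of_norm_bounded (dsw_Maj_summable (1 - x₁) t.im ht)
    (fun k => dsw_Tm_bound x₁ x₂ h0 h1 t.im ht k t le_rfl)

theorem dsw_Z_eq_Phi (x₁ x₂ : ℝ) (h0 : 0 ≤ x₁) (h1 : x₁ < 1) (τ : ℍ)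
    (hz : dsw_NL (x₁ * τ + x₂) τ) :
    dsw_Z (x₁ * τ + x₂) τ + 2 * π * I * x₁ = dsw_Phi x₁ x₂ τ := by
  have hT := dsw_Tm_summable x₁ x₂ h0 h1 τ τ.im_pos
  have h2 : Tendsto (fun N : ℕ => π * cot (π * (x₁ * τ + x₂)) +
      ∑ k ∈ Finset.range N, dsw_Tm x₁ x₂ k τ) atTop
      (𝓝 (π * cot (π * (x₁ * τ + x₂)) + ∑' k : ℕ, dsw_Tm x₁ x₂ k τ)) :=
    hT.hasSum.tendsto_sum_nat.const_add _
  have h3 := tendsto_nhds_unique (dsw_Z_tendsto hz) (h2.congr fun N => ?_)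
  · rw [h3, dsw_Phi]; ring
  · rw [dsw_sum_Icc_eq_range]
    congr 1
    · simp
    · refine Finset.sum_congr rfl fun k _ => ?_
      rw [dsw_Tm_eq]

theorem dsw_Phi_differentiableOn (x₁ x₂ : ℝ) (h0 : 0 ≤ x₁) (h1 : x₁ < 1) :
    DifferentiableOn ℂ (dsw_Phi x₁ x₂) {t : ℂ | 0 < t.im} := by
  intro t ht
  have ht' : 0 < t.im := ht
  apply DifferentiableAt.differentiableWithinAt
  set δ := t.im / 2 with hδdef
  have hδ : 0 < δ := by positivity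
  have hU : IsOpen {s : ℂ | δ < s.im} := isOpen_lt continuous_const Complex.continuous_im
  have htU : t ∈ {s : ℂ | δ < s.im} := by
    show δ < t.im
    rw [hδdef]; linarith
  have hsum : DifferentiableOn ℂ (fun s : ℂ => ∑' k : ℕ, dsw_Tm x₁ x₂ k s) {s : ℂ | δ < s.im} :=
    differentiableOn_tsum_of_summable_norm (dsw_Maj_summable (1 - x₁) δ hδ)
      (fun k s hs => (dsw_Tm_differentiableAt x₁ x₂ h0 h1 k s
        (lt_trans hδ hs)).differentiableWithinAt) hU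
      (fun k s hs => dsw_Tm_bound x₁ x₂ h0 h1 δ hδ k s (le_of_lt hs))
  have hsum' := hsum.differentiableAt (hU.mem_nhds htU)
  unfold dsw_Phi
  refine DifferentiableAt.add (DifferentiableAt.add ?_ (differentiableAt_const _)) hsum'
  refine DifferentiableAt.const_mul ?_ _
  rcases h0.eq_or_lt with h | h
  · have : (fun s : ℂ => cot (π * ((x₁ : ℂ) * s + x₂))) = fun _ => cot (π * x₂) := by
      funext s; rw [← h]; simp
    rw [this]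
    exact differentiableAt_const _
  · have him : ((x₁ : ℂ) * t + x₂).im = x₁ * t.im := by simp [Complex.add_im, Complex.mul_im]
    have h3 := dsw_cot_differentiableAt (u := (x₁ : ℂ) * t + x₂)
      (dsw_sin_ne_zero_of_im_pos (by rw [him]; positivity))
    exact DifferentiableAt.comp (g := fun w : ℂ => cot (π * w))
      (f := fun s : ℂ => (x₁ : ℂ) * s + x₂) t h3 (by fun_prop)

theorem dsw_Phi_bounded (x₁ x₂ : ℝ) (h0 : 0 ≤ x₁) (h1 : x₁ < 1) :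
    ∃ C : ℝ, ∀ t : ℂ, 1 ≤ t.im → ‖dsw_Phi x₁ x₂ t‖ ≤ C := by
  have hfirst : ∃ C₀ : ℝ, ∀ t : ℂ, 1 ≤ t.im → ‖(π : ℂ) * cot (π * (x₁ * t + x₂))‖ ≤ C₀ := by
    rcases h0.eq_or_lt with h | h
    · refine ⟨‖(π : ℂ) * cot (π * x₂)‖, fun t _ => ?_⟩
      rw [← h]; simp
    · refine ⟨π * (2 * Real.exp (-2 * π * 0) / (1 - Real.exp (-2 * π * x₁)) + 1), fun t ht => ?_⟩
      have him : ((x₁ : ℂ) * t + x₂).im = x₁ * t.im := by simp [Complex.add_im, Complex.mul_im]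
      have hb := dsw_cp_bound ((x₁ : ℂ) * t + x₂) x₁ 0 h (by rw [him]; nlinarith)
        (by rw [him]; nlinarith)
      rw [norm_mul, Complex.norm_real, Real.norm_of_nonneg Real.pi_pos.le]
      gcongr
      have : cot (π * ((x₁ : ℂ) * t + x₂)) = dsw_cp ((x₁ : ℂ) * t + x₂) - I := by
        unfold dsw_cp; ring
      rw [this]
      calc ‖dsw_cp ((x₁ : ℂ) * t + x₂) - I‖ ≤ ‖dsw_cp ((x₁ : ℂ) * t + x₂)‖ + ‖I‖ := norm_sub_le _ _
        _ ≤ _ := by rw [Complex.norm_I]; gcongr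
  obtain ⟨C₀, hC₀⟩ := hfirst
  refine ⟨C₀ + ‖2 * (π : ℂ) * I * x₁‖ + ∑' k : ℕ, dsw_Maj (1 - x₁) 1 k, fun t ht => ?_⟩
  unfold dsw_Phi
  have hT : ‖∑' k : ℕ, dsw_Tm x₁ x₂ k t‖ ≤ ∑' k : ℕ, dsw_Maj (1 - x₁) 1 k :=
    tsum_of_norm_bounded (dsw_Maj_summable (1 - x₁) 1 one_pos).hasSum
      (fun k => dsw_Tm_bound x₁ x₂ h0 h1 1 one_pos k t ht)
  calc _ ≤ ‖(π : ℂ) * cot (π * (x₁ * t + x₂)) + 2 * π * I * x₁‖ + ‖∑' k : ℕ, dsw_Tm x₁ x₂ k t‖ :=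
        norm_add_le _ _
    _ ≤ (‖(π : ℂ) * cot (π * (x₁ * t + x₂))‖ + ‖2 * (π : ℂ) * I * x₁‖) +
          ‖∑' k : ℕ, dsw_Tm x₁ x₂ k t‖ := by gcongr; exact norm_add_le _ _
    _ ≤ _ := by gcongr; exact hC₀ t ht

/-- The weight one division value `G_ℓ(v; τ) = Z((v₀ τ + v₁) / ℓ; τ) + 2 π i v₀ / ℓ`. -/
def dsw_G (ℓ : ℕ) (v : Fin 2 → ℤ) (τ : ℍ) : ℂ :=
  dsw_Z (dsw_om τ v / ℓ) τ + 2 * π * I * (v 0 : ℂ) / ℓ

/-- `v ≢ 0 mod ℓ`. -/
def dsw_NZ (ℓ : ℕ) (v : Fin 2 → ℤ) : Prop := ¬ ((ℓ : ℤ) ∣ v 0 ∧ (ℓ : ℤ) ∣ v 1)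

lemma dsw_NL_of_NZ {ℓ : ℕ} (hℓ : ℓ ≠ 0) {v : Fin 2 → ℤ} (hv : dsw_NZ ℓ v) (τ : ℍ) :
    dsw_NL (dsw_om τ v / ℓ) τ := by
  intro m
  rw [mem_integerComplement_iff]
  rintro ⟨n, hn⟩
  apply hv
  have hℓ' : (ℓ : ℂ) ≠ 0 := Nat.cast_ne_zero.mpr hℓ
  have h1 : (ℓ : ℂ) * n = (v 0 : ℂ) * τ + v 1 + ℓ * m * τ := by
    rw [hn, dsw_om]; field_simp
  have him := congrArg Complex.im h1
  have hre := congrArg Complex.re h1
  simp at him hre
  have h2 : ((v 0 : ℝ) + ℓ * m) * τ.im = 0 := by linarith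
  have h3 : ((v 0 : ℝ) + ℓ * m) = 0 := (mul_eq_zero.mp h2).resolve_right τ.im_ne_zero
  have h4 : (ℓ : ℝ) * n = v 1 := by
    have : (ℓ : ℝ) * n = ((v 0 : ℝ) + ℓ * m) * τ.re + v 1 := by linarith
    rw [this, h3]; ring
  constructor
  · refine ⟨-m, ?_⟩
    have : ((v 0 : ℤ) : ℝ) = ((ℓ : ℤ) * -m : ℤ) := by push_cast; linarith
    exact_mod_cast this
  · refine ⟨n, ?_⟩
    have : ((v 1 : ℤ) : ℝ) = ((ℓ : ℤ) * n : ℤ) := by push_cast; linarith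
    exact_mod_cast this

theorem dsw_G_smul (ℓ : ℕ) (γ : SL(2, ℤ)) (v : Fin 2 → ℤ) (τ : ℍ) :
    dsw_G ℓ v (γ • τ) = denom γ τ * dsw_G ℓ (v ᵥ* γ) τ := by
  have hd : denom γ τ ≠ 0 := denom_ne_zero γ τ
  have hdet : (γ 0 0 : ℂ) * γ 1 1 - (γ 0 1 : ℂ) * γ 1 0 = 1 := by
    have := Matrix.SpecialLinearGroup.det_coe γ
    rw [Matrix.det_fin_two] at this
    exact_mod_cast this
  unfold dsw_G
  rw [dsw_om_smul, div_right_comm, dsw_Z_smul]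
  simp only [dsw_om, ModularGroup.denom_apply, Matrix.vecMul, dotProduct, Fin.sum_univ_two]
  push_cast
  rcases eq_or_ne (ℓ : ℂ) 0 with h | h
  · simp [h]
  · field_simp
    linear_combination (-(2 * π * I * (v 0 : ℂ))) * hdet

theorem dsw_G_add {ℓ : ℕ} (hℓ : ℓ ≠ 0) {v : Fin 2 → ℤ} (hv : dsw_NZ ℓ v) (w : Fin 2 → ℤ) (τ : ℍ) :
    dsw_G ℓ (v + (ℓ : ℤ) • w) τ = dsw_G ℓ v τ := by
  have hℓ' : (ℓ : ℂ) ≠ 0 := Nat.cast_ne_zero.mpr hℓ
  unfold dsw_G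
  have h1 : dsw_om τ (v + (ℓ : ℤ) • w) / ℓ = dsw_om τ v / ℓ + (w 0 : ℤ) * τ + (w 1 : ℤ) := by
    simp only [dsw_om, Pi.add_apply, Pi.smul_apply, smul_eq_mul]
    push_cast
    field_simp
    ring
  rw [h1, dsw_Z_add_lattice (dsw_NL_of_NZ hℓ hv τ)]
  simp only [Pi.add_apply, Pi.smul_apply, smul_eq_mul]
  push_cast
  field_simp
  ring

lemma dsw_G_eq_Phi {ℓ : ℕ} (hℓ : ℓ ≠ 0) {v : Fin 2 → ℤ} (hv : dsw_NZ ℓ v) (h0 : 0 ≤ v 0)
    (h1 : v 0 < ℓ) (τ : ℍ) :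
    dsw_G ℓ v τ = dsw_Phi ((v 0 : ℝ) / ℓ) ((v 1 : ℝ) / ℓ) τ := by
  have hℓ' : (0 : ℝ) < ℓ := Nat.cast_pos.mpr (Nat.pos_of_ne_zero hℓ)
  have hx0 : (0 : ℝ) ≤ (v 0 : ℝ) / ℓ := div_nonneg (by exact_mod_cast h0) hℓ'.le
  have hx1 : (v 0 : ℝ) / ℓ < 1 := by
    rw [div_lt_one hℓ']; exact_mod_cast h1
  have hz : (((v 0 : ℝ) / ℓ : ℝ) : ℂ) * τ + (((v 1 : ℝ) / ℓ : ℝ) : ℂ) = dsw_om τ v / ℓ := by
    rw [dsw_om]; push_cast; ring
  have := dsw_Z_eq_Phi ((v 0 : ℝ) / ℓ) ((v 1 : ℝ) / ℓ) hx0 hx1 τ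
    (by rw [hz]; exact dsw_NL_of_NZ hℓ hv τ)
  rw [← this, hz, dsw_G]
  push_cast
  ring

lemma dsw_G_exists_Phi {ℓ : ℕ} (hℓ : ℓ ≠ 0) {v : Fin 2 → ℤ} (hv : dsw_NZ ℓ v) :
    ∃ x₁ x₂ : ℝ, 0 ≤ x₁ ∧ x₁ < 1 ∧ ∀ τ : ℍ, dsw_G ℓ v τ = dsw_Phi x₁ x₂ τ := by
  have hℓ' : (0 : ℤ) < ℓ := by exact_mod_cast Nat.pos_of_ne_zero hℓ
  have hℓr : (0 : ℝ) < ℓ := Nat.cast_pos.mpr (Nat.pos_of_ne_zero hℓ)
  set v' : Fin 2 → ℤ := ![v 0 % ℓ, v 1] with hv'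
  have hvv : v = v' + (ℓ : ℤ) • ![v 0 / ℓ, 0] := by
    funext i
    fin_cases i
    · simp [hv', Int.emod_add_mul_ediv]
    · simp [hv']
  have hNZ : dsw_NZ ℓ v' := by
    intro h
    apply hv
    refine ⟨?_, by simpa [hv'] using h.2⟩
    have := h.1
    simp only [hv', Matrix.cons_val_zero] at this
    exact (Int.dvd_iff_emod_eq_zero).mpr (by
      have h2 := Int.emod_emod_of_dvd (v 0) (dvd_refl (ℓ : ℤ))
      rw [← h2]; exact Int.emod_eq_zero_of_dvd this)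
  have h0 : 0 ≤ v' 0 := by simp [hv', Int.emod_nonneg _ hℓ'.ne']
  have h1 : v' 0 < ℓ := by simp [hv', Int.emod_lt_of_pos _ hℓ']
  refine ⟨(v' 0 : ℝ) / ℓ, (v' 1 : ℝ) / ℓ, div_nonneg (by exact_mod_cast h0) hℓr.le, ?_, fun τ => ?_⟩
  · rw [div_lt_one hℓr]; exact_mod_cast h1
  · rw [hvv, dsw_G_add hℓ hNZ, dsw_G_eq_Phi hℓ hNZ h0 h1]

theorem dsw_G_mdifferentiable {ℓ : ℕ} (hℓ : ℓ ≠ 0) {v : Fin 2 → ℤ} (hv : dsw_NZ ℓ v) :
    MDiff (dsw_G ℓ v) := by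
  obtain ⟨x₁, x₂, h0, h1, hG⟩ := dsw_G_exists_Phi hℓ hv
  rw [UpperHalfPlane.mdifferentiable_iff]
  refine (dsw_Phi_differentiableOn x₁ x₂ h0 h1).congr fun t ht => ?_
  have ht' : 0 < t.im := ht
  simp only [Function.comp_apply, ofComplex_apply_of_im_pos ht', hG]

theorem dsw_G_isBoundedAtImInfty {ℓ : ℕ} (hℓ : ℓ ≠ 0) {v : Fin 2 → ℤ} (hv : dsw_NZ ℓ v) :
    IsBoundedAtImInfty (dsw_G ℓ v) := by
  obtain ⟨x₁, x₂, h0, h1, hG⟩ := dsw_G_exists_Phi hℓ hv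
  obtain ⟨C, hC⟩ := dsw_Phi_bounded x₁ x₂ h0 h1
  rw [UpperHalfPlane.isBoundedAtImInfty_iff]
  exact ⟨C, 1, fun τ hτ => by rw [hG]; exact hC τ hτ⟩

end

end Fermat.Agent.DS
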