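/-
DS-W / [W-EIS], part 4a: DEFINITIONS of the weight one Eisenstein series of an odd Dirichlet
character `χ` mod `ℓ`, at level `t ℓ`:

  `dsw_eisFun ℓ t χ τ = (2 π i)⁻¹ ∑_{a < ℓ} χ(a) G_ℓ((a, 0); t ℓ τ)`

with expected `q`-expansion `ℓ⁻¹ ∑_a χ(a) a - 2 ∑_{n ≥ 1} (∑_{d ∣ n} χ(d)) q^{t n}` (`dsw_eisCoeff`), and
the two interface statements (`Prop`s) of the cell DS-W: `dsw_SeamEis` ([W-EIS]) and `dsw_SeamProd`
([W-VN], the product `f · E`).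
-/
import Mathlib
import Fermat.Agent.DS.Defs
import Fermat.Agent.DS.Wt.GForm
import Fermat.Prelude.Def_ModularForm_HeckeOperator

set_option autoImplicit false

namespace Fermat.Agent.DS

open UpperHalfPlane hiding I
open Complex CongruenceSubgroup ModularFormClass ModularForm
open scoped Real MatrixGroups ModularForm

noncomputable section

/-- The weight one Eisenstein series of `χ` at level `t ℓ`, as a function on `ℍ`. -/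
def dsw_eisFun (ℓ t : ℕ) (χ : DirichletCharacter ℂ ℓ) (τ : ℍ) : ℂ :=
  (2 * π * I)⁻¹ * ∑ a ∈ Finset.range ℓ,
    χ (a : ZMod ℓ) * dsw_G ℓ ![(a : ℤ), 0] (heckeDiagMatrix (t * ℓ) • τ)

/-- The expected `q`-coefficients of `dsw_eisFun`. -/
def dsw_eisCoeff (ℓ t : ℕ) (χ : DirichletCharacter ℂ ℓ) (m : ℕ) : ℂ :=
  if m = 0 then (ℓ : ℂ)⁻¹ * ∑ a ∈ Finset.range ℓ, χ (a : ZMod ℓ) * (a : ℂ)
  else if t ∣ m then -2 * ∑ d ∈ (m / t).divisors, χ (d : ZMod ℓ) else 0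

/-- **[W-EIS]**, final form: the weight one Eisenstein series of an odd character `χ` mod `ℓ` as a
modular form on `Γ₁(t ℓ)` with nebentypus `χ` on `Γ₀(t ℓ)` and `q`-expansion
`ℓ⁻¹ ∑ χ(a) a - 2 ∑_{n ≥ 1} (∑_{d ∣ n} χ(d)) q^{t n}`. -/
def dsw_SeamEis : Prop :=
  ∀ (ℓ t : ℕ) [NeZero ℓ] [NeZero t] (χ : DirichletCharacter ℂ ℓ), χ (-1) = -1 →
    ∃ E : ModularForm (Gamma1 (t * ℓ)) 1,
      (∀ γ : SL(2, ℤ), γ ∈ Gamma0 (t * ℓ) →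
        (⇑E) ∣[(1 : ℤ)] γ = (χ (((γ : Matrix (Fin 2) (Fin 2) ℤ) 1 1 : ℤ) : ZMod ℓ)) • (⇑E)) ∧
      ∀ m : ℕ, qCoeff (⇑E) m = dsw_eisCoeff ℓ t χ m

/-- **[W-VN]**, product form: a weight one cusp form on `Γ₁(N)` with nebentypus `ε` times a weight
one modular form on `Γ₁(N ℓ)` with nebentypus `χ` mod `ℓ` is a weight two cusp form on `Γ₁(N ℓ)`
with nebentypus `ε χ`, and its `q`-expansion is the Cauchy product. -/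
def dsw_SeamProd : Prop :=
  ∀ (N ℓ : ℕ) [NeZero N] [NeZero ℓ] (ε : DirichletCharacter ℂ N) (χ : DirichletCharacter ℂ ℓ)
    (f : CuspForm (Gamma1 N) 1) (E : ModularForm (Gamma1 (N * ℓ)) 1),
    (∀ γ : SL(2, ℤ), γ ∈ Gamma0 N →
      (⇑f) ∣[(1 : ℤ)] γ = (ε (((γ : Matrix (Fin 2) (Fin 2) ℤ) 1 1 : ℤ) : ZMod N)) • (⇑f)) →
    (∀ γ : SL(2, ℤ), γ ∈ Gamma0 (N * ℓ) →
      (⇑E) ∣[(1 : ℤ)] γ = (χ (((γ : Matrix (Fin 2) (Fin 2) ℤ) 1 1 : ℤ) : ZMod ℓ)) • (⇑E)) →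
    ∃ g₀ : CuspForm (Gamma1 (N * ℓ)) 2, (∀ τ : ℍ, g₀ τ = f τ * E τ) ∧
      (∀ γ : SL(2, ℤ), γ ∈ Gamma0 (N * ℓ) →
        (⇑g₀) ∣[(2 : ℤ)] γ =
          (ε (((γ : Matrix (Fin 2) (Fin 2) ℤ) 1 1 : ℤ) : ZMod N) *
            χ (((γ : Matrix (Fin 2) (Fin 2) ℤ) 1 1 : ℤ) : ZMod ℓ)) • (⇑g₀)) ∧
      ∀ n : ℕ, qCoeff (⇑g₀) n =
        ∑ ij ∈ Finset.HasAntidiagonal.antidiagonal n, qCoeff (⇑f) ij.1 * qCoeff (⇑E) ij.2

end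

end Fermat.Agent.DS
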