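/-
DS-W / [W-EIS-Q]: the `q`-expansion of the weight one Eisenstein series `dsw_eisFun` of an odd
Dirichlet character `χ` mod `ℓ` at level `t ℓ` (definitions in `Wt/Eis1Def.lean`):

  `dsw_eis_hasSum : HasSum (fun m => dsw_eisCoeff ℓ t χ m • 𝕢 τ ^ m) (dsw_eisFun ℓ t χ τ)`,

i.e. `E(τ) = ℓ⁻¹ ∑_a χ(a) a - 2 ∑_{n ≥ 1} (∑_{d ∣ n} χ(d)) q^{t n}`.

Route: `dsw_G_eq_Phi` (GForm.lean) writes `G_ℓ((a, 0); σ)` as the absolutely convergent cotangent series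
`dsw_Phi`; with `Q = e(σ / ℓ)` every cotangent term is `-2 π i L_Q(d)`, `L_Q(d) = Q^d / (1 - Q^d)`;
the residue classes `± a mod ℓ` are collected with `χ(-1) = -1` (`dsw_eq_sum_odd`,
`dsw_eq_tsum_divMod`), and `∑_d χ(d) L_Q(d)` is regrouped into a power series (`dsw_eq_lambert`).
-/
import Mathlib
import Fermat.Agent.DS.Wt.Eis1Def

set_option autoImplicit false

noncomputable section

namespace Fermat.Agent.DS

open UpperHalfPlane hiding I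
open Complex Filter Topology ModularForm
open scoped Real

/-- `L_Q(d) = Q^d / (1 - Q^d) = ∑_{r ≥ 1} Q^{d r}`. -/
def dsw_eq_L (Q : ℂ) (d : ℕ) : ℂ := Q ^ d / (1 - Q ^ d)

lemma dsw_eq_norm_pow_lt_one {Q : ℂ} (hQ : ‖Q‖ < 1) {d : ℕ} (hd : 1 ≤ d) : ‖Q ^ d‖ < 1 := by
  rw [norm_pow]
  exact pow_lt_one₀ (norm_nonneg _) hQ (by omega)

lemma dsw_eq_L_hasSum {Q : ℂ} (hQ : ‖Q‖ < 1) {d : ℕ} (hd : 1 ≤ d) :
    HasSum (fun r : ℕ => Q ^ (d * (r + 1))) (dsw_eq_L Q d) := by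
  have h1 := dsw_eq_norm_pow_lt_one hQ hd
  have h2 := (hasSum_geometric_of_norm_lt_one h1).mul_left (Q ^ d)
  have hfun : (fun r : ℕ => Q ^ (d * (r + 1))) = fun r : ℕ => Q ^ d * (Q ^ d) ^ r := by
    funext r
    rw [pow_mul, pow_succ]
    ring
  rw [hfun, dsw_eq_L, div_eq_mul_inv]
  exact h2

lemma dsw_eq_L_norm_le {Q : ℂ} (hQ : ‖Q‖ < 1) {d : ℕ} (hd : 1 ≤ d) :
    ‖dsw_eq_L Q d‖ ≤ (1 - ‖Q‖)⁻¹ * ‖Q‖ ^ d := by
  have h1 : ‖Q‖ ^ d ≤ ‖Q‖ := by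
    calc ‖Q‖ ^ d ≤ ‖Q‖ ^ 1 := pow_le_pow_of_le_one (norm_nonneg _) hQ.le hd
      _ = ‖Q‖ := pow_one _
  have h2 : 1 - ‖Q‖ ≤ ‖1 - Q ^ d‖ := by
    have := norm_sub_norm_le (1 : ℂ) (Q ^ d)
    rw [norm_one, norm_pow] at this
    linarith
  have h3 : 0 < 1 - ‖Q‖ := by linarith
  rw [dsw_eq_L, norm_div, norm_pow, div_eq_inv_mul]
  gcongr

lemma dsw_eq_L_summable {Q : ℂ} (hQ : ‖Q‖ < 1) : Summable (dsw_eq_L Q) := by
  have hgeo : Summable fun d : ℕ => (1 - ‖Q‖)⁻¹ * ‖Q‖ ^ d :=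
    (summable_geometric_of_lt_one (norm_nonneg _) hQ).mul_left _
  rw [← summable_nat_add_iff 1]
  refine Summable.of_norm_bounded ((summable_nat_add_iff 1).mpr hgeo) fun d => ?_
  exact dsw_eq_L_norm_le hQ (by omega)

lemma dsw_eq_mul_L_summable {Q : ℂ} (hQ : ‖Q‖ < 1) (u : ℕ → ℂ) {C : ℝ} (hu : ∀ d, ‖u d‖ ≤ C) :
    Summable fun d : ℕ => u d * dsw_eq_L Q d := by
  have h0 := (dsw_eq_L_summable hQ).norm.mul_left C
  refine Summable.of_norm_bounded h0 fun d => ?_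
  rw [norm_mul]
  exact mul_le_mul_of_nonneg_right (hu d) (norm_nonneg _)

/-- Lambert rearrangement: `∑_d u(d) L_Q(d) = ∑_n (∑_{d ∣ n} u(d)) Q^n`. -/
theorem dsw_eq_lambert (u : ℕ → ℂ) {C : ℝ} (hu : ∀ m, ‖u m‖ ≤ C) {Q : ℂ} (hQ : ‖Q‖ < 1)
    (h0 : u 0 = 0) :
    HasSum (fun n : ℕ => (∑ d ∈ n.divisors, u d) * Q ^ n) (∑' d : ℕ, u d * dsw_eq_L Q d) := by
  set F : ℕ+ × ℕ+ → ℂ := fun c => u c.1 * Q ^ (c.1 * c.2 : ℕ) with hFdef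
  have hF : Summable F := by
    have h0 := (summable_prod_mul_pow (𝕜 := ℂ) 0 hQ).norm.mul_left C
    refine Summable.of_norm_bounded h0 fun c => ?_
    rw [hFdef]
    simp only [pow_zero, one_mul]
    rw [norm_mul]
    exact mul_le_mul_of_nonneg_right (hu _) (norm_nonneg _)
  have hin : ∀ m : ℕ+, HasSum (fun n : ℕ+ => u m * Q ^ (m * n : ℕ)) (u m * dsw_eq_L Q m) := by
    intro m
    have := (dsw_eq_L_hasSum hQ (d := (m : ℕ)) m.2).mul_left (u m)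
    exact (hasSum_pnat_iff_hasSum_succ (f := fun n : ℕ => u m * Q ^ ((m : ℕ) * n))).mpr this
  have h1 : HasSum F (∑' m : ℕ+, u m * dsw_eq_L Q m) := by
    have := hF.tsum_prod
    have h2 : ∑' m : ℕ+, u m * dsw_eq_L Q m = ∑' m : ℕ+, ∑' n : ℕ+, F (m, n) :=
      tsum_congr fun m => ((hin m).tsum_eq).symm
    rw [h2, ← this]
    exact hF.hasSum
  have h2 := (sigmaAntidiagonalEquivProd.hasSum_iff).mpr h1
  have h3 := h2.sigma (g := fun N : ℕ+ => ∑ x : (N : ℕ).divisorsAntidiagonal,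
    F (sigmaAntidiagonalEquivProd ⟨N, x⟩)) (fun N => hasSum_fintype _)
  have h4 : ∀ N : ℕ+, (∑ x : (N : ℕ).divisorsAntidiagonal, F (sigmaAntidiagonalEquivProd ⟨N, x⟩))
      = (∑ m ∈ (N : ℕ).divisors, u m) * Q ^ (N : ℕ) := by
    intro N
    rw [Finset.sum_mul]
    have e1 : (∑ x : (N : ℕ).divisorsAntidiagonal, F (sigmaAntidiagonalEquivProd ⟨N, x⟩))
        = ∑ x ∈ (N : ℕ).divisorsAntidiagonal, u x.1 * Q ^ (x.1 * x.2) := by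
      rw [← Finset.sum_attach (N : ℕ).divisorsAntidiagonal
        (fun x => u x.1 * Q ^ (x.1 * x.2))]
      rfl
    rw [e1, Nat.sum_divisorsAntidiagonal (fun x y => u x * Q ^ (x * y))]
    refine Finset.sum_congr rfl fun m hm => ?_
    rw [Nat.mul_div_cancel' (Nat.dvd_of_mem_divisors hm)]
  have h5 : HasSum (fun N : ℕ+ => (∑ m ∈ (N : ℕ).divisors, u m) * Q ^ (N : ℕ))
      (∑' m : ℕ+, u m * dsw_eq_L Q m) := by
    refine h3.congr_fun ?_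
    intro N
    exact (h4 N).symm
  have h6 := (hasSum_pnat_iff (f := fun N : ℕ => (∑ m ∈ N.divisors, u m) * Q ^ N)).mp h5
  have h7 : ∑' m : ℕ+, u m * dsw_eq_L Q m = ∑' d : ℕ, u d * dsw_eq_L Q d :=
    tsum_pnat_eq_tsum_of_eq_zero (f := fun d : ℕ => u d * dsw_eq_L Q d) (by simp [h0])
  rw [← h7]
  simpa using h6

/-- A function on `{0, …, ℓ - 1}` that vanishes at `0` and is odd under `a ↦ ℓ - a` has sum `0`. -/
lemma dsw_eq_sum_odd (ℓ : ℕ) (g : ℕ → ℂ) (h0 : g 0 = 0)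
    (hodd : ∀ b, 1 ≤ b → b < ℓ → g (ℓ - b) = -g b) : ∑ a ∈ Finset.range ℓ, g a = 0 := by
  rcases Nat.eq_zero_or_pos ℓ with rfl | hℓ
  · simp
  obtain ⟨n, rfl⟩ : ∃ n, ℓ = n + 1 := ⟨ℓ - 1, by omega⟩
  rw [Finset.sum_range_succ', h0, add_zero]
  have h1 := Finset.sum_range_reflect (fun j => g (j + 1)) n
  have h2 : ∑ j ∈ Finset.range n, g (n - 1 - j + 1) = -∑ j ∈ Finset.range n, g (j + 1) := by
    rw [← Finset.sum_neg_distrib]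
    refine Finset.sum_congr rfl fun j hj => ?_
    have hj' : j < n := Finset.mem_range.mp hj
    rw [← hodd (j + 1) (by omega) (by omega)]
    congr 1
    omega
  have h3 : (2 : ℂ) * ∑ j ∈ Finset.range n, g (j + 1) = 0 := by
    have : ∑ j ∈ Finset.range n, g (j + 1) = -∑ j ∈ Finset.range n, g (j + 1) := by
      rw [← h2]; exact h1.symm
    linear_combination this
  exact (mul_eq_zero.mp h3).resolve_left two_ne_zero

/-- Splitting a sum over `ℕ` into residue classes mod `ℓ`. -/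
lemma dsw_eq_tsum_divMod (ℓ : ℕ) [NeZero ℓ] (f : ℕ → ℂ) (hf : Summable f) :
    ∑' d : ℕ, f d = ∑ a ∈ Finset.range ℓ, ∑' k : ℕ, f (a + ℓ * k) := by
  have h1 : HasSum f (∑' d : ℕ, f d) := hf.hasSum
  have h2 := (Nat.divModEquiv ℓ).symm.hasSum_iff.mpr h1
  have h3 := (Equiv.prodComm (Fin ℓ) ℕ).hasSum_iff.mpr h2
  have hinj : ∀ a : Fin ℓ, Function.Injective fun k : ℕ => (a : ℕ) + ℓ * k := by
    intro a k k' h
    have h' : ℓ * k = ℓ * k' := by simpa using h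
    exact Nat.eq_of_mul_eq_mul_left (Nat.pos_of_ne_zero (NeZero.ne ℓ)) h'
  have h4 := h3.prod_fiberwise (g := fun a : Fin ℓ => ∑' k : ℕ, f ((a : ℕ) + ℓ * k)) (fun a => by
    have hs : Summable fun k : ℕ => f ((a : ℕ) + ℓ * k) := hf.comp_injective (hinj a)
    refine hs.hasSum.congr_fun ?_
    intro k
    simp only [Function.comp_apply, Equiv.prodComm_apply, Prod.swap_prod_mk,
      Nat.divModEquiv_symm_apply]
    congr 1
    ring)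
  have h5 := h4.unique (hasSum_fintype _)
  rw [h5, Finset.sum_range]

lemma dsw_eq_norm_cexp_lt_one {s : ℂ} (hs : 0 < s.im) : ‖cexp (2 * π * I * s)‖ < 1 := by
  rw [dsw_norm_exp, Real.exp_lt_one_iff]
  have := Real.pi_pos
  nlinarith

/-- `π (cot (π d s) + i) = -2 π i L_Q(d)`, `Q = e(s)`, `d ≥ 1`, `Im s > 0`. -/
lemma dsw_eq_pi_cp {d : ℕ} (hd : 1 ≤ d) {s : ℂ} (hs : 0 < s.im) (u : ℂ) (hu : u = d * s) :
    π * dsw_cp u = -2 * π * I * dsw_eq_L (cexp (2 * π * I * s)) d := by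
  have hQ := dsw_eq_norm_cexp_lt_one hs
  have hexp : cexp (2 * π * I * u) = cexp (2 * π * I * s) ^ d := by
    rw [hu, ← Complex.exp_nat_mul]; congr 1; ring
  have hne : cexp (2 * π * I * u) ≠ 1 := by
    intro h
    have h1 := dsw_eq_norm_pow_lt_one hQ hd
    rw [← hexp, h, norm_one] at h1
    exact lt_irrefl _ h1
  rw [dsw_cp_eq u hne, hexp, dsw_eq_L]
  have h1 : (1 - cexp (2 * π * I * s) ^ d) ≠ 0 := by
    rw [← hexp]; exact sub_ne_zero.mpr (Ne.symm hne)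
  field_simp
  ring_nf
  simp only [I_sq]
  ring

lemma dsw_eq_L_summable_add {Q : ℂ} (hQ : ‖Q‖ < 1) (ℓ : ℕ) [NeZero ℓ] (a : ℕ) :
    Summable fun k : ℕ => dsw_eq_L Q (a + ℓ * k) := by
  refine (dsw_eq_L_summable hQ).comp_injective ?_
  intro k k' h
  have h' : ℓ * k = ℓ * k' := by simpa using h
  exact Nat.eq_of_mul_eq_mul_left (Nat.pos_of_ne_zero (NeZero.ne ℓ)) h'

lemma dsw_eq_L_summable_sub {Q : ℂ} (hQ : ‖Q‖ < 1) (ℓ : ℕ) [NeZero ℓ] {a : ℕ} (ha : a ≤ ℓ) :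
    Summable fun k : ℕ => dsw_eq_L Q (ℓ * (k + 1) - a) := by
  have : (fun k : ℕ => dsw_eq_L Q (ℓ * (k + 1) - a)) = fun k : ℕ => dsw_eq_L Q ((ℓ - a) + ℓ * k) := by
    funext k
    congr 1
    rw [Nat.mul_succ]
    omega
  rw [this]
  exact dsw_eq_L_summable_add hQ ℓ (ℓ - a)

lemma dsw_eq_first {ℓ : ℕ} [NeZero ℓ] {a : ℕ} (ha1 : 1 ≤ a) {s : ℂ} (hs : 0 < s.im) :
    (π : ℂ) * cot (π * ((((a : ℝ) / ℓ : ℝ) : ℂ) * (ℓ * s) + ((0 : ℝ) : ℂ))) =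
      -(π * I) - 2 * π * I * dsw_eq_L (cexp (2 * π * I * s)) a := by
  have hℓ : (ℓ : ℂ) ≠ 0 := Nat.cast_ne_zero.mpr (NeZero.ne ℓ)
  have hu : (((a : ℝ) / ℓ : ℝ) : ℂ) * (ℓ * s) + ((0 : ℝ) : ℂ) = (a : ℂ) * s := by
    push_cast; field_simp; ring
  have := dsw_eq_pi_cp ha1 hs _ hu
  unfold dsw_cp at this
  linear_combination this

lemma dsw_eq_Tm {ℓ : ℕ} [NeZero ℓ] {a : ℕ} (haℓ : a < ℓ) {s : ℂ} (hs : 0 < s.im) (k : ℕ) :
    dsw_Tm ((a : ℝ) / ℓ) 0 k (ℓ * s) =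
      -2 * π * I * (dsw_eq_L (cexp (2 * π * I * s)) (a + ℓ * (k + 1))
        - dsw_eq_L (cexp (2 * π * I * s)) (ℓ * (k + 1) - a)) := by
  have hℓ : (ℓ : ℂ) ≠ 0 := Nat.cast_ne_zero.mpr (NeZero.ne ℓ)
  have hℓk : ℓ ≤ ℓ * (k + 1) := Nat.le_mul_of_pos_right _ (by omega)
  have hle : a ≤ ℓ * (k + 1) := haℓ.le.trans hℓk
  have hlt : a < ℓ * (k + 1) := lt_of_lt_of_le haℓ hℓk
  have hu1 : ((((a : ℝ) / ℓ : ℝ) : ℂ) + ((k : ℂ) + 1)) * (ℓ * s) + ((0 : ℝ) : ℂ) =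
      ((a + ℓ * (k + 1) : ℕ) : ℂ) * s := by
    push_cast; field_simp; ring
  have hu2 : (((k : ℂ) + 1) - (((a : ℝ) / ℓ : ℝ) : ℂ)) * (ℓ * s) - ((0 : ℝ) : ℂ) =
      ((ℓ * (k + 1) - a : ℕ) : ℂ) * s := by
    rw [Nat.cast_sub hle]
    push_cast; field_simp; ring
  have hd1 : 1 ≤ a + ℓ * (k + 1) := by
    have : 1 ≤ ℓ := Nat.pos_of_ne_zero (NeZero.ne ℓ)
    generalize ℓ * (k + 1) = x at *
    omega
  have hd2 : 1 ≤ ℓ * (k + 1) - a := by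
    generalize ℓ * (k + 1) = x at *
    omega
  have h1 := dsw_eq_pi_cp hd1 hs _ hu1
  have h2 := dsw_eq_pi_cp hd2 hs _ hu2
  unfold dsw_Tm
  rw [mul_sub, h1, h2]
  ring

/-- The `q`-expansion of `Φ(a/ℓ, 0; ℓ s)` in terms of `Q = e(s)`. -/
theorem dsw_eq_Phi_expand (ℓ : ℕ) [NeZero ℓ] {a : ℕ} (ha1 : 1 ≤ a) (haℓ : a < ℓ) {s : ℂ}
    (hs : 0 < s.im) :
    dsw_Phi ((a : ℝ) / ℓ) 0 (ℓ * s) = -(π * I) + 2 * π * I * a / ℓ
      - 2 * π * I * (∑' k : ℕ, dsw_eq_L (cexp (2 * π * I * s)) (a + ℓ * k)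
        - ∑' k : ℕ, dsw_eq_L (cexp (2 * π * I * s)) (ℓ * (k + 1) - a)) := by
  have hQ : ‖cexp (2 * π * I * s)‖ < 1 := dsw_eq_norm_cexp_lt_one hs
  have hsum1 := dsw_eq_L_summable_add hQ ℓ a
  have hsum2 := dsw_eq_L_summable_sub hQ ℓ haℓ.le
  have hshift : ∑' k : ℕ, dsw_eq_L (cexp (2 * π * I * s)) (a + ℓ * k) =
      dsw_eq_L (cexp (2 * π * I * s)) a +
        ∑' k : ℕ, dsw_eq_L (cexp (2 * π * I * s)) (a + ℓ * (k + 1)) := by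
    rw [hsum1.tsum_eq_zero_add]
    simp
  have hsum1' : Summable fun k : ℕ => dsw_eq_L (cexp (2 * π * I * s)) (a + ℓ * (k + 1)) :=
    (summable_nat_add_iff (f := fun k : ℕ => dsw_eq_L (cexp (2 * π * I * s)) (a + ℓ * k)) 1).mpr hsum1
  have hT : ∑' k : ℕ, dsw_Tm ((a : ℝ) / ℓ) 0 k (ℓ * s) =
      -2 * π * I * (∑' k : ℕ, dsw_eq_L (cexp (2 * π * I * s)) (a + ℓ * (k + 1)) -
        ∑' k : ℕ, dsw_eq_L (cexp (2 * π * I * s)) (ℓ * (k + 1) - a)) := by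
    rw [tsum_congr (dsw_eq_Tm haℓ hs), tsum_mul_left, hsum1'.tsum_sub hsum2]
  unfold dsw_Phi
  rw [dsw_eq_first ha1 hs, hT, hshift]
  push_cast
  ring

section chi

variable {ℓ : ℕ} [NeZero ℓ] (χ : DirichletCharacter ℂ ℓ)

lemma dsw_eq_ne_one (hχ : χ (-1) = -1) : ℓ ≠ 1 := by
  rintro rfl
  have h1 : (-1 : ZMod 1) = 1 := Subsingleton.elim _ _
  rw [h1, map_one] at hχ
  norm_num at hχ

lemma dsw_eq_chi_zero (hχ : χ (-1) = -1) : χ ((0 : ℕ) : ZMod ℓ) = 0 := by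
  have : Nontrivial (ZMod ℓ) := ZMod.nontrivial_iff.mpr (dsw_eq_ne_one χ hχ)
  rw [Nat.cast_zero]
  exact χ.map_nonunit not_isUnit_zero

omit [NeZero ℓ] in
lemma dsw_eq_chi_sub (hχ : χ (-1) = -1) {b : ℕ} (hb : b ≤ ℓ) :
    χ ((ℓ - b : ℕ) : ZMod ℓ) = -χ (b : ZMod ℓ) := by
  rw [Nat.cast_sub hb, ZMod.natCast_self, zero_sub, ← neg_one_mul, map_mul, hχ, neg_one_mul]

omit [NeZero ℓ] in
lemma dsw_eq_chi_add (a k : ℕ) : χ ((a + ℓ * k : ℕ) : ZMod ℓ) = χ (a : ZMod ℓ) := by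
  congr 1
  push_cast
  rw [ZMod.natCast_self, zero_mul, add_zero]

lemma dsw_eq_chi_sum (hχ : χ (-1) = -1) : ∑ a ∈ Finset.range ℓ, χ (a : ZMod ℓ) = 0 :=
  dsw_eq_sum_odd ℓ (fun a => χ (a : ZMod ℓ)) (dsw_eq_chi_zero χ hχ)
    (fun _ _ hb => dsw_eq_chi_sub χ hχ hb.le)

/-- `P(a) = ∑_k L(a + ℓ k)` and `P'(a) = ∑_k L(ℓ (k + 1) - a)`: the `χ`-weighted sums are opposite. -/
lemma dsw_eq_chi_PP (hχ : χ (-1) = -1) (Q : ℂ) :
    ∑ a ∈ Finset.range ℓ, χ (a : ZMod ℓ) * (∑' k : ℕ, dsw_eq_L Q (a + ℓ * k) +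
      ∑' k : ℕ, dsw_eq_L Q (ℓ * (k + 1) - a)) = 0 := by
  refine dsw_eq_sum_odd ℓ (fun a => χ (a : ZMod ℓ) * (∑' k : ℕ, dsw_eq_L Q (a + ℓ * k) +
      ∑' k : ℕ, dsw_eq_L Q (ℓ * (k + 1) - a))) ?_ ?_
  · simp only [dsw_eq_chi_zero χ hχ, zero_mul]
  · intro b _ hb
    rw [dsw_eq_chi_sub χ hχ hb.le]
    have h1 : ∀ k : ℕ, ℓ - b + ℓ * k = ℓ * (k + 1) - b := by
      intro k
      rw [Nat.mul_succ]
      omega
    have h2 : ∀ k : ℕ, ℓ * (k + 1) - (ℓ - b) = b + ℓ * k := by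
      intro k
      rw [Nat.mul_succ]
      omega
    simp only [h1, h2]
    ring

lemma dsw_eq_chi_P (Q : ℂ) (hQ : ‖Q‖ < 1) :
    ∑ a ∈ Finset.range ℓ, χ (a : ZMod ℓ) * ∑' k : ℕ, dsw_eq_L Q (a + ℓ * k) =
      ∑' d : ℕ, χ (d : ZMod ℓ) * dsw_eq_L Q d := by
  have hs : Summable fun d : ℕ => χ (d : ZMod ℓ) * dsw_eq_L Q d :=
    dsw_eq_mul_L_summable hQ (fun d : ℕ => χ (d : ZMod ℓ)) (C := 1)
      (fun d => DirichletCharacter.norm_le_one χ _)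
  rw [dsw_eq_tsum_divMod ℓ _ hs]
  refine Finset.sum_congr rfl fun a _ => ?_
  rw [← tsum_mul_left]
  refine tsum_congr fun k => ?_
  rw [dsw_eq_chi_add]

end chi

lemma dsw_eq_qParam_one (z : ℂ) : Function.Periodic.qParam 1 z = cexp (2 * π * I * z) := by
  simp [Function.Periodic.qParam]

/-- The value of `G_ℓ((a, 0); ℓ s)` for `1 ≤ a < ℓ`. -/
lemma dsw_eq_G_expand (ℓ : ℕ) [NeZero ℓ] {a : ℕ} (ha1 : 1 ≤ a) (haℓ : a < ℓ) (σ : ℍ) {s : ℂ}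
    (hσ : (σ : ℂ) = ℓ * s) :
    dsw_G ℓ ![(a : ℤ), 0] σ = -(π * I) + 2 * π * I * a / ℓ
      - 2 * π * I * (∑' k : ℕ, dsw_eq_L (cexp (2 * π * I * s)) (a + ℓ * k)
        - ∑' k : ℕ, dsw_eq_L (cexp (2 * π * I * s)) (ℓ * (k + 1) - a)) := by
  have hℓ0 : ℓ ≠ 0 := NeZero.ne ℓ
  have hℓr : (0 : ℝ) < ℓ := Nat.cast_pos.mpr (Nat.pos_of_ne_zero hℓ0)
  have hs : 0 < s.im := by
    have h1 : (σ : ℂ).im = ℓ * s.im := by
      rw [hσ]; simp [Complex.mul_im]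
    have h2 : 0 < (σ : ℂ).im := σ.im_pos
    rw [h1] at h2
    rcases (mul_pos_iff.mp h2) with ⟨_, h⟩ | ⟨h', _⟩
    · exact h
    · linarith
  have hNZ : dsw_NZ ℓ ![(a : ℤ), 0] := by
    rintro ⟨h1, -⟩
    simp only [Matrix.cons_val_zero] at h1
    have := Int.le_of_dvd (by exact_mod_cast ha1) h1
    have : (ℓ : ℤ) ≤ a := this
    omega
  have h := dsw_G_eq_Phi hℓ0 hNZ (by simp) (by simpa using haℓ) σ
  simp only [Matrix.cons_val_zero, Matrix.cons_val_one, Matrix.cons_val_fin_one, Int.cast_natCast,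
    Int.cast_zero, zero_div] at h
  rw [h, hσ]
  exact dsw_eq_Phi_expand ℓ ha1 haℓ hs

/-- **[W-EIS-Q]**: the `q`-expansion of the weight one Eisenstein series `dsw_eisFun`. -/
theorem dsw_eis_hasSum (ℓ t : ℕ) [NeZero ℓ] [NeZero t] (χ : DirichletCharacter ℂ ℓ)
    (hχ : χ (-1) = -1) (τ : ℍ) :
    HasSum (fun m : ℕ => dsw_eisCoeff ℓ t χ m • Function.Periodic.qParam 1 τ ^ m)
      (dsw_eisFun ℓ t χ τ) := by
  have ht0 : t ≠ 0 := NeZero.ne t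
  have hℓ0 : ℓ ≠ 0 := NeZero.ne ℓ
  have hℓc : (ℓ : ℂ) ≠ 0 := Nat.cast_ne_zero.mpr hℓ0
  set s : ℂ := (t : ℂ) * τ with hs
  set σ : ℍ := heckeDiagMatrix (t * ℓ) • τ with hσdef
  have hσ : (σ : ℂ) = ℓ * s := by
    rw [hσdef, coe_heckeDiagMatrix_smul (mul_ne_zero ht0 hℓ0)]; push_cast; ring
  have hsim : 0 < s.im := by
    have : s.im = t * τ.im := by rw [hs]; simp [Complex.mul_im]
    rw [this]
    exact mul_pos (Nat.cast_pos.mpr (Nat.pos_of_ne_zero ht0)) τ.im_pos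
  set Q := cexp (2 * π * I * s) with hQdef
  have hQ : ‖Q‖ < 1 := dsw_eq_norm_cexp_lt_one hsim
  have hQq : Q = Function.Periodic.qParam 1 τ ^ t := by
    rw [dsw_eq_qParam_one, ← Complex.exp_nat_mul, hQdef, hs]; congr 1; ring
  set S := ∑' d : ℕ, χ (d : ZMod ℓ) * dsw_eq_L Q d with hS
  set c₀ := (ℓ : ℂ)⁻¹ * ∑ a ∈ Finset.range ℓ, χ (a : ZMod ℓ) * (a : ℂ) with hc₀
  -- the value
  have hval : dsw_eisFun ℓ t χ τ = c₀ - 2 * S := by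
    unfold dsw_eisFun
    have hterm : ∀ a ∈ Finset.range ℓ, χ (a : ZMod ℓ) * dsw_G ℓ ![(a : ℤ), 0] σ =
        -(π * I) * χ (a : ZMod ℓ) + 2 * π * I / ℓ * (χ (a : ZMod ℓ) * (a : ℂ))
          - 2 * π * I * (χ (a : ZMod ℓ) * ∑' k : ℕ, dsw_eq_L Q (a + ℓ * k)
            - χ (a : ZMod ℓ) * ∑' k : ℕ, dsw_eq_L Q (ℓ * (k + 1) - a)) := by
      intro a ha
      rcases Nat.eq_zero_or_pos a with rfl | ha1
      · rw [dsw_eq_chi_zero χ hχ]; ring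
      · rw [dsw_eq_G_expand ℓ ha1 (Finset.mem_range.mp ha) σ hσ]
        ring
    rw [Finset.sum_congr rfl hterm]
    rw [Finset.sum_sub_distrib, Finset.sum_add_distrib, ← Finset.mul_sum, ← Finset.mul_sum,
      ← Finset.mul_sum, Finset.sum_sub_distrib]
    have h1 := dsw_eq_chi_sum χ hχ
    have h2 := dsw_eq_chi_PP χ hχ Q
    have h3 := dsw_eq_chi_P χ Q hQ
    have h2' : ∑ a ∈ Finset.range ℓ, χ (a : ZMod ℓ) * ∑' k : ℕ, dsw_eq_L Q (a + ℓ * k) +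
        ∑ a ∈ Finset.range ℓ, χ (a : ZMod ℓ) * ∑' k : ℕ, dsw_eq_L Q (ℓ * (k + 1) - a) = 0 := by
      rw [← Finset.sum_add_distrib, ← h2]
      exact Finset.sum_congr rfl fun a _ => (mul_add _ _ _).symm
    have h4 : ∑ a ∈ Finset.range ℓ, χ (a : ZMod ℓ) * ∑' k : ℕ, dsw_eq_L Q (ℓ * (k + 1) - a) = -S := by
      rw [hS, ← h3]
      exact eq_neg_of_add_eq_zero_right h2'
    rw [h1, h3, h4, ← hS, hc₀]
    have hpi : (π : ℂ) ≠ 0 := by exact_mod_cast Real.pi_ne_zero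
    field_simp
    ring
  -- the series
  have hL := dsw_eq_lambert (fun d : ℕ => χ (d : ZMod ℓ)) (C := 1)
    (fun d => DirichletCharacter.norm_le_one χ _) hQ (dsw_eq_chi_zero χ hχ)
  have h5 := (hL.mul_left (-2)).add (hasSum_ite_eq (0 : ℕ) c₀)
  have hg : Function.Injective fun n : ℕ => t * n := fun n n' h =>
    Nat.eq_of_mul_eq_mul_left (Nat.pos_of_ne_zero ht0) h
  rw [hval]
  refine (hg.hasSum_iff ?_).mp ?_
  · intro m hm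
    have htm : ¬ t ∣ m := fun ⟨n, hn⟩ => hm ⟨n, hn.symm⟩
    have hm0 : m ≠ 0 := fun h => htm (h ▸ dvd_zero t)
    simp only [dsw_eisCoeff, if_neg hm0, if_neg htm, zero_smul]
  · rw [show c₀ - 2 * S = -2 * S + c₀ by ring]
    refine h5.congr_fun fun n => ?_
    simp only [Function.comp_apply, smul_eq_mul]
    rcases Nat.eq_zero_or_pos n with rfl | hn
    · simp [dsw_eisCoeff, hc₀]
    · have h1 : t * n ≠ 0 := mul_ne_zero ht0 (by omega)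
      have h2 : n ≠ 0 := by omega
      rw [dsw_eisCoeff, if_neg h1, if_pos (dvd_mul_right t n),
        Nat.mul_div_cancel_left n (Nat.pos_of_ne_zero ht0), if_neg h2, add_zero, hQq, ← pow_mul]
      ring

end Fermat.Agent.DS
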