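/-
DS-W / [W-EIS], part 4c: the weight one Eisenstein series at level `ℓ` exactly (`t = 1`), in the
shape consumed by `dsw_vn_prod` (LevelRaise.lean): `dsw_SeamEis1`, and `dsw_SeamEis → dsw_SeamEis1`.
-/
import Mathlib
import Fermat.Agent.DS.Wt.Eis1Def

set_option autoImplicit false

namespace Fermat.Agent.DS

open UpperHalfPlane hiding I
open Complex CongruenceSubgroup ModularFormClass ModularForm
open Matrix.SpecialLinearGroup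
open scoped Real MatrixGroups ModularForm

noncomputable section

/-- **[W-EIS]** at level `ℓ`: the weight one Eisenstein series of an odd character `χ` mod `ℓ`,
a modular form on `Γ₁(ℓ)` with nebentypus `χ` on `Γ₀(ℓ)` and `q`-expansion
`ℓ⁻¹ ∑_{a < ℓ} χ(a) a - 2 ∑_{n ≥ 1} (∑_{d ∣ n} χ(d)) qⁿ`. -/
def dsw_SeamEis1 : Prop :=
  ∀ (ℓ : ℕ) [NeZero ℓ] (χ : DirichletCharacter ℂ ℓ), χ (-1) = -1 →
    ∃ E : ModularForm (Gamma1 ℓ) 1,
      (∀ γ : SL(2, ℤ), γ ∈ Gamma0 ℓ →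
        (⇑E) ∣[(1 : ℤ)] mapGL ℝ γ =
          (χ (((γ : Matrix (Fin 2) (Fin 2) ℤ) 1 1 : ℤ) : ZMod ℓ)) • (⇑E)) ∧
      qCoeff (⇑E) 0 = (ℓ : ℂ)⁻¹ * ∑ a ∈ Finset.range ℓ, χ (a : ZMod ℓ) * (a : ℂ) ∧
      ∀ n : ℕ, 0 < n → qCoeff (⇑E) n = -2 * ∑ d ∈ n.divisors, χ (d : ZMod ℓ)

theorem dsw_eis1_of_eis (h : dsw_SeamEis) : dsw_SeamEis1 := by
  intro ℓ _ χ hχ
  obtain ⟨E, hE, hq⟩ := h ℓ 1 χ hχ
  have hΓ : (Gamma1 ℓ : Subgroup (GL (Fin 2) ℝ)) = (Gamma1 (1 * ℓ) : Subgroup (GL (Fin 2) ℝ)) := by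
    rw [one_mul]
  refine ⟨ModularForm.mcast rfl E hΓ, fun γ hγ => ?_, ?_, fun n hn => ?_⟩
  · have hγ' : γ ∈ Gamma0 (1 * ℓ) := by rwa [one_mul]
    exact hE γ hγ'
  · have := hq 0
    rw [dsw_eisCoeff, if_pos rfl] at this
    exact this
  · have := hq n
    rw [dsw_eisCoeff, if_neg hn.ne', if_pos (one_dvd n), Nat.div_one] at this
    exact this

end

end Fermat.Agent.DS
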