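/-
Project DS (S48), cell DS-W, leaf [W-HECKE]: the Hecke operators `T_p` (`p ∤ M`) on the space
`S₂(M, ψ)` of weight-two cusp forms on `Γ₁(M)` with nebentypus `ψ`.

* `dsw_S2 M ψ`              : the nebentypus eigenspace, a submodule of `CuspForm (Gamma1 M) 2`;
* `dsw_finiteDimensional`   : `CuspForm (Gamma1 M) k` is finite-dimensional (Sturm bound);
* `dsw_Tp p hp hpM`         : `T_p` as a linear endomorphism of `dsw_S2 M ψ`;
* `dsw_Tp_coe`, `dsw_qCoeff_Tp`, `dsw_Tp_comm`.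
-/
import Mathlib
import Fermat.Agent.DS.Neben.Nebentypus
import Fermat.Agent.DS.Neben.HeckeGamma1
import Fermat.Prelude.Thm_CuspFormClass_isZeroAt_heckeT
import Fermat.Prelude.Thm_CuspFormClass_isZeroAt_heckeU
import Fermat.Prelude.Thm_UpperHalfPlane_qCoeff_heckeU
import Fermat.Prelude.Thm_UpperHalfPlane_eq_of_forall_qCoeff_eq

set_option autoImplicit false

noncomputable section

open Complex Function Filter ModularForm ModularFormClass CongruenceSubgroup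
open Matrix.SpecialLinearGroup
open UpperHalfPlane hiding I
open scoped Real MatrixGroups ModularForm Manifold Topology

namespace Fermat.Agent.DS

section basics

variable {M : ℕ} {k : ℤ}

theorem dsw_h1 (M : ℕ) : (1 : ℝ) ∈ (Gamma1 M : Subgroup (GL (Fin 2) ℝ)).strictPeriods := by simp

theorem dsw_qCoeff_add (f g : CuspForm (Gamma1 M) k) (n : ℕ) :
    qCoeff ⇑(f + g) n = qCoeff ⇑f n + qCoeff ⇑g n := by
  have h : ⇑(f + g) = ⇑f + ⇑g := rfl
  rw [qCoeff, qCoeff, qCoeff, h, ModularForm.qExpansion_add one_pos (dsw_h1 M) f g, map_add]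

theorem dsw_qCoeff_smul (c : ℂ) (f : CuspForm (Gamma1 M) k) (n : ℕ) :
    qCoeff ⇑(c • f) n = c * qCoeff ⇑f n := by
  have h : ⇑(c • f) = c • ⇑f := rfl
  rw [qCoeff, qCoeff, h, ModularForm.qExpansion_smul one_pos (dsw_h1 M) c f]
  simp

/-- The `n`-th `q`-coefficient as a linear functional on `CuspForm (Gamma1 M) k`. -/
def dsw_qcLin (M : ℕ) (k : ℤ) (n : ℕ) : CuspForm (Gamma1 M) k →ₗ[ℂ] ℂ where
  toFun f := qCoeff ⇑f n
  map_add' f g := dsw_qCoeff_add f g n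
  map_smul' c f := by
    simp only [RingHom.id_apply, smul_eq_mul]
    exact dsw_qCoeff_smul c f n

@[simp] theorem dsw_qcLin_apply (n : ℕ) (f : CuspForm (Gamma1 M) k) :
    dsw_qcLin M k n f = qCoeff ⇑f n := rfl

theorem dsw_qCoeff_ext {f g : CuspForm (Gamma1 M) k} (h : ∀ n, qCoeff ⇑f n = qCoeff ⇑g n) :
    f = g := by
  apply DFunLike.coe_injective
  have : Fact (IsCusp OnePoint.infty (Gamma1 M : Subgroup (GL (Fin 2) ℝ))) :=
    ⟨Subgroup.isCusp_of_mem_strictPeriods one_pos (dsw_h1 M)⟩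
  exact UpperHalfPlane.eq_of_forall_qCoeff_eq
    (SlashInvariantFormClass.periodic_comp_ofComplex f (dsw_h1 M)) (ModularFormClass.holo f)
    (ModularFormClass.bdd_at_infty f)
    (SlashInvariantFormClass.periodic_comp_ofComplex g (dsw_h1 M)) (ModularFormClass.holo g)
    (ModularFormClass.bdd_at_infty g) h

/-- Spaces of cusp forms on `Γ₁(M)` are finite-dimensional (Sturm bound). -/
instance dsw_finiteDimensional (M : ℕ) [NeZero M] (k : ℤ) :
    FiniteDimensional ℂ (CuspForm (Gamma1 M) k) := by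
  let T : CuspForm (Gamma1 M) k →ₗ[ℂ] (Fin (ds0_sturm M k + 1) → ℂ) :=
    LinearMap.pi fun n => dsw_qcLin M k (n : ℕ)
  have hT : Function.Injective T := by
    rw [← LinearMap.ker_eq_bot, LinearMap.ker_eq_bot']
    intro f hf
    have hF : ModularFormClass.modularForm f = 0 := by
      refine ModularForm.sturm_bound_of_isArithmetic (dsw_h1 M) ?_
      have hle : ((ds0_sturm M k + 1 : ℕ) : ℕ∞) ≤
          (qExpansion 1 (ModularFormClass.modularForm f)).order := by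
        refine PowerSeries.nat_le_order _ _ fun n hn ↦ ?_
        have := congrFun hf ⟨n, hn⟩
        exact this
      refine lt_of_lt_of_le ?_ hle
      rw [ds0_sturm]
      exact_mod_cast Nat.lt_succ_self _
    ext z
    exact DFunLike.congr_fun hF z
  exact FiniteDimensional.of_injective T hT

end basics

section space

variable (M : ℕ) [NeZero M] (ψ : DirichletCharacter ℂ M)

theorem dsw_smul_slash_SL (c : ℂ) (f : ℍ → ℂ) (k : ℤ) (γ : SL(2, ℤ)) :
    (c • f) ∣[k] mapGL ℝ γ = c • (f ∣[k] mapGL ℝ γ) := by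
  rw [ModularForm.smul_slash]
  congr 1
  have hdet : (0 : ℝ) < ((mapGL ℝ γ : GL (Fin 2) ℝ).det : ℝ) := by
    simp
  rw [UpperHalfPlane.σ, if_pos hdet]
  rfl

/-- `S₂(M, ψ)`: weight-two cusp forms on `Γ₁(M)` with nebentypus `ψ`. -/
def dsw_S2 : Submodule ℂ (CuspForm (Gamma1 M) 2) where
  carrier := {g | ∀ γ : SL(2, ℤ), γ ∈ Gamma0 M →
    ⇑g ∣[(2 : ℤ)] mapGL ℝ γ = ψ (((γ 1 1 : ℤ)) : ZMod M) • ⇑g}
  add_mem' := by
    intro a b ha hb γ hγ
    have h : ⇑(a + b) = ⇑a + ⇑b := rfl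
    rw [h, SlashAction.add_slash, ha γ hγ, hb γ hγ, smul_add]
  zero_mem' := by
    intro γ _
    have h : ⇑(0 : CuspForm (Gamma1 M) 2) = 0 := rfl
    rw [h, SlashAction.zero_slash, smul_zero]
  smul_mem' := by
    intro c a ha γ hγ
    have h : ⇑(c • a) = c • ⇑a := rfl
    rw [h, dsw_smul_slash_SL, ha γ hγ, smul_comm]

variable {M ψ}

omit [NeZero M] in
theorem dsw_mem_S2 {g : CuspForm (Gamma1 M) 2} :
    g ∈ dsw_S2 M ψ ↔ ∀ γ : SL(2, ℤ), γ ∈ Gamma0 M →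
      ⇑g ∣[(2 : ℤ)] mapGL ℝ γ = ψ (((γ 1 1 : ℤ)) : ZMod M) • ⇑g := Iff.rfl

end space

section hecke

variable {M : ℕ} [NeZero M] {ψ : DirichletCharacter ℂ M}

/-- The function `T_p g = U_p g + ψ(p) • g ∣ diag(p, 1)`. -/
def dsw_TpFun (ψ : DirichletCharacter ℂ M) (p : ℕ) (g : ℍ → ℂ) : ℍ → ℂ :=
  heckeU 2 p g + ψ (p : ZMod M) • (g ∣[(2 : ℤ)] heckeDiagMatrix p)

omit [NeZero M] in
theorem dsw_smul_slash_diag (c : ℂ) (f : ℍ → ℂ) (k : ℤ) (p : ℕ) :
    (c • f) ∣[k] heckeDiagMatrix p = c • (f ∣[k] heckeDiagMatrix p) := by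
  rw [ModularForm.smul_slash, σ_heckeDiagMatrix, ContinuousAlgEquiv.refl_apply]

omit [NeZero M] in
theorem dsw_TpFun_eq_fam (p : ℕ) (g : ℍ → ℂ) (u : ZMod M) :
    ds0_heckeTFam M 2 p (fun v => ψ v • g) u = ψ u • dsw_TpFun ψ p g := by
  rw [ds0_heckeTFam, dsw_TpFun, heckeU_smul, dsw_smul_slash_diag, map_mul, smul_add, smul_smul,
    mul_comm]

omit [NeZero M] in
/-- `T_p` preserves the nebentypus. -/
theorem dsw_TpFun_slash {p : ℕ} (hp : p.Prime) (hpM : ¬ p ∣ M) {g : ℍ → ℂ}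
    (hg : ∀ γ : SL(2, ℤ), γ ∈ Gamma0 M →
      g ∣[(2 : ℤ)] mapGL ℝ γ = ψ (((γ 1 1 : ℤ)) : ZMod M) • g)
    (γ : SL(2, ℤ)) (hγ : γ ∈ Gamma0 M) :
    dsw_TpFun ψ p g ∣[(2 : ℤ)] mapGL ℝ γ = ψ (((γ 1 1 : ℤ)) : ZMod M) • dsw_TpFun ψ p g := by
  have : Fact p.Prime := ⟨hp⟩
  have hF : ∀ (u : ZMod M) (γ : SL(2, ℤ)), γ ∈ CongruenceSubgroup.Gamma0 M →
      (fun v => ψ v • g) u ∣[(2 : ℤ)] mapGL ℝ γ =
        (fun v => ψ v • g) (u * ((γ 1 1 : ℤ) : ZMod M)) := by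
    intro u γ hγ
    simp only
    rw [dsw_smul_slash_SL, hg γ hγ, smul_smul, map_mul]
  have h := ds0_heckeTFam_slash (p := p) 2 hpM (fun v => ψ v • g) hF 1 γ hγ
  rw [dsw_TpFun_eq_fam, dsw_TpFun_eq_fam, map_one, one_smul, one_mul] at h
  exact h

/-- `T_p g` as a cusp form on `Γ₁(M)`. -/
def dsw_TpForm (p : ℕ) (hp : p.Prime) (hpM : ¬ p ∣ M) (g : dsw_S2 M ψ) :
    CuspForm (Gamma1 M) 2 where
  toFun := dsw_TpFun ψ p ⇑(g : CuspForm (Gamma1 M) 2)
  slash_action_eq' := by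
    rintro _ ⟨δ, hδ, rfl⟩
    have hδ' := ds0_mem_Gamma1_iff.mp hδ
    have h := dsw_TpFun_slash (ψ := ψ) hp hpM (dsw_mem_S2.1 g.2) δ hδ'.1
    rw [show ((δ 1 1 : ℤ) : ZMod M) = 1 from hδ'.2, map_one, one_smul] at h
    exact h
  holo' := by
    have h1 : ψ (p : ZMod M) • (⇑(g : CuspForm (Gamma1 M) 2) ∣[(2 : ℤ)] heckeDiagMatrix p) =
        ⇑(ψ (p : ZMod M) • (g : CuspForm (Gamma1 M) 2)) ∣[(2 : ℤ)] heckeDiagMatrix p := by
      rw [← dsw_smul_slash_diag]; rfl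
    show MDiff (dsw_TpFun ψ p ⇑(g : CuspForm (Gamma1 M) 2))
    rw [dsw_TpFun, h1]
    exact (ModularForm.mdifferentiable_heckeU (holo (g : CuspForm (Gamma1 M) 2)) 2 p).add
      (ds0_diag_mdiff 2 (holo (ψ (p : ZMod M) • (g : CuspForm (Gamma1 M) 2))) p)
  zero_at_cusps' := fun {c} hc ↦ by
    have h1 : dsw_TpFun ψ p ⇑(g : CuspForm (Gamma1 M) 2) =
        heckeU 2 p ⇑((g : CuspForm (Gamma1 M) 2) - ψ (p : ZMod M) • (g : CuspForm (Gamma1 M) 2)) +
          heckeT 2 p ⇑(ψ (p : ZMod M) • (g : CuspForm (Gamma1 M) 2)) := by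
      have e1 : ⇑((g : CuspForm (Gamma1 M) 2) - ψ (p : ZMod M) • (g : CuspForm (Gamma1 M) 2)) =
          ⇑(g : CuspForm (Gamma1 M) 2) - ψ (p : ZMod M) • ⇑(g : CuspForm (Gamma1 M) 2) := rfl
      have e2 : ⇑(ψ (p : ZMod M) • (g : CuspForm (Gamma1 M) 2)) =
          ψ (p : ZMod M) • ⇑(g : CuspForm (Gamma1 M) 2) := rfl
      rw [e1, e2, dsw_TpFun, heckeU_sub, heckeT_eq_heckeU_add, dsw_smul_slash_diag]
      abel
    show OnePoint.IsZeroAt c (dsw_TpFun ψ p ⇑(g : CuspForm (Gamma1 M) 2)) 2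
    rw [h1]
    exact (CuspFormClass.isZeroAt_heckeU _ p hc).add (CuspFormClass.isZeroAt_heckeT _ p hc)

theorem dsw_TpForm_coe (p : ℕ) (hp : p.Prime) (hpM : ¬ p ∣ M) (g : dsw_S2 M ψ) :
    ⇑(dsw_TpForm p hp hpM g) = heckeU 2 p ⇑(g : CuspForm (Gamma1 M) 2) +
      ψ (p : ZMod M) • (⇑(g : CuspForm (Gamma1 M) 2) ∣[(2 : ℤ)] heckeDiagMatrix p) := rfl

theorem dsw_TpForm_mem (p : ℕ) (hp : p.Prime) (hpM : ¬ p ∣ M) (g : dsw_S2 M ψ) :
    dsw_TpForm p hp hpM g ∈ dsw_S2 M ψ :=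
  fun γ hγ => dsw_TpFun_slash hp hpM (dsw_mem_S2.1 g.2) γ hγ

end hecke

section operator

variable {M : ℕ} [NeZero M] {ψ : DirichletCharacter ℂ M}

/-- The Hecke operator `T_p` (`p ∤ M`) on `S₂(M, ψ)`. -/
def dsw_Tp (p : ℕ) (hp : p.Prime) (hpM : ¬ p ∣ M) : dsw_S2 M ψ →ₗ[ℂ] dsw_S2 M ψ where
  toFun g := ⟨dsw_TpForm p hp hpM g, dsw_TpForm_mem p hp hpM g⟩
  map_add' g h := by
    apply Subtype.ext
    apply DFunLike.coe_injective
    show dsw_TpFun ψ p (⇑(g : CuspForm (Gamma1 M) 2) + ⇑(h : CuspForm (Gamma1 M) 2)) =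
      dsw_TpFun ψ p ⇑(g : CuspForm (Gamma1 M) 2) + dsw_TpFun ψ p ⇑(h : CuspForm (Gamma1 M) 2)
    rw [dsw_TpFun, dsw_TpFun, dsw_TpFun, heckeU_add, SlashAction.add_slash, smul_add]
    abel
  map_smul' c g := by
    apply Subtype.ext
    apply DFunLike.coe_injective
    show dsw_TpFun ψ p (c • ⇑(g : CuspForm (Gamma1 M) 2)) =
      c • dsw_TpFun ψ p ⇑(g : CuspForm (Gamma1 M) 2)
    rw [dsw_TpFun, dsw_TpFun, heckeU_smul, dsw_smul_slash_diag, smul_add, smul_comm]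

theorem dsw_Tp_coe (p : ℕ) (hp : p.Prime) (hpM : ¬ p ∣ M) (g : dsw_S2 M ψ) :
    ⇑((dsw_Tp p hp hpM g : dsw_S2 M ψ) : CuspForm (Gamma1 M) 2) =
      heckeU 2 p ⇑(g : CuspForm (Gamma1 M) 2) +
        ψ (p : ZMod M) • (⇑(g : CuspForm (Gamma1 M) 2) ∣[(2 : ℤ)] heckeDiagMatrix p) := rfl

/-- `q`-expansion of `T_p g`. -/
theorem dsw_qCoeff_Tp (p : ℕ) (hp : p.Prime) (hpM : ¬ p ∣ M) (g : dsw_S2 M ψ) (n : ℕ) :
    qCoeff ⇑((dsw_Tp p hp hpM g : dsw_S2 M ψ) : CuspForm (Gamma1 M) 2) n =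
      qCoeff ⇑(g : CuspForm (Gamma1 M) 2) (p * n) +
        ψ (p : ZMod M) * (p : ℂ) *
          (if p ∣ n then qCoeff ⇑(g : CuspForm (Gamma1 M) 2) (n / p) else 0) := by
  have hp0 : p ≠ 0 := hp.ne_zero
  have : Fact (IsCusp OnePoint.infty (Gamma1 M : Subgroup (GL (Fin 2) ℝ))) :=
    ⟨Subgroup.isCusp_of_mem_strictPeriods one_pos (dsw_h1 M)⟩
  set f : CuspForm (Gamma1 M) 2 := (g : CuspForm (Gamma1 M) 2) with hf
  set f' : CuspForm (Gamma1 M) 2 := ψ (p : ZMod M) • f with hf'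
  have hper := SlashInvariantFormClass.periodic_comp_ofComplex f (dsw_h1 M)
  have hhol := ModularFormClass.holo f
  have hbdd := ModularFormClass.bdd_at_infty f
  have hper' := SlashInvariantFormClass.periodic_comp_ofComplex f' (dsw_h1 M)
  have hhol' := ModularFormClass.holo f'
  have hbdd' := ModularFormClass.bdd_at_infty f'
  have e2 : ψ (p : ZMod M) • (⇑f ∣[(2 : ℤ)] heckeDiagMatrix p) =
      ⇑f' ∣[(2 : ℤ)] heckeDiagMatrix p := by
    rw [← dsw_smul_slash_diag]; rfl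
  rw [dsw_Tp_coe, e2, qCoeff]
  rw [qExpansion_add
    (analyticAt_cuspFunction_zero one_pos (ModularForm.periodic_heckeU_comp_ofComplex hper 2 p)
      (ModularForm.mdifferentiable_heckeU hhol 2 p)
      (ModularForm.isBoundedAtImInfty_heckeU hbdd 2 p))
    (analyticAt_cuspFunction_zero one_pos (ds0_diag_periodic 2 hper' p)
      (ds0_diag_mdiff 2 hhol' p) (ds0_diag_bdd 2 hbdd' p)), map_add]
  have h1 := UpperHalfPlane.qCoeff_heckeU hper hhol hbdd 2 hp0 n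
  have h2 := ds0_qCoeff_diag 2 hp0 hper' hhol' hbdd' n
  rw [qCoeff] at h1 h2
  rw [h1, h2, coeffHeckeU_apply, mul_comm n p]
  congr 1
  split_ifs with hdvd
  · rw [hf', dsw_qCoeff_smul]
    norm_num
    ring
  · simp

theorem dsw_coeff_comm {p q : ℕ} (hp : p.Prime) (hq : q.Prime) (hpq : p ≠ q) (cp cq : ℂ)
    (a : ℕ → ℂ) (n : ℕ) :
    (a (q * (p * n)) + cq * (if q ∣ p * n then a (p * n / q) else 0)) +
        cp * (if p ∣ n then
          (a (q * (n / p)) + cq * (if q ∣ n / p then a (n / p / q) else 0)) else 0) =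
      (a (p * (q * n)) + cp * (if p ∣ q * n then a (q * n / p) else 0)) +
        cq * (if q ∣ n then
          (a (p * (n / q)) + cp * (if p ∣ n / q then a (n / q / p) else 0)) else 0) := by
  have h1 : q ∣ p * n ↔ q ∣ n := by
    constructor
    · intro h
      rcases (Nat.Prime.dvd_mul hq).1 h with h | h
      · exact absurd ((Nat.prime_dvd_prime_iff_eq hq hp).1 h).symm hpq
      · exact h
    · exact fun h => dvd_mul_of_dvd_right h _
  have h2 : p ∣ q * n ↔ p ∣ n := by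
    constructor
    · intro h
      rcases (Nat.Prime.dvd_mul hp).1 h with h | h
      · exact absurd ((Nat.prime_dvd_prime_iff_eq hp hq).1 h) hpq
      · exact h
    · exact fun h => dvd_mul_of_dvd_right h _
  have h3 : q * (p * n) = p * (q * n) := by ring
  simp only [h1, h2, h3]
  by_cases hpn : p ∣ n <;> by_cases hqn : q ∣ n
  · obtain ⟨m, rfl⟩ := hpn
    have hqm : q ∣ m := by
      rcases (Nat.Prime.dvd_mul hq).1 hqn with h | h
      · exact absurd ((Nat.prime_dvd_prime_iff_eq hq hp).1 h).symm hpq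
      · exact h
    obtain ⟨r, rfl⟩ := hqm
    have e1 : p * (q * r) / p = q * r := Nat.mul_div_cancel_left _ hp.pos
    have e2 : p * (q * r) / q = p * r := by
      rw [show p * (q * r) = q * (p * r) by ring]; exact Nat.mul_div_cancel_left _ hq.pos
    have e3 : q * (p * (q * r)) / p = q * (q * r) := by
      rw [show q * (p * (q * r)) = p * (q * (q * r)) by ring]
      exact Nat.mul_div_cancel_left _ hp.pos
    have e4 : p * (p * (q * r)) / q = p * (p * r) := by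
      rw [show p * (p * (q * r)) = q * (p * (p * r)) by ring]
      exact Nat.mul_div_cancel_left _ hq.pos
    have e5 : q * r / q = r := Nat.mul_div_cancel_left _ hq.pos
    have e6 : p * r / p = r := Nat.mul_div_cancel_left _ hp.pos
    have hpqr : p ∣ p * r := dvd_mul_right _ _
    have hqqr : q ∣ q * r := dvd_mul_right _ _
    simp only [e1, e2, e3, e4, e5, e6, if_pos hqn, if_pos (dvd_mul_right p (q * r)), if_pos hpqr,
      if_pos hqqr]
    ring
  · obtain ⟨m, rfl⟩ := hpn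
    have hqm : ¬ q ∣ m := fun h => hqn (dvd_mul_of_dvd_right h _)
    have e1 : p * m / p = m := Nat.mul_div_cancel_left _ hp.pos
    have e3 : q * (p * m) / p = q * m := by
      rw [show q * (p * m) = p * (q * m) by ring]
      exact Nat.mul_div_cancel_left _ hp.pos
    simp only [e1, e3, if_neg hqm, if_neg hqn, if_pos (dvd_mul_right p m)]
    ring
  · obtain ⟨m, rfl⟩ := hqn
    have hpm : ¬ p ∣ m := fun h => hpn (dvd_mul_of_dvd_right h _)
    have e1 : q * m / q = m := Nat.mul_div_cancel_left _ hq.pos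
    have e3 : p * (q * m) / q = p * m := by
      rw [show p * (q * m) = q * (p * m) by ring]
      exact Nat.mul_div_cancel_left _ hq.pos
    simp only [e1, e3, if_neg hpm, if_neg hpn, if_pos (dvd_mul_right q m)]
    ring
  · simp only [if_neg hpn, if_neg hqn]
    ring


/-- The operators `T_p` commute. -/
theorem dsw_Tp_comm (p : ℕ) (hp : p.Prime) (hpM : ¬ p ∣ M) (q : ℕ) (hq : q.Prime)
    (hqM : ¬ q ∣ M) :
    Commute (dsw_Tp (ψ := ψ) p hp hpM) (dsw_Tp (ψ := ψ) q hq hqM) := by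
  rcases eq_or_ne p q with rfl | hpq
  · exact Commute.refl _
  · refine LinearMap.ext fun g => ?_
    apply Subtype.ext
    apply dsw_qCoeff_ext
    intro n
    show qCoeff ⇑((dsw_Tp p hp hpM (dsw_Tp q hq hqM g) : dsw_S2 M ψ) : CuspForm (Gamma1 M) 2) n =
      qCoeff ⇑((dsw_Tp q hq hqM (dsw_Tp p hp hpM g) : dsw_S2 M ψ) : CuspForm (Gamma1 M) 2) n
    simp only [dsw_qCoeff_Tp]
    have := dsw_coeff_comm hp hq hpq (ψ (p : ZMod M) * (p : ℂ)) (ψ (q : ZMod M) * (q : ℂ))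
      (qCoeff ⇑(g : CuspForm (Gamma1 M) 2)) n
    convert this using 2

end operator

end Fermat.Agent.DS
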