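/-
DS-W [W-VN]: level raising and the weight-two product.

* `dsw_vn_restrict` : a cusp form on `Γ₁(N)` as a cusp form on `Γ₁(M)`, `N ∣ M`;
* `dsw_vn_V N E`    : `V_N E = E ∣[k] diag(N, 1)` (`τ ↦ N^(k-1) E(Nτ)`) for a modular form `E` on
                      `Γ₁(ℓ)`, as a modular form on `Γ₁(N ℓ)`; nebentypus and `q`-expansion;
* `dsw_vn_prod N f E` : the product `f · V_N E` of a weight-one cusp form `f` on `Γ₁(N)` and a
                      weight-one modular form `E` on `Γ₁(ℓ)`, a weight-two cusp form on `Γ₁(N ℓ)`;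
                      nebentypus, `q`-expansion, `q`-coefficients.
-/
import Mathlib
import Fermat.Agent.DS.Neben.Nebentypus
import Fermat.Agent.DS.Wt.HeckeS2

set_option autoImplicit false

noncomputable section

open Complex Function Filter ModularForm ModularFormClass CongruenceSubgroup
open Matrix.SpecialLinearGroup
open UpperHalfPlane hiding I
open scoped Real MatrixGroups ModularForm Manifold Topology

namespace Fermat.Agent.DS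

section levels

theorem dsw_vn_cast_eq {N M : ℕ} (h : N ∣ M) {a b : ℤ} (hab : (a : ZMod M) = (b : ZMod M)) :
    (a : ZMod N) = (b : ZMod N) := by
  rw [ZMod.intCast_eq_intCast_iff_dvd_sub] at hab ⊢
  exact (Int.natCast_dvd_natCast.mpr h).trans hab

theorem dsw_vn_Gamma0_le {N M : ℕ} (h : N ∣ M) : Gamma0 M ≤ Gamma0 N := by
  intro γ hγ
  rw [Gamma0_mem] at hγ ⊢
  have := dsw_vn_cast_eq h (a := γ 1 0) (b := 0) (by simpa using hγ)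
  simpa using this

theorem dsw_vn_Gamma1_le {N M : ℕ} (h : N ∣ M) : Gamma1 M ≤ Gamma1 N := by
  intro γ hγ
  rw [ds0_mem_Gamma1_iff] at hγ ⊢
  refine ⟨dsw_vn_Gamma0_le h hγ.1, ?_⟩
  have := dsw_vn_cast_eq h (a := γ 1 1) (b := 1) (by simpa [ds0_d] using hγ.2)
  simpa [ds0_d] using this

theorem dsw_vn_map_Gamma1_le {N M : ℕ} (h : N ∣ M) :
    (Gamma1 M : Subgroup (GL (Fin 2) ℝ)) ≤ (Gamma1 N : Subgroup (GL (Fin 2) ℝ)) :=
  Subgroup.map_mono (dsw_vn_Gamma1_le h)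

/-- A cusp form on `Γ₁(N)` as a cusp form on `Γ₁(M)`, `N ∣ M`. -/
def dsw_vn_restrict {N M : ℕ} {k : ℤ} (h : N ∣ M) (f : CuspForm (Gamma1 N) k) :
    CuspForm (Gamma1 M) k where
  toFun := ⇑f
  slash_action_eq' γ hγ := f.slash_action_eq' γ (dsw_vn_map_Gamma1_le h hγ)
  holo' := f.holo'
  zero_at_cusps' hc := f.zero_at_cusps' (hc.mono (dsw_vn_map_Gamma1_le h))

@[simp] theorem dsw_vn_restrict_coe {N M : ℕ} {k : ℤ} (h : N ∣ M) (f : CuspForm (Gamma1 N) k) :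
    ⇑(dsw_vn_restrict h f) = ⇑f := rfl

end levels

section VN

variable (N : ℕ) [NeZero N] {ℓ : ℕ} [NeZero ℓ] {k : ℤ}

omit [NeZero N] [NeZero ℓ] in
theorem dsw_vn_slash_Gamma1 (E : ModularForm (Gamma1 ℓ) k) (γ : SL(2, ℤ)) (hγ : γ ∈ Gamma1 ℓ) :
    ⇑E ∣[k] mapGL ℝ γ = ⇑E :=
  SlashInvariantFormClass.slash_action_eq E _ (Subgroup.mem_map_of_mem _ hγ)

omit [NeZero ℓ] in
/-- the commutation `diag(N,1) γ = γ' diag(N,1)` for `γ ∈ Γ₀(N ℓ)`, with `γ' ∈ Γ₀(ℓ)` of the same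
lower right entry. -/
theorem dsw_vn_commute (γ : SL(2, ℤ)) (hγ : γ ∈ Gamma0 (N * ℓ)) :
    ∃ g' : SL(2, ℤ), g' ∈ Gamma0 ℓ ∧ g' 1 1 = γ 1 1 ∧
      heckeDiagMatrix N * mapGL ℝ γ = mapGL ℝ g' * heckeDiagMatrix N := by
  have h10 : ((γ 1 0 : ℤ) : ZMod (N * ℓ)) = 0 := Gamma0_mem.mp hγ
  obtain ⟨e', he'⟩ : (((N * ℓ : ℕ)) : ℤ) ∣ γ 1 0 := (ZMod.intCast_zmod_eq_zero_iff_dvd _ _).mp h10
  have he : γ 1 0 = N * (ℓ * e') := by rw [he']; push_cast; ring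
  obtain ⟨g', hg10, hg11, hmul⟩ :=
    ds0_heckeDiagMatrix_mul_of_eq' (p := N) (NeZero.ne N) γ (ℓ * e') he
  refine ⟨g', ?_, hg11, hmul⟩
  rw [Gamma0_mem, hg10]
  push_cast
  simp

/-- `V_N E = E ∣[k] diag(N,1)`, a modular form on `Γ₁(N ℓ)`. -/
def dsw_vn_V (E : ModularForm (Gamma1 ℓ) k) : ModularForm (Gamma1 (N * ℓ)) k where
  toFun := ⇑E ∣[k] heckeDiagMatrix N
  slash_action_eq' := by
    rintro _ ⟨δ, hδ, rfl⟩
    obtain ⟨hδ0, hδ1⟩ := ds0_mem_Gamma1_iff.mp hδ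
    obtain ⟨g', hg0, hg11, hmul⟩ := dsw_vn_commute N δ hδ0
    have hg' : g' ∈ Gamma1 ℓ := by
      rw [ds0_mem_Gamma1_iff]
      refine ⟨hg0, ?_⟩
      rw [ds0_d, hg11]
      have := dsw_vn_cast_eq (dvd_mul_left ℓ N) (a := δ 1 1) (b := 1) (by simpa [ds0_d] using hδ1)
      simpa using this
    show (⇑E ∣[k] heckeDiagMatrix N) ∣[k] mapGL ℝ δ = ⇑E ∣[k] heckeDiagMatrix N
    rw [← SlashAction.slash_mul, hmul, SlashAction.slash_mul, dsw_vn_slash_Gamma1 E g' hg']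
  holo' := ds0_diag_mdiff k (holo E) N
  bdd_at_cusps' := fun {c} hc ↦ by
    have hc' : IsCusp c (Gamma1 ℓ : Subgroup (GL (Fin 2) ℝ)) :=
      hc.mono (dsw_vn_map_Gamma1_le (dvd_mul_left ℓ N))
    show OnePoint.IsBoundedAt c (⇑E ∣[k] heckeDiagMatrix N) k
    rw [ds0_diag_eq_sub, sub_eq_add_neg, ← heckeU_neg]
    exact (ModularFormClass.isBoundedAt_heckeT E N hc').add
      (ModularFormClass.isBoundedAt_heckeU (-E) N hc')

theorem dsw_vn_V_coe (E : ModularForm (Gamma1 ℓ) k) :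
    ⇑(dsw_vn_V N E) = ⇑E ∣[k] heckeDiagMatrix N := rfl

/-- `V_N E (τ) = N^(k-1) E(N τ)`. -/
theorem dsw_vn_V_apply (E : ModularForm (Gamma1 ℓ) k) (τ : ℍ) :
    dsw_vn_V N E τ = (N : ℂ) ^ (k - 1) * E (heckeDiagMatrix N • τ) :=
  slash_heckeDiagMatrix_apply k (NeZero.ne N) _ τ

/-- nebentypus of `V_N E`. -/
theorem dsw_vn_V_neben (E : ModularForm (Gamma1 ℓ) k) (χ : ZMod ℓ → ℂ)
    (hE : ∀ γ : SL(2, ℤ), γ ∈ Gamma0 ℓ →
      ⇑E ∣[k] mapGL ℝ γ = χ (((γ 1 1 : ℤ)) : ZMod ℓ) • ⇑E)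
    (γ : SL(2, ℤ)) (hγ : γ ∈ Gamma0 (N * ℓ)) :
    ⇑(dsw_vn_V N E) ∣[k] mapGL ℝ γ = χ (((γ 1 1 : ℤ)) : ZMod ℓ) • ⇑(dsw_vn_V N E) := by
  obtain ⟨g', hg0, hg11, hmul⟩ := dsw_vn_commute N γ hγ
  rw [dsw_vn_V_coe, ← SlashAction.slash_mul, hmul, SlashAction.slash_mul, hE g' hg0, hg11,
    ModularForm.smul_slash, σ_heckeDiagMatrix, ContinuousAlgEquiv.refl_apply]

theorem dsw_vn_one_mem_strictPeriods (M : ℕ) :
    (1 : ℝ) ∈ (Gamma1 M : Subgroup (GL (Fin 2) ℝ)).strictPeriods := by simp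

/-- `q`-expansion of `V_N E`. -/
theorem dsw_vn_V_qCoeff (E : ModularForm (Gamma1 ℓ) k) (n : ℕ) :
    qCoeff (dsw_vn_V N E) n = if N ∣ n then (N : ℂ) ^ (k - 1) * qCoeff E (n / N) else 0 := by
  have h1 := dsw_vn_one_mem_strictPeriods ℓ
  have : Fact (IsCusp OnePoint.infty (Gamma1 ℓ : Subgroup (GL (Fin 2) ℝ))) :=
    ⟨Subgroup.isCusp_of_mem_strictPeriods one_pos h1⟩
  exact ds0_qCoeff_diag k (NeZero.ne N) (SlashInvariantFormClass.periodic_comp_ofComplex E h1)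
    (holo E) (bdd_at_infty E) n

end VN

section product

variable (N : ℕ) [NeZero N] {ℓ : ℕ} [NeZero ℓ]

/-- The product `f · V_N E`, a weight-two cusp form on `Γ₁(N ℓ)`. -/
def dsw_vn_prod (f : CuspForm (Gamma1 N) 1) (E : ModularForm (Gamma1 ℓ) 1) :
    CuspForm (Gamma1 (N * ℓ)) 2 :=
  ((dsw_vn_restrict (dvd_mul_right N ℓ) f).mulModularForm (dsw_vn_V N E)).mcast (by norm_num)

theorem dsw_vn_prod_coe (f : CuspForm (Gamma1 N) 1) (E : ModularForm (Gamma1 ℓ) 1) :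
    ⇑(dsw_vn_prod N f E) = ⇑f * ⇑(dsw_vn_V N E) := rfl

theorem dsw_vn_prod_apply (f : CuspForm (Gamma1 N) 1) (E : ModularForm (Gamma1 ℓ) 1) (τ : ℍ) :
    dsw_vn_prod N f E τ = f τ * E (heckeDiagMatrix N • τ) := by
  show (⇑f * ⇑(dsw_vn_V N E)) τ = _
  rw [Pi.mul_apply, dsw_vn_V_apply]
  simp

/-- nebentypus of the product. -/
theorem dsw_vn_prod_neben (f : CuspForm (Gamma1 N) 1) (E : ModularForm (Gamma1 ℓ) 1)
    (ε : ZMod N → ℂ) (χ : ZMod ℓ → ℂ)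
    (hf : ∀ γ : SL(2, ℤ), γ ∈ Gamma0 N →
      ⇑f ∣[(1 : ℤ)] mapGL ℝ γ = ε (((γ 1 1 : ℤ)) : ZMod N) • ⇑f)
    (hE : ∀ γ : SL(2, ℤ), γ ∈ Gamma0 ℓ →
      ⇑E ∣[(1 : ℤ)] mapGL ℝ γ = χ (((γ 1 1 : ℤ)) : ZMod ℓ) • ⇑E)
    (γ : SL(2, ℤ)) (hγ : γ ∈ Gamma0 (N * ℓ)) :
    ⇑(dsw_vn_prod N f E) ∣[(2 : ℤ)] mapGL ℝ γ =
      (ε (((γ 1 1 : ℤ)) : ZMod N) * χ (((γ 1 1 : ℤ)) : ZMod ℓ)) • ⇑(dsw_vn_prod N f E) := by
  have h1 := hf γ (dsw_vn_Gamma0_le (dvd_mul_right N ℓ) hγ)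
  have h2 := dsw_vn_V_neben N E χ hE γ hγ
  have h3 := ModularForm.mul_slash_SL2 1 1 γ ⇑f ⇑(dsw_vn_V N E)
  rw [dsw_vn_prod_coe]
  have e : (γ : GL (Fin 2) ℝ) = mapGL ℝ γ := rfl
  simp only [ModularForm.SL_slash, e] at h3
  rw [show (2 : ℤ) = 1 + 1 by norm_num, h3, h1, h2]
  funext τ
  simp only [Pi.mul_apply, Pi.smul_apply, smul_eq_mul]
  ring

/-- `q`-expansion of the product. -/
theorem dsw_vn_prod_qExpansion (f : CuspForm (Gamma1 N) 1) (E : ModularForm (Gamma1 ℓ) 1) :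
    qExpansion 1 (dsw_vn_prod N f E) = qExpansion 1 f * qExpansion 1 (dsw_vn_V N E) := by
  have h1 := dsw_vn_one_mem_strictPeriods (N * ℓ)
  exact ModularForm.qExpansion_mul_coe one_pos h1 (dsw_vn_restrict (dvd_mul_right N ℓ) f)
    (dsw_vn_V N E)

/-- `q`-coefficients of the product: `a_n(f · V_N E) = ∑_{j ≤ n/N} a_j(E) a_{n - N j}(f)`. -/
theorem dsw_vn_prod_qCoeff (f : CuspForm (Gamma1 N) 1) (E : ModularForm (Gamma1 ℓ) 1) (n : ℕ) :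
    qCoeff (dsw_vn_prod N f E) n =
      ∑ j ∈ Finset.range (n / N + 1), qCoeff E j * qCoeff f (n - N * j) := by
  have hN : 0 < N := NeZero.pos N
  have hcoe : ∀ b : ℕ, (PowerSeries.coeff b) (qExpansion 1 (dsw_vn_V N E)) =
      if N ∣ b then qCoeff E (b / N) else 0 := by
    intro b
    have := dsw_vn_V_qCoeff N E b
    rw [qCoeff] at this
    rw [this]
    simp
  have key : qCoeff (dsw_vn_prod N f E) n = ∑ b ∈ Finset.range (n + 1),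
      (PowerSeries.coeff b) (qExpansion 1 (dsw_vn_V N E)) *
        (PowerSeries.coeff (n - b)) (qExpansion 1 f) := by
    rw [qCoeff, dsw_vn_prod_qExpansion, mul_comm, PowerSeries.coeff_mul]
    exact Finset.Nat.sum_antidiagonal_eq_sum_range_succ_mk
      (fun p : ℕ × ℕ ↦ (PowerSeries.coeff p.1) (qExpansion 1 (dsw_vn_V N E)) *
        (PowerSeries.coeff p.2) (qExpansion 1 f)) n
  rw [key]
  -- reindex `b = N * j`
  have h2 : ∑ j ∈ Finset.range (n / N + 1), qCoeff E j * qCoeff f (n - N * j) =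
      ∑ b ∈ (Finset.range (n / N + 1)).image (fun j ↦ N * j),
        (PowerSeries.coeff b) (qExpansion 1 (dsw_vn_V N E)) *
          (PowerSeries.coeff (n - b)) (qExpansion 1 f) := by
    rw [Finset.sum_image]
    · refine Finset.sum_congr rfl fun j _ ↦ ?_
      rw [hcoe, if_pos (dvd_mul_right N j), Nat.mul_div_cancel_left j hN, qCoeff, qCoeff]
    · intro a _ b _ hab
      exact Nat.eq_of_mul_eq_mul_left hN hab
  rw [h2]
  symm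
  refine Finset.sum_subset ?_ ?_
  · intro b hb
    obtain ⟨j, hj, rfl⟩ := Finset.mem_image.mp hb
    rw [Finset.mem_range] at hj ⊢
    have h3 : j ≤ n / N := Nat.lt_succ_iff.mp hj
    have h4 : j * N ≤ n := (Nat.le_div_iff_mul_le hN).mp h3
    have h5 : N * j = j * N := Nat.mul_comm _ _
    omega
  · intro b hb hnb
    rw [hcoe, if_neg, zero_mul]
    rintro ⟨j, rfl⟩
    apply hnb
    refine Finset.mem_image.mpr ⟨j, ?_, rfl⟩
    rw [Finset.mem_range] at hb ⊢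
    have h3 : N * j ≤ n := Nat.lt_succ_iff.mp hb
    have h4 : j ≤ n / N := (Nat.le_div_iff_mul_le hN).mpr (by rwa [Nat.mul_comm] at h3)
    omega

end product

section S2

variable (N : ℕ) [NeZero N] (ℓ : ℕ) [NeZero ℓ]

/-- the nebentypus `ε · χ` of the product, as a Dirichlet character of level `N ℓ`. -/
def dsw_vn_psi (ε : DirichletCharacter ℂ N) (χ : DirichletCharacter ℂ ℓ) :
    DirichletCharacter ℂ (N * ℓ) :=
  DirichletCharacter.changeLevel (dvd_mul_right N ℓ) ε *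
    DirichletCharacter.changeLevel (dvd_mul_left ℓ N) χ

omit [NeZero N] [NeZero ℓ] in
theorem dsw_vn_psi_apply (ε : DirichletCharacter ℂ N) (χ : DirichletCharacter ℂ ℓ) {d : ℤ}
    (hd : IsCoprime d ((N * ℓ : ℕ) : ℤ)) :
    dsw_vn_psi N ℓ ε χ (d : ZMod (N * ℓ)) = ε (d : ZMod N) * χ (d : ZMod ℓ) := by
  rw [dsw_vn_psi, MulChar.mul_apply, DirichletCharacter.changeLevel_eq_cast_of_dvd' _ _ hd,
    DirichletCharacter.changeLevel_eq_cast_of_dvd' _ _ hd]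

omit [NeZero N] [NeZero ℓ] in
/-- for a prime `p ∤ N ℓ`: `ψ(p) = ε(p) χ(p)`. -/
theorem dsw_vn_psi_natCast (ε : DirichletCharacter ℂ N) (χ : DirichletCharacter ℂ ℓ) {p : ℕ}
    (hp : p.Coprime (N * ℓ)) :
    dsw_vn_psi N ℓ ε χ (p : ZMod (N * ℓ)) = ε (p : ZMod N) * χ (p : ZMod ℓ) := by
  have h := dsw_vn_psi_apply N ℓ ε χ (d := (p : ℤ)) (Nat.isCoprime_iff_coprime.mpr hp)
  simpa using h

omit [NeZero N] [NeZero ℓ] in
theorem dsw_vn_isCoprime_of_mem_Gamma0 {M : ℕ} {γ : SL(2, ℤ)} (hγ : γ ∈ Gamma0 M) :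
    IsCoprime (γ 1 1) (M : ℤ) := by
  have h10 : ((γ 1 0 : ℤ) : ZMod M) = 0 := Gamma0_mem.mp hγ
  obtain ⟨e, he⟩ : ((M : ℕ) : ℤ) ∣ γ 1 0 := (ZMod.intCast_zmod_eq_zero_iff_dvd _ _).mp h10
  have hdet :=
    P2MW.S_ModularForm_heckeT_slash_eq_self_of_mem_Gamma0.ModularForm.HeckeSlashInvariance.det_eq γ
  refine ⟨γ 0 0, -(γ 0 1) * e, ?_⟩
  rw [he] at hdet
  linear_combination hdet

variable {ℓ}

/-- **the product lies in `S₂(N ℓ, ε χ)`** (helper28's `dsw_S2`). -/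
theorem dsw_vn_prod_mem_S2 (f : CuspForm (Gamma1 N) 1) (E : ModularForm (Gamma1 ℓ) 1)
    (ε : DirichletCharacter ℂ N) (χ : DirichletCharacter ℂ ℓ)
    (hf : ∀ γ : SL(2, ℤ), γ ∈ Gamma0 N →
      ⇑f ∣[(1 : ℤ)] mapGL ℝ γ = ε (((γ 1 1 : ℤ)) : ZMod N) • ⇑f)
    (hE : ∀ γ : SL(2, ℤ), γ ∈ Gamma0 ℓ →
      ⇑E ∣[(1 : ℤ)] mapGL ℝ γ = χ (((γ 1 1 : ℤ)) : ZMod ℓ) • ⇑E) :
    dsw_vn_prod N f E ∈ dsw_S2 (N * ℓ) (dsw_vn_psi N ℓ ε χ) := by
  rw [dsw_mem_S2]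
  intro γ hγ
  rw [dsw_vn_prod_neben N f E ε χ hf hE γ hγ,
    dsw_vn_psi_apply N ℓ ε χ (dsw_vn_isCoprime_of_mem_Gamma0 hγ)]

end S2

end Fermat.Agent.DS
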