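/-
Project DS (S48), cell DS-W, leaf [W-LIFT], abstract core (Deligne–Serre lifting lemma).

A commuting family of operators `Tp p` on a finite-dimensional space `V` over an algebraically
closed field `K`, a local ring `R` embedded in `K`, a "coefficient" map `a : V → (ℕ → K)` on which
the operators act by the formal Hecke rule (on an index set `I`), and a vector `g₀` whose
`I`-coefficients come from `R` and form an eigen-system modulo the maximal ideal of `R` with
eigenvalues `α p`.  Then there is a genuine common eigenvector whose eigenvalues, as soon as they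
come from `R`, are congruent to the `α p` modulo the maximal ideal.
-/
import Mathlib
import Fermat.Agent.S49.LinAlg

set_option autoImplicit false

namespace Fermat.Agent.DS

open MvPolynomial

open scoped IsMulCommutative

section core

variable {R : Type*} [CommRing R] {K : Type*} [Field K]
  {V : Type*} [AddCommGroup V] [Module K V] {P : Type*}

/-- The action of the polynomial ring `R[X_p]` on `V`: coefficients through `ι`, `X_p ↦ Tp p`. -/
theorem dsw_lift_exists_rho (ι : R →+* K) (Tp : P → Module.End K V)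
    (hcomm : ∀ p q, Commute (Tp p) (Tp q)) :
    ∃ ρ : MvPolynomial P R →+* Module.End K V,
      (∀ r : R, ρ (C r) = algebraMap K (Module.End K V) (ι r)) ∧ ∀ p, ρ (X p) = Tp p := by
  have hc : ∀ x ∈ Set.range Tp, ∀ y ∈ Set.range Tp, x * y = y * x := by
    rintro _ ⟨p, rfl⟩ _ ⟨q, rfl⟩
    exact (hcomm p q).eq
  have := Algebra.isMulCommutative_adjoin K hc
  let ρ₀ := eval₂Hom (S₁ := Algebra.adjoin K (Set.range Tp))
    ((algebraMap K (Algebra.adjoin K (Set.range Tp))).comp ι)
    (fun p => (⟨Tp p, Algebra.subset_adjoin ⟨p, rfl⟩⟩ : Algebra.adjoin K (Set.range Tp)))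
  refine ⟨((Algebra.adjoin K (Set.range Tp)).val :
    Algebra.adjoin K (Set.range Tp) →+* Module.End K V).comp ρ₀, fun r => ?_, fun p => ?_⟩
  · simp [ρ₀]
  · simp [ρ₀]

/-- The congruence propagated along the polynomial ring: the `I`-coefficients of `ρ t g₀` come
from `R` and are congruent to `θ(t) · s n` modulo `J`, where `θ = eval α`. -/
theorem dsw_lift_coeff_congr (ι : R →+* K) (Tp : P → Module.End K V)
    (ρ : MvPolynomial P R →+* Module.End K V)
    (hρC : ∀ r : R, ρ (C r) = algebraMap K (Module.End K V) (ι r)) (hρX : ∀ p, ρ (X p) = Tp p)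
    (a : V →ₗ[K] (ℕ → K)) (I : Set ℕ) (π : P → ℕ) (c α : P → R) (J : Ideal R)
    (hTp : ∀ p g n, n ∈ I →
      a (Tp p g) n = a g (π p * n) + ι (c p) * (if π p ∣ n then a g (n / π p) else 0))
    (hI : ∀ p n, n ∈ I → π p * n ∈ I ∧ (π p ∣ n → n / π p ∈ I))
    (g₀ : V) (s : ℕ → R) (hs : ∀ n ∈ I, ι (s n) = a g₀ n)
    (heig : ∀ p n, n ∈ I →
      s (π p * n) + c p * (if π p ∣ n then s (n / π p) else 0) - α p * s n ∈ J)
    (t : MvPolynomial P R) :
    ∀ n ∈ I, ∃ u : R, ι u = a (ρ t g₀) n ∧ u - eval α t * s n ∈ J := by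
  induction t using MvPolynomial.induction_on with
  | C r =>
    intro n hn
    refine ⟨r * s n, ?_, ?_⟩
    · rw [hρC, Module.algebraMap_end_apply, map_smul, Pi.smul_apply, smul_eq_mul, map_mul,
        hs n hn]
    · rw [eval_C, sub_self]
      exact J.zero_mem
  | add t₁ t₂ ih₁ ih₂ =>
    intro n hn
    obtain ⟨u₁, hu₁, hu₁'⟩ := ih₁ n hn
    obtain ⟨u₂, hu₂, hu₂'⟩ := ih₂ n hn
    refine ⟨u₁ + u₂, ?_, ?_⟩
    · rw [map_add, map_add, LinearMap.add_apply, map_add, Pi.add_apply, hu₁, hu₂]
    · have : u₁ + u₂ - eval α (t₁ + t₂) * s n =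
          (u₁ - eval α t₁ * s n) + (u₂ - eval α t₂ * s n) := by
        rw [map_add]; ring
      rw [this]
      exact J.add_mem hu₁' hu₂'
  | mul_X t p ih =>
    intro n hn
    have hρ : ρ (t * X p) g₀ = Tp p (ρ t g₀) := by
      rw [mul_comm, map_mul, hρX, Module.End.mul_apply]
    obtain ⟨u₁, hu₁, hu₁'⟩ := ih (π p * n) (hI p n hn).1
    by_cases hdvd : π p ∣ n
    · obtain ⟨u₂, hu₂, hu₂'⟩ := ih (n / π p) ((hI p n hn).2 hdvd)
      refine ⟨u₁ + c p * u₂, ?_, ?_⟩
      · rw [hρ, hTp p _ n hn, if_pos hdvd, map_add, map_mul, hu₁, hu₂]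
      · have h := heig p n hn
        rw [if_pos hdvd] at h
        have : u₁ + c p * u₂ - eval α (t * X p) * s n =
            (u₁ - eval α t * s (π p * n)) + c p * (u₂ - eval α t * s (n / π p)) +
              eval α t * (s (π p * n) + c p * s (n / π p) - α p * s n) := by
          rw [map_mul, eval_X]; ring
        rw [this]
        exact J.add_mem (J.add_mem hu₁' (J.mul_mem_left _ hu₂')) (J.mul_mem_left _ h)
    · refine ⟨u₁, ?_, ?_⟩
      · rw [hρ, hTp p _ n hn, if_neg hdvd, mul_zero, add_zero, hu₁]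
      · have h := heig p n hn
        rw [if_neg hdvd, mul_zero, add_zero] at h
        have : u₁ - eval α (t * X p) * s n =
            (u₁ - eval α t * s (π p * n)) + eval α t * (s (π p * n) - α p * s n) := by
          rw [map_mul, eval_X]; ring
        rw [this]
        exact J.add_mem hu₁' (J.mul_mem_left _ h)

/-- **Deligne–Serre lifting lemma, abstract form.**  `R` a local ring embedded by `ι` in the
algebraically closed field `K`; `Tp` a commuting family of operators on the finite-dimensional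
`K`-space `V`, acting on the coefficient map `a` by the formal Hecke rule on the index set `I`;
`g₀ ∈ V` with `I`-coefficients `ι (s n)`, `s 1 = 1`, and `s` an eigen-system for the formal
operators modulo the maximal ideal with eigenvalues `α p`.  Then there are a common eigenvector
`g ≠ 0` of the `Tp p`, with eigenvalues `b p`, such that every `β ∈ R` with `ι β = b p` is congruent
to `α p` modulo the maximal ideal. -/
theorem dsw_lift_core [IsLocalRing R] [IsAlgClosed K] [FiniteDimensional K V]
    (ι : R →+* K) (hι : Function.Injective ι) (Tp : P → Module.End K V)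
    (hcomm : ∀ p q, Commute (Tp p) (Tp q))
    (a : V →ₗ[K] (ℕ → K)) (I : Set ℕ) (π : P → ℕ) (c α : P → R)
    (hTp : ∀ p g n, n ∈ I →
      a (Tp p g) n = a g (π p * n) + ι (c p) * (if π p ∣ n then a g (n / π p) else 0))
    (hI : ∀ p n, n ∈ I → π p * n ∈ I ∧ (π p ∣ n → n / π p ∈ I))
    (g₀ : V) (s : ℕ → R) (hs : ∀ n ∈ I, ι (s n) = a g₀ n) (h1I : 1 ∈ I) (h1 : s 1 = 1)
    (heig : ∀ p n, n ∈ I →
      s (π p * n) + c p * (if π p ∣ n then s (n / π p) else 0) - α p * s n ∈
        IsLocalRing.maximalIdeal R) :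
    ∃ (g : V) (b : P → K), g ≠ 0 ∧ (∀ p, Tp p g = b p • g) ∧
      ∀ (p : P) (β : R), ι β = b p → β - α p ∈ IsLocalRing.maximalIdeal R := by
  obtain ⟨ρ, hρC, hρX⟩ := dsw_lift_exists_rho ι Tp hcomm
  set 𝔪 : Ideal (MvPolynomial P R) := Ideal.comap (eval α) (IsLocalRing.maximalIdeal R) with h𝔪
  have h𝔪p : 𝔪.IsPrime := Ideal.comap_isPrime _ _
  have hann : ∀ t, ρ t g₀ = 0 → t ∈ 𝔪 := by
    intro t ht
    obtain ⟨u, hu, hu'⟩ := dsw_lift_coeff_congr ι Tp ρ hρC hρX a I π c α
      (IsLocalRing.maximalIdeal R) hTp hI g₀ s hs heig t 1 h1I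
    rw [ht, map_zero, Pi.zero_apply] at hu
    have hu0 : u = 0 := hι (by rw [hu, map_zero])
    rw [hu0, h1, mul_one, zero_sub] at hu'
    rw [h𝔪, Ideal.mem_comap]
    exact (neg_mem_iff (x := eval α t)).mp hu'
  obtain ⟨g, hg0, χ, hχ, hker⟩ :=
    Fermat.Agent.S49.exists_eigenvector_ringHom_ker_le ρ 𝔪 h𝔪p g₀ hann
  refine ⟨g, fun p => χ (X p), hg0, fun p => ?_, fun p β hβ => ?_⟩
  · rw [← hρX, hχ]
  · have hinj : Function.Injective fun x : K => x • g := smul_left_injective K hg0
    have hC : χ (C β) = ι β := hinj (by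
      simp only
      rw [← hχ, hρC, Module.algebraMap_end_apply])
    have hmem : (X p - C β : MvPolynomial P R) ∈ RingHom.ker χ := by
      rw [RingHom.mem_ker, map_sub, hC, hβ, sub_self]
    have h2 := hker hmem
    rw [h𝔪, Ideal.mem_comap, map_sub, eval_X, eval_C] at h2
    have h3 := neg_mem h2
    rwa [neg_sub] at h3

end core

end Fermat.Agent.DS
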