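/-
Project DS (S48), cell DS-W, leaf [W-LIFT]: the Deligne–Serre lifting lemma for `S₂(M, ψ)`.

`dsw_lift`: a form `g₀ ∈ S₂(M, ψ)` whose `N`-coprime `q`-coefficients lie in `ι(A)` (`A` a valuation
subring of `Q̄`, `ι = ds_iota`) and form a `T_p`-eigensystem modulo `𝔪_A` with eigenvalues `α p`
lifts to a genuine eigen-datum `ds_W2 M ψ g b` with `b p = ι(β p)`, `β p ∈ A`, `β p ≡ α p`.

Instantiation of the abstract core `dsw_lift_core` (`Wt/LiftCore.lean`) with the Hecke operators of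
`Wt/HeckeS2.lean`; integrality of the `b p` is the seam `ds_SeamTint`.
-/
import Mathlib
import Fermat.Agent.DS.Seams
import Fermat.Agent.DS.Wt.HeckeS2
import Fermat.Agent.DS.Wt.LiftCore
import Fermat.Agent.DS.Group.LiftPhi

set_option autoImplicit false

noncomputable section

open ModularForm ModularFormClass CongruenceSubgroup
open Matrix.SpecialLinearGroup
open scoped MatrixGroups ModularForm

namespace Fermat.Agent.DS

/-- The `q`-coefficient map on `S₂(M, ψ)`. -/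
def dsw_lift_coeff (M : ℕ) (ψ : DirichletCharacter ℂ M) : dsw_S2 M ψ →ₗ[ℂ] (ℕ → ℂ) :=
  (LinearMap.pi fun n => dsw_qcLin M 2 n).comp (dsw_S2 M ψ).subtype

theorem dsw_lift_coeff_apply (M : ℕ) (ψ : DirichletCharacter ℂ M) (g : dsw_S2 M ψ) (n : ℕ) :
    dsw_lift_coeff M ψ g n = qCoeff ⇑(g : CuspForm (Gamma1 M) 2) n := rfl

theorem dsw_lift (hint : ds_SeamTint) (M : ℕ) [NeZero M] (ψ : DirichletCharacter ℂ M)
    (A : ValuationSubring ds_Qb) (N : ℕ) (α c s : ℕ → ds_Qb)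
    (hc : ∀ p : ℕ, p.Prime → ¬ p ∣ M → c p ∈ A ∧ ds_iota (c p) = ψ (p : ZMod M) * (p : ℂ))
    (hα : ∀ p : ℕ, p.Prime → ¬ p ∣ M → α p ∈ A)
    (g₀ : dsw_S2 M ψ)
    (hs : ∀ n : ℕ, n.Coprime N →
      s n ∈ A ∧ ds_iota (s n) = qCoeff ⇑(g₀ : CuspForm (Gamma1 M) 2) n)
    (h1 : s 1 = 1)
    (hN : ∀ p : ℕ, p.Prime → p ∣ N → p ∣ M)
    (heig : ∀ p : ℕ, p.Prime → ¬ p ∣ M → ∀ n : ℕ, n.Coprime N →
      s (p * n) + c p * (if p ∣ n then s (n / p) else 0) - α p * s n ∈ A.nonunits) :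
    ∃ (g : CuspForm (Gamma1 M) 2) (b : ℕ → ℂ) (β : ℕ → ds_Qb), ds_W2 M ψ g b ∧
      ∀ p : ℕ, p.Prime → ¬ p ∣ M →
        ds_iota (β p) = b p ∧ β p ∈ A ∧ β p - α p ∈ A.nonunits := by
  classical
  -- the data of the abstract core
  let P : Type := {p : ℕ // p.Prime ∧ ¬ p ∣ M}
  let ι : A →+* ℂ := (ds_iota : ds_Qb →+* ℂ).comp A.subtype
  have hι : Function.Injective ι := ds_iota_injective.comp Subtype.val_injective
  let Tp : P → Module.End ℂ (dsw_S2 M ψ) := fun p => dsw_Tp p.1 p.2.1 p.2.2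
  let I : Set ℕ := {n | n.Coprime N}
  let cR : P → A := fun p => ⟨c p.1, (hc p.1 p.2.1 p.2.2).1⟩
  let αR : P → A := fun p => ⟨α p.1, hα p.1 p.2.1 p.2.2⟩
  let sR : ℕ → A := fun n => if h : n.Coprime N then ⟨s n, (hs n h).1⟩ else 0
  have hsR : ∀ n (h : n.Coprime N), sR n = ⟨s n, (hs n h).1⟩ := fun n h => dif_pos h
  have hpN : ∀ p : P, Nat.Coprime p.1 N := by
    intro p
    rw [Nat.Prime.coprime_iff_not_dvd p.2.1]
    exact fun h => p.2.2 (hN p.1 p.2.1 h)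
  have hI : ∀ (p : P) (n : ℕ), n ∈ I → p.1 * n ∈ I ∧ (p.1 ∣ n → n / p.1 ∈ I) := by
    intro p n hn
    refine ⟨Nat.Coprime.mul_left (hpN p) hn, fun hd => ?_⟩
    exact Nat.Coprime.coprime_dvd_left (Nat.div_dvd_of_dvd hd) hn
  have key := dsw_lift_core (R := A) (K := ℂ) (V := dsw_S2 M ψ) (P := P) ι hι Tp
    (fun p q => dsw_Tp_comm p.1 p.2.1 p.2.2 q.1 q.2.1 q.2.2)
    (dsw_lift_coeff M ψ) I (fun p => p.1) cR αR
    (by
      intro p g n _
      rw [dsw_lift_coeff_apply, dsw_lift_coeff_apply, dsw_lift_coeff_apply]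
      have := dsw_qCoeff_Tp p.1 p.2.1 p.2.2 g n
      rw [this]
      congr 2
      exact (hc p.1 p.2.1 p.2.2).2.symm)
    hI g₀ sR
    (by
      intro n hn
      rw [hsR n hn, dsw_lift_coeff_apply]
      exact (hs n hn).2)
    (Nat.coprime_one_left N)
    (by
      rw [hsR 1 (Nat.coprime_one_left N)]
      exact Subtype.ext h1)
    (by
      intro p n hn
      have h := heig p.1 p.2.1 p.2.2 n hn
      rw [← ValuationSubring.coe_mem_nonunits_iff]
      convert h using 1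
      have e1 := hsR (p.1 * n) (hI p n hn).1
      have e3 := hsR n hn
      by_cases hd : p.1 ∣ n
      · have e2 := hsR (n / p.1) ((hI p n hn).2 hd)
        simp only [if_pos hd, e1, e2, e3]
        rfl
      · simp only [if_neg hd, e1, e3]
        simp [cR, αR])
  obtain ⟨g, b, hg0, hTg, hβ⟩ := key
  -- the eigenvalue function on all of `ℕ`
  let bb : ℕ → ℂ := fun p => if h : p.Prime ∧ ¬ p ∣ M then b ⟨p, h⟩ else 0
  have hbb : ∀ p (h : p.Prime ∧ ¬ p ∣ M), bb p = b ⟨p, h⟩ := fun p h => dif_pos h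
  have hW2 : ds_W2 M ψ (g : CuspForm (Gamma1 M) 2) bb := by
    refine ⟨fun h => hg0 (Subtype.ext h), ?_⟩
    intro p hp hpM n
    have h1 := congrArg (fun x : dsw_S2 M ψ => qCoeff ⇑(x : CuspForm (Gamma1 M) 2) n)
      (hTg ⟨p, hp, hpM⟩)
    simp only [Tp] at h1
    rw [dsw_qCoeff_Tp] at h1
    rw [hbb p ⟨hp, hpM⟩]
    rw [h1]
    exact dsw_qCoeff_smul _ _ n
  -- integrality of the eigenvalues
  have hex : ∀ p : ℕ, ∃ β : ds_Qb, p.Prime → ¬ p ∣ M →
      ds_iota β = bb p ∧ β ∈ A ∧ β - α p ∈ A.nonunits := by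
    intro p
    by_cases h : p.Prime ∧ ¬ p ∣ M
    · have hint' := hint M ψ (g : CuspForm (Gamma1 M) 2) bb hW2 p h.1 h.2
      obtain ⟨β, hβint, hβeq⟩ := dsg_lw_exists_iota_eq _ hint'
      have hβA : β ∈ A := dsg_lp_mem_of_isIntegral A hβint
      refine ⟨β, fun _ _ => ⟨hβeq, hβA, ?_⟩⟩
      have := hβ ⟨p, h⟩ ⟨β, hβA⟩ (by rw [← hbb p h]; exact hβeq)
      rw [← ValuationSubring.coe_mem_nonunits_iff] at this
      exact this
    · exact ⟨0, fun hp hpM => absurd ⟨hp, hpM⟩ h⟩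
  choose β hβ' using hex
  exact ⟨g, bb, β, hW2, fun p hp hpM => hβ' p hp hpM⟩

end Fermat.Agent.DS
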