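/-
Project DS (S48), cell DS-W, leaf [W-TEICH].  Prefix `dsw_teich`.

The Teichmüller character of a place `A` of `Q̄` above an odd prime `ℓ`: the `(ℓ-1)`-st roots of
unity of `Q̄` lie in `A` and represent the nonzero residue classes of `ℤ/ℓ` bijectively.  Output:
`χ = ω_A⁻¹` as a Dirichlet character mod `ℓ` with values `ι (w a)`, `w a ∈ A`, `w a · a ≡ 1`,
`χ (-1) = -1`, and `∑_{a<ℓ} w(a) a ≡ -1` modulo the maximal ideal of `A`.
-/
import Mathlib
import Fermat.Prelude.Def_FLTPrelim_Ramification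
import Fermat.Agent.DS.Defs

set_option autoImplicit false

noncomputable section

open Polynomial

namespace Fermat.Agent.DS

section Generic

variable {K : Type*} [Field K] (A : ValuationSubring K)

/-- roots of unity lie in a valuation subring. -/
theorem dsw_teich_mem_of_pow_eq_one {n : ℕ} (hn : 0 < n) {ζ : K} (hζ : ζ ^ n = 1) : ζ ∈ A := by
  rw [← A.valuation_le_one_iff]
  by_contra h
  have h1 : 1 < A.valuation ζ := not_le.mp h
  have h2 : 1 < A.valuation ζ ^ n := one_lt_pow₀ h1 hn.ne'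
  rw [← map_pow, hζ, map_one] at h2
  exact lt_irrefl _ h2

/-- a finite product of elements of `A` lying in the maximal ideal has a factor in the maximal
ideal. -/
theorem dsw_teich_exists_of_prod_mem {ι : Type*} (s : Finset ι) (f : ι → K)
    (hf : ∀ i ∈ s, f i ∈ A) (h : ∏ i ∈ s, f i ∈ A.nonunits) : ∃ i ∈ s, f i ∈ A.nonunits := by
  classical
  by_contra hne
  have h1 : ∀ i ∈ s, A.valuation (f i) = 1 := by
    intro i hi
    have h2 : A.valuation (f i) ≤ 1 := (A.valuation_le_one_iff _).mpr (hf i hi)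
    rcases lt_or_eq_of_le h2 with h3 | h3
    · exact absurd ⟨i, hi, A.mem_nonunits_iff.mpr h3⟩ hne
    · exact h3
  have h4 : A.valuation (∏ i ∈ s, f i) = 1 := by
    rw [map_prod]
    exact Finset.prod_eq_one h1
  have h5 := A.mem_nonunits_iff.mp h
  rw [h4] at h5
  exact lt_irrefl _ h5

theorem dsw_teich_sub_mem_nonunits {x y z : K} (h1 : x - y ∈ A.nonunits) (h2 : y - z ∈ A.nonunits) :
    x - z ∈ A.nonunits := by
  rw [A.mem_nonunits_iff] at *
  have : x - z = (x - y) + (y - z) := by ring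
  rw [this]
  exact lt_of_le_of_lt (A.valuation.map_add _ _) (max_lt h1 h2)

theorem dsw_teich_mul_mem_nonunits {x y : K} (hx : x ∈ A) (hy : y ∈ A.nonunits) :
    x * y ∈ A.nonunits := by
  rw [A.mem_nonunits_iff] at *
  rw [map_mul]
  have h1 : A.valuation x ≤ 1 := (A.valuation_le_one_iff _).mpr hx
  calc A.valuation x * A.valuation y ≤ 1 * A.valuation y := by gcongr
    _ = A.valuation y := one_mul _
    _ < 1 := hy

theorem dsw_teich_one_not_mem_nonunits : (1 : K) ∉ A.nonunits := by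
  rw [A.mem_nonunits_iff, map_one]
  exact lt_irrefl _

theorem dsw_teich_neg_mem_nonunits {x : K} (hx : x ∈ A.nonunits) : -x ∈ A.nonunits := by
  rw [A.mem_nonunits_iff] at *
  rwa [Valuation.map_neg]

theorem dsw_teich_natCast_mem (m : ℕ) : (m : K) ∈ A := by
  exact natCast_mem A m

theorem dsw_teich_zero_mem_nonunits : (0 : K) ∈ A.nonunits := by
  rw [A.mem_nonunits_iff, map_zero]
  exact zero_lt_one

theorem dsw_teich_add_mem_nonunits {x y : K} (hx : x ∈ A.nonunits) (hy : y ∈ A.nonunits) :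
    x + y ∈ A.nonunits := by
  rw [A.mem_nonunits_iff] at *
  exact lt_of_le_of_lt (A.valuation.map_add _ _) (max_lt hx hy)

theorem dsw_teich_sum_mem_nonunits {ι : Type*} (s : Finset ι) (f : ι → K)
    (hf : ∀ i ∈ s, f i ∈ A.nonunits) : ∑ i ∈ s, f i ∈ A.nonunits := by
  classical
  induction s using Finset.induction_on with
  | empty => simp [dsw_teich_zero_mem_nonunits A]
  | insert a s ha ih =>
    rw [Finset.sum_insert ha]
    exact dsw_teich_add_mem_nonunits A (hf a (Finset.mem_insert_self a s))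
      (ih fun i hi => hf i (Finset.mem_insert_of_mem hi))

/-- **uniqueness of Teichmüller representatives**: two `n`-th roots of unity congruent modulo the
maximal ideal of `A` are equal, if `n + 1` lies in the maximal ideal. -/
theorem dsw_teich_unique {n : ℕ} (hn : 0 < n) (hn1 : ((n + 1 : ℕ) : K) ∈ A.nonunits)
    {ζ ζ' : K} (hζ : ζ ^ n = 1) (hζ' : ζ' ^ n = 1) (h : ζ - ζ' ∈ A.nonunits) : ζ = ζ' := by
  by_contra hne
  have hζ'0 : ζ' ≠ 0 := by
    intro h0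
    rw [h0, zero_pow hn.ne'] at hζ'
    exact zero_ne_one hζ'
  set ξ := ζ * ζ'⁻¹ with hξdef
  have hξn : ξ ^ n = 1 := by rw [hξdef, mul_pow, inv_pow, hζ, hζ', inv_one, mul_one]
  have hξ1 : ξ ≠ 1 := by
    intro h1
    apply hne
    rw [hξdef] at h1
    field_simp at h1
    exact h1
  have hinv : ζ'⁻¹ ∈ A := dsw_teich_mem_of_pow_eq_one A hn (by rw [inv_pow, hζ', inv_one])
  have hξA : ξ ∈ A := dsw_teich_mem_of_pow_eq_one A hn hξn
  have hξm : ξ - 1 ∈ A.nonunits := by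
    have : ξ - 1 = ζ'⁻¹ * (ζ - ζ') := by
      rw [hξdef]; field_simp
    rw [this]
    exact dsw_teich_mul_mem_nonunits A hinv h
  -- the geometric sum vanishes
  have hgeom : ∑ j ∈ Finset.range n, ξ ^ j = 0 := by
    have h1 := mul_geom_sum ξ n
    rw [hξn, sub_self] at h1
    rcases mul_eq_zero.mp h1 with h2 | h2
    · exact absurd (sub_eq_zero.mp h2) hξ1
    · exact h2
  -- hence `n ∈ 𝔪`
  have hnm : ((n : ℕ) : K) ∈ A.nonunits := by
    have h1 : ((n : ℕ) : K) = ∑ j ∈ Finset.range n, (1 - ξ ^ j) := by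
      rw [Finset.sum_sub_distrib, hgeom, sub_zero]
      simp
    rw [h1]
    apply dsw_teich_sum_mem_nonunits
    intro j _
    have h2 : 1 - ξ ^ j = (-(∑ i ∈ Finset.range j, ξ ^ i)) * (ξ - 1) := by
      have := mul_geom_sum ξ j
      rw [neg_mul, mul_comm, this]
      ring
    rw [h2]
    refine dsw_teich_mul_mem_nonunits A (A.neg_mem _ (A.toSubring.sum_mem fun i _ => ?_)) hξm
    exact A.toSubring.pow_mem hξA i
  have h1 : (1 : K) = ((n + 1 : ℕ) : K) + -((n : ℕ) : K) := by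
    push_cast
    ring
  apply dsw_teich_one_not_mem_nonunits A
  rw [h1]
  exact dsw_teich_add_mem_nonunits A hn1 (dsw_teich_neg_mem_nonunits A hnm)

/-- **existence of Teichmüller representatives**: every integer `m` prime to `ℓ` is congruent
modulo the maximal ideal of `A` (above `ℓ`) to an `(ℓ-1)`-st root of unity. -/
theorem dsw_teich_exists [IsAlgClosed K] [CharZero K] {ℓ : ℕ} (hℓ : ℓ.Prime)
    (hA : (ℓ : K) ∈ A.nonunits) (m : ℕ) (hm : ¬ ℓ ∣ m) :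
    ∃ ζ : K, ζ ^ (ℓ - 1) = 1 ∧ (m : K) - ζ ∈ A.nonunits := by
  classical
  have hn : 0 < ℓ - 1 := Nat.sub_pos_of_lt hℓ.one_lt
  have : NeZero (((ℓ - 1 : ℕ)) : K) := ⟨Nat.cast_ne_zero.mpr hn.ne'⟩
  -- a primitive root
  obtain ⟨ζ₀, hζ₀⟩ : ∃ ζ₀ : K, IsPrimitiveRoot ζ₀ (ℓ - 1) := by
    obtain ⟨z, hz⟩ := IsAlgClosed.exists_root (cyclotomic (ℓ - 1) K)
      (ne_of_gt (degree_cyclotomic_pos (ℓ - 1) K hn))
    exact ⟨z, isRoot_cyclotomic_iff.mp hz⟩
  have hprod := X_pow_sub_one_eq_prod hn hζ₀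
  have hev : (m : K) ^ (ℓ - 1) - 1 = ∏ ζ ∈ nthRootsFinset (ℓ - 1) (1 : K), ((m : K) - ζ) := by
    have := congrArg (Polynomial.eval (m : K)) hprod
    simpa [eval_prod] using this
  -- Fermat's little theorem
  have hfermat : (ℓ : ℤ) ∣ (m : ℤ) ^ (ℓ - 1) - 1 := by
    have hcop : IsCoprime (m : ℤ) (ℓ : ℤ) := by
      rw [Int.isCoprime_iff_gcd_eq_one, Int.gcd_natCast_natCast]
      exact (Nat.Coprime.symm ((Nat.Prime.coprime_iff_not_dvd hℓ).mpr hm))
    have := Int.ModEq.pow_card_sub_one_eq_one hℓ hcop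
    exact (Int.modEq_iff_dvd.mp this.symm)
  obtain ⟨c, hc⟩ := hfermat
  have hmem : (m : K) ^ (ℓ - 1) - 1 ∈ A.nonunits := by
    have h1 : (m : K) ^ (ℓ - 1) - 1 = ((c : ℤ) : K) * (ℓ : K) := by
      have := congrArg (fun z : ℤ => (z : K)) hc
      push_cast at this
      rw [this]
      ring
    rw [h1]
    exact dsw_teich_mul_mem_nonunits A (intCast_mem A c) hA
  rw [hev] at hmem
  obtain ⟨ζ, hζs, hζ⟩ := dsw_teich_exists_of_prod_mem A _ (fun ζ => (m : K) - ζ) (by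
    intro ζ hζ
    have h1 : ζ ^ (ℓ - 1) = 1 := (mem_nthRootsFinset hn 1).mp hζ
    exact A.sub_mem (natCast_mem A m) (dsw_teich_mem_of_pow_eq_one A hn h1)) hmem
  exact ⟨ζ, (mem_nthRootsFinset hn 1).mp hζs, hζ⟩

end Generic

section Main

variable {K : Type*} [Field K] [IsAlgClosed K] [CharZero K] (A : ValuationSubring K)
  {ℓ : ℕ} (hℓ : ℓ.Prime) (hA : (ℓ : K) ∈ A.nonunits)

include hℓ in
theorem dsw_teich_not_dvd_val {a : ZMod ℓ} (ha : a ≠ 0) : ¬ ℓ ∣ a.val := by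
  have := Fact.mk hℓ
  intro h
  apply ha
  have h1 := (ZMod.natCast_eq_zero_iff a.val ℓ).mpr h
  rwa [ZMod.natCast_zmod_val] at h1

/-- the Teichmüller representative of `a : ZMod ℓ` in `A` (`0` for `a = 0`). -/
def dsw_teich_tau (a : ZMod ℓ) : K :=
  if h : a = 0 then 0
  else Classical.choose (dsw_teich_exists A hℓ hA a.val (dsw_teich_not_dvd_val hℓ h))

theorem dsw_teich_tau_zero : dsw_teich_tau A hℓ hA 0 = 0 := by
  unfold dsw_teich_tau
  rw [dif_pos rfl]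

theorem dsw_teich_tau_spec {a : ZMod ℓ} (ha : a ≠ 0) :
    dsw_teich_tau A hℓ hA a ^ (ℓ - 1) = 1 ∧
      ((a.val : ℕ) : K) - dsw_teich_tau A hℓ hA a ∈ A.nonunits := by
  unfold dsw_teich_tau
  rw [dif_neg ha]
  exact Classical.choose_spec (dsw_teich_exists A hℓ hA a.val (dsw_teich_not_dvd_val hℓ ha))

theorem dsw_teich_tau_eq {a : ZMod ℓ} (ha : a ≠ 0) {ζ : K} (hζ : ζ ^ (ℓ - 1) = 1)
    (h : ((a.val : ℕ) : K) - ζ ∈ A.nonunits) : dsw_teich_tau A hℓ hA a = ζ := by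
  have hn : 0 < ℓ - 1 := Nat.sub_pos_of_lt hℓ.one_lt
  have hn1 : (((ℓ - 1) + 1 : ℕ) : K) ∈ A.nonunits := by
    rw [Nat.sub_add_cancel hℓ.one_lt.le]
    exact hA
  obtain ⟨h1, h2⟩ := dsw_teich_tau_spec A hℓ hA ha
  refine dsw_teich_unique A hn hn1 h1 hζ ?_
  have h3 : dsw_teich_tau A hℓ hA a - ((a.val : ℕ) : K) ∈ A.nonunits := by
    have := dsw_teich_neg_mem_nonunits A h2
    rwa [neg_sub] at this
  exact dsw_teich_sub_mem_nonunits A h3 h

theorem dsw_teich_tau_ne_zero {a : ZMod ℓ} (ha : a ≠ 0) : dsw_teich_tau A hℓ hA a ≠ 0 := by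
  have hn : 0 < ℓ - 1 := Nat.sub_pos_of_lt hℓ.one_lt
  intro h0
  have := (dsw_teich_tau_spec A hℓ hA ha).1
  rw [h0, zero_pow hn.ne'] at this
  exact zero_ne_one this

theorem dsw_teich_tau_mem (a : ZMod ℓ) : dsw_teich_tau A hℓ hA a ∈ A := by
  have hn : 0 < ℓ - 1 := Nat.sub_pos_of_lt hℓ.one_lt
  by_cases ha : a = 0
  · rw [ha, dsw_teich_tau_zero]; exact A.zero_mem
  · exact dsw_teich_mem_of_pow_eq_one A hn (dsw_teich_tau_spec A hℓ hA ha).1

theorem dsw_teich_tau_one : dsw_teich_tau A hℓ hA 1 = 1 := by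
  have := Fact.mk hℓ
  have h1 : (1 : ZMod ℓ) ≠ 0 := one_ne_zero
  refine dsw_teich_tau_eq A hℓ hA h1 (one_pow _) ?_
  have : ((1 : ZMod ℓ).val : ℕ) = 1 := by
    have : Fact (1 < ℓ) := ⟨hℓ.one_lt⟩
    exact ZMod.val_one ℓ
  rw [this]
  simp [dsw_teich_zero_mem_nonunits A]

theorem dsw_teich_tau_mul (a b : ZMod ℓ) :
    dsw_teich_tau A hℓ hA (a * b) = dsw_teich_tau A hℓ hA a * dsw_teich_tau A hℓ hA b := by
  have := Fact.mk hℓ
  by_cases ha : a = 0
  · rw [ha, zero_mul, dsw_teich_tau_zero, zero_mul]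
  by_cases hb : b = 0
  · rw [hb, mul_zero, dsw_teich_tau_zero, mul_zero]
  have hab : a * b ≠ 0 := mul_ne_zero ha hb
  obtain ⟨ha1, ha2⟩ := dsw_teich_tau_spec A hℓ hA ha
  obtain ⟨hb1, hb2⟩ := dsw_teich_tau_spec A hℓ hA hb
  refine dsw_teich_tau_eq A hℓ hA hab (by rw [mul_pow, ha1, hb1, one_mul]) ?_
  -- `(ab).val ≡ a.val * b.val` modulo `ℓ`
  have hcong : (ℓ : ℤ) ∣ (((a * b).val : ℕ) : ℤ) - ((a.val : ℕ) : ℤ) * ((b.val : ℕ) : ℤ) := by
    rw [← ZMod.intCast_zmod_eq_zero_iff_dvd]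
    push_cast
    simp
  obtain ⟨c, hc⟩ := hcong
  have h1 : (((a * b).val : ℕ) : K) - ((a.val : ℕ) : K) * ((b.val : ℕ) : K) ∈ A.nonunits := by
    have := congrArg (fun z : ℤ => (z : K)) hc
    push_cast at this
    rw [this, mul_comm]
    exact dsw_teich_mul_mem_nonunits A (intCast_mem A c) hA
  have h2 : ((a.val : ℕ) : K) * ((b.val : ℕ) : K)
      - dsw_teich_tau A hℓ hA a * dsw_teich_tau A hℓ hA b ∈ A.nonunits := by
    have : ((a.val : ℕ) : K) * ((b.val : ℕ) : K)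
        - dsw_teich_tau A hℓ hA a * dsw_teich_tau A hℓ hA b
        = ((a.val : ℕ) : K) * (((b.val : ℕ) : K) - dsw_teich_tau A hℓ hA b)
          + dsw_teich_tau A hℓ hA b * (((a.val : ℕ) : K) - dsw_teich_tau A hℓ hA a) := by ring
    rw [this]
    exact dsw_teich_add_mem_nonunits A
      (dsw_teich_mul_mem_nonunits A (natCast_mem A _) hb2)
      (dsw_teich_mul_mem_nonunits A (dsw_teich_tau_mem A hℓ hA b) ha2)
  exact dsw_teich_sub_mem_nonunits A h1 h2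

theorem dsw_teich_tau_neg_one (hℓ2 : ℓ ≠ 2) : dsw_teich_tau A hℓ hA (-1) = -1 := by
  have := Fact.mk hℓ
  have h1 : (-1 : ZMod ℓ) ≠ 0 := neg_ne_zero.mpr one_ne_zero
  have hodd : Odd ℓ := hℓ.odd_of_ne_two hℓ2
  have heven : Even (ℓ - 1) := Nat.Odd.sub_odd hodd odd_one
  refine dsw_teich_tau_eq A hℓ hA h1 (Even.neg_one_pow heven) ?_
  obtain ⟨k, rfl⟩ : ∃ k, ℓ = k + 1 := ⟨ℓ - 1, (Nat.sub_add_cancel hℓ.one_lt.le).symm⟩
  have : ((-1 : ZMod (k + 1)).val : ℕ) = k := ZMod.val_neg_one k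
  rw [this, sub_neg_eq_add]
  have h2 : ((k : ℕ) : K) + 1 = ((k + 1 : ℕ) : K) := by push_cast; ring
  rw [h2]
  exact hA

end Main

/-- **[W-TEICH], extended form** (with the multiplicativity of `w`). -/
theorem dsw_teich' (ℓ : ℕ) (hℓ : ℓ.Prime) (hℓ2 : ℓ ≠ 2) (A : ValuationSubring ds_Qb)
    (hA : A.LiesOverPrime ℓ) :
    ∃ (χ : DirichletCharacter ℂ ℓ) (w : ZMod ℓ → ds_Qb),
      χ (-1) = -1 ∧ (∀ a : ZMod ℓ, w a ∈ A ∧ ds_iota (w a) = χ a) ∧
      (∀ a : ZMod ℓ, a ≠ 0 → w a * ((a.val : ℕ) : ds_Qb) - 1 ∈ A.nonunits) ∧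
      (∑ a ∈ Finset.range ℓ, w (a : ZMod ℓ) * (a : ds_Qb)) + 1 ∈ A.nonunits ∧
      w 0 = 0 ∧ w 1 = 1 ∧ (∀ a b : ZMod ℓ, w (a * b) = w a * w b) ∧
      (∀ a : ZMod ℓ, a ≠ 0 → w a ^ (ℓ - 1) = 1) := by
  classical
  have hfact := Fact.mk hℓ
  have hA' : (ℓ : ds_Qb) ∈ A.nonunits := hA
  have hn : 0 < ℓ - 1 := Nat.sub_pos_of_lt hℓ.one_lt
  set τ : ZMod ℓ → ds_Qb := dsw_teich_tau A hℓ hA' with hτ
  set w : ZMod ℓ → ds_Qb := fun a => (τ a)⁻¹ with hw
  have hw0 : w 0 = 0 := by simp [hw, hτ, dsw_teich_tau_zero]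
  have hw1 : w 1 = 1 := by simp [hw, hτ, dsw_teich_tau_one]
  have hwmul : ∀ a b : ZMod ℓ, w (a * b) = w a * w b := by
    intro a b
    simp only [hw, hτ]
    rw [dsw_teich_tau_mul, mul_inv]
  have hwpow : ∀ a : ZMod ℓ, a ≠ 0 → w a ^ (ℓ - 1) = 1 := by
    intro a ha
    simp only [hw, hτ]
    rw [inv_pow, (dsw_teich_tau_spec A hℓ hA' ha).1, inv_one]
  have hwne : ∀ a : ZMod ℓ, a ≠ 0 → w a ≠ 0 := by
    intro a ha
    exact inv_ne_zero (dsw_teich_tau_ne_zero A hℓ hA' ha)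
  have hwmem : ∀ a : ZMod ℓ, w a ∈ A := by
    intro a
    by_cases ha : a = 0
    · rw [ha, hw0]; exact A.zero_mem
    · exact dsw_teich_mem_of_pow_eq_one A hn (hwpow a ha)
  have hwcong : ∀ a : ZMod ℓ, a ≠ 0 → w a * ((a.val : ℕ) : ds_Qb) - 1 ∈ A.nonunits := by
    intro a ha
    have h1 : w a * ((a.val : ℕ) : ds_Qb) - 1 = w a * (((a.val : ℕ) : ds_Qb) - τ a) := by
      simp only [hw]
      have hne : τ a ≠ 0 := dsw_teich_tau_ne_zero A hℓ hA' ha
      rw [mul_sub, inv_mul_cancel₀ hne]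
    rw [h1]
    exact dsw_teich_mul_mem_nonunits A (hwmem a) (dsw_teich_tau_spec A hℓ hA' ha).2
  -- the character
  let f : (ZMod ℓ)ˣ →* ℂˣ :=
    { toFun := fun u => Units.mk0 (ds_iota (w (u : ZMod ℓ)))
        (by
          rw [Ne, map_eq_zero]
          exact hwne _ u.ne_zero)
      map_one' := by
        apply Units.ext
        simp [hw1]
      map_mul' := fun u v => by
        apply Units.ext
        simp [hwmul] }
  let χ : DirichletCharacter ℂ ℓ := MulChar.ofUnitHom f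
  have hχ : ∀ a : ZMod ℓ, ds_iota (w a) = χ a := by
    intro a
    by_cases ha : a = 0
    · rw [ha, hw0, map_zero]
      exact (MulChar.map_zero χ).symm
    · obtain ⟨u, rfl⟩ : ∃ u : (ZMod ℓ)ˣ, (u : ZMod ℓ) = a := ⟨Units.mk0 a ha, rfl⟩
      change _ = MulChar.ofUnitHom f (u : ZMod ℓ)
      rw [MulChar.ofUnitHom_coe]
      rfl
  refine ⟨χ, w, ?_, fun a => ⟨hwmem a, hχ a⟩, hwcong, ?_, hw0, hw1, hwmul, hwpow⟩
  · rw [← hχ]
    simp only [hw, hτ]
    rw [dsw_teich_tau_neg_one A hℓ hA' hℓ2]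
    simp
  · obtain ⟨k, rfl⟩ : ∃ k, ℓ = k + 1 := ⟨ℓ - 1, (Nat.sub_add_cancel hℓ.one_lt.le).symm⟩
    rw [Finset.sum_range_succ']
    have hterm : ∀ a ∈ Finset.range k,
        w ((a + 1 : ℕ) : ZMod (k + 1)) * ((a + 1 : ℕ) : ds_Qb) - 1 ∈ A.nonunits := by
      intro a ha
      have ha' : a + 1 < k + 1 := Nat.succ_lt_succ (Finset.mem_range.mp ha)
      have hne : ((a + 1 : ℕ) : ZMod (k + 1)) ≠ 0 := by
        intro h0
        rw [ZMod.natCast_eq_zero_iff] at h0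
        exact absurd (Nat.le_of_dvd (Nat.succ_pos a) h0) (not_le.mpr ha')
      have hval : (((a + 1 : ℕ) : ZMod (k + 1)).val : ℕ) = a + 1 := ZMod.val_natCast_of_lt ha'
      have := hwcong _ hne
      rwa [hval] at this
    have hsum := dsw_teich_sum_mem_nonunits A (Finset.range k) _ hterm
    rw [Finset.sum_sub_distrib] at hsum
    simp only [Finset.sum_const, Finset.card_range, nsmul_eq_mul, mul_one] at hsum
    have h2 : ∑ a ∈ Finset.range k, w ((a + 1 : ℕ) : ZMod (k + 1)) * ((a + 1 : ℕ) : ds_Qb)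
        + w ((0 : ℕ) : ZMod (k + 1)) * ((0 : ℕ) : ds_Qb) + 1
        = (∑ a ∈ Finset.range k, w ((a + 1 : ℕ) : ZMod (k + 1)) * ((a + 1 : ℕ) : ds_Qb)
            - (k : ds_Qb)) + ((k + 1 : ℕ) : ds_Qb) := by
      push_cast
      ring
    rw [h2]
    exact dsw_teich_add_mem_nonunits A hsum hA'

/-- **[W-TEICH]** the inverse Teichmüller character of a place `A` of `Q̄` above an odd prime `ℓ`.
(For `ℓ = 2` the statement is false: `χ (-1) = χ 1 = 1`.) -/
theorem dsw_teich (ℓ : ℕ) (hℓ : ℓ.Prime) (hℓ2 : ℓ ≠ 2) (A : ValuationSubring ds_Qb)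
    (hA : A.LiesOverPrime ℓ) :
    ∃ (χ : DirichletCharacter ℂ ℓ) (w : ZMod ℓ → ds_Qb),
      χ (-1) = -1 ∧ (∀ a : ZMod ℓ, w a ∈ A ∧ ds_iota (w a) = χ a) ∧
      (∀ a : ZMod ℓ, a ≠ 0 → w a * ((a.val : ℕ) : ds_Qb) - 1 ∈ A.nonunits) ∧
      (∑ a ∈ Finset.range ℓ, w (a : ZMod ℓ) * (a : ds_Qb)) + 1 ∈ A.nonunits := by
  obtain ⟨χ, w, h1, h2, h3, h4, -⟩ := dsw_teich' ℓ hℓ hℓ2 A hA
  exact ⟨χ, w, h1, h2, h3, h4⟩

end Fermat.Agent.DS
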