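/-
Project DS (S48), cell DS-W, leaf [W-ASM]: the assembly of the seam `ds_SeamW`.

`dsW_of_seams : dsw_SeamEis → dsw_SeamProd → ds_SeamW`.

Route (Deligne–Serre §6): for `ℓ > max N D 2` and a place `A` of `Q̄` above `ℓ`, let `χ = ω_A⁻¹` be the
inverse Teichmüller character (`dsw_teich'`), `E = E_{1,χ}(N τ)` the weight one Eisenstein series on
`Γ₁(N ℓ)` (`dsw_SeamEis`), `u = ∑_{a<ℓ} χ(a) a` (a unit of `A`), `g₁ = (ℓ / u) • (f · E)`
(`dsw_SeamProd`).  Then `g₁ ∈ S₂(N ℓ, ε χ)`, its `N`-coprime `q`-coefficients lie in `ι(A)`, are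
congruent to those of `f` modulo `ℓ A`, and `a₁(g₁) = 1`; the lifting lemma `dsw_lift` produces the
eigen-datum.
-/
import Mathlib
import Fermat.Agent.DS.Seams
import Fermat.Agent.DS.Wt.Eis1Def
import Fermat.Agent.DS.Wt.Teich
import Fermat.Agent.DS.Wt.LevelRaise
import Fermat.Agent.DS.Wt.Lift
import Fermat.Agent.DS.Neben.Seam0
import Fermat.Agent.DS.HeckeG1.MainW2

set_option autoImplicit false

noncomputable section

open ModularForm ModularFormClass CongruenceSubgroup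
open Matrix.SpecialLinearGroup
open scoped MatrixGroups ModularForm

namespace Fermat.Agent.DS

section Generic

variable {K : Type*} [Field K] (A : ValuationSubring K)

/-- the abstract congruence: an exact relation `x' + e y' - a z' = 0` persists modulo `𝔪_A` after
replacing every entry by a congruent one. -/
theorem dsw_asm_cong {x x' y y' z z' c e a : K} (hc : c ∈ A) (hy' : y' ∈ A) (ha : a ∈ A)
    (hx : x - x' ∈ A.nonunits) (hy : y - y' ∈ A.nonunits) (hz : z - z' ∈ A.nonunits)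
    (hce : c - e ∈ A.nonunits) (h0 : x' + e * y' - a * z' = 0) :
    x + c * y - a * z ∈ A.nonunits := by
  have h : x + c * y - a * z =
      (x - x') + (c * (y - y') + (y' * (c - e) + (-(a * (z - z'))))) := by
    linear_combination h0
  rw [h]
  exact dsw_teich_add_mem_nonunits A hx
    (dsw_teich_add_mem_nonunits A (dsw_teich_mul_mem_nonunits A hc hy)
      (dsw_teich_add_mem_nonunits A (dsw_teich_mul_mem_nonunits A hy' hce)
        (dsw_teich_neg_mem_nonunits A (dsw_teich_mul_mem_nonunits A ha hz))))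

/-- an element of `A` congruent to `-1` is a unit of `A`. -/
theorem dsw_asm_inv_mem {u : K} (hu : u ∈ A) (h : u + 1 ∈ A.nonunits) : u ≠ 0 ∧ u⁻¹ ∈ A := by
  have hv : A.valuation u = 1 := by
    have h1 : A.valuation u ≤ 1 := (A.valuation_le_one_iff _).mpr hu
    rcases lt_or_eq_of_le h1 with h2 | h2
    · exfalso
      have h3 : u ∈ A.nonunits := A.mem_nonunits_iff.mpr h2
      have h4 : (1 : K) ∈ A.nonunits := by
        have : (1 : K) = (u + 1) + (-u) := by ring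
        rw [this]
        exact dsw_teich_add_mem_nonunits A h (dsw_teich_neg_mem_nonunits A h3)
      exact dsw_teich_one_not_mem_nonunits A h4
    · exact h2
  have hne : u ≠ 0 := by
    rintro rfl
    rw [map_zero] at hv
    exact zero_ne_one hv
  refine ⟨hne, ?_⟩
  rw [← A.valuation_le_one_iff, map_inv₀, hv, inv_one]

theorem dsw_asm_sum_mem {ι : Type*} (s : Finset ι) (f : ι → K) (hf : ∀ i ∈ s, f i ∈ A) :
    ∑ i ∈ s, f i ∈ A := A.toSubring.sum_mem hf

end Generic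

/-- splitting off the constant term of the second factor in a Cauchy product. -/
theorem dsw_asm_sum_split (a E T : ℕ → ℂ) (c : ℂ)
    (hE : ∀ m, E m = (if m = 0 then c else 0) + T m) (n : ℕ) :
    ∑ ij ∈ Finset.HasAntidiagonal.antidiagonal n, a ij.1 * E ij.2 =
      a n * c + ∑ ij ∈ Finset.HasAntidiagonal.antidiagonal n, a ij.1 * T ij.2 := by
  have h1 : ∀ ij ∈ Finset.HasAntidiagonal.antidiagonal n, a ij.1 * E ij.2 =
      a ij.1 * (if ij.2 = 0 then c else 0) + a ij.1 * T ij.2 := by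
    intro ij _
    rw [hE, mul_add]
  rw [Finset.sum_congr rfl h1, Finset.sum_add_distrib]
  congr 1
  rw [Finset.sum_eq_single (n, 0)]
  · simp
  · intro ij hij hne
    have hsum : ij.1 + ij.2 = n := Finset.HasAntidiagonal.mem_antidiagonal.mp hij
    have h2 : ij.2 ≠ 0 := by
      intro h0
      apply hne
      ext
      · simpa [h0] using hsum
      · exact h0
    rw [if_neg h2, mul_zero]
  · intro h
    exact absurd (Finset.HasAntidiagonal.mem_antidiagonal.mpr (by simp)) h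

section Models

variable (A : ValuationSubring ds_Qb) {N : ℕ} [NeZero N]

/-- a model of `ε(p)`, `p` prime to `N`, lies in every valuation subring: it is a root of unity. -/
theorem dsw_asm_char_mem (ε : DirichletCharacter ℂ N) {p : ℕ} (hp : p.Coprime N) {e : ds_Qb}
    (he : ds_iota e = ε (p : ZMod N)) : e ∈ A := by
  obtain ⟨u, hu⟩ := (ZMod.isUnit_iff_coprime p N).mpr hp
  have h1 : ε (p : ZMod N) ^ (Nat.totient N) = 1 := by
    rw [← hu, ← map_pow, ← Units.val_pow_eq_pow_val, ZMod.pow_totient, Units.val_one, map_one]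
  have h2 : e ^ (Nat.totient N) = 1 := by
    apply ds_iota_injective
    rw [map_pow, he, h1, map_one]
  exact dsw_teich_mem_of_pow_eq_one A (Nat.totient_pos.mpr (NeZero.pos N)) h2

omit [NeZero N] in
theorem dsw_asm_qCoeff_zero (f : CuspForm (Gamma1 N) 1) : qCoeff ⇑f 0 = 0 := by
  rw [qCoeff, CuspFormClass.qExpansion_coeff_zero f one_pos (dsw_h1 N)]

/-- **algebraic models of all `N`-coprime coefficients**: by the Hecke relations, `a_n(f)` (`n` prime
to `N`) is a polynomial in the `a_p`, `ε(p)` (`p ∤ N`). -/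
theorem dsw_asm_models {ε : DirichletCharacter ℂ N} {f : CuspForm (Gamma1 N) 1}
    (hW : ds_W1 N ε f) (α e : ℕ → ds_Qb)
    (hα : ∀ p : ℕ, p.Prime → ¬ p ∣ N → α p ∈ A ∧ ds_iota (α p) = qCoeff f p)
    (he : ∀ p : ℕ, p.Prime → ¬ p ∣ N → ds_iota (e p) = ε (p : ZMod N)) :
    ∀ n : ℕ, n.Coprime N → ∃ x : ds_Qb, x ∈ A ∧ ds_iota x = qCoeff f n := by
  intro n
  induction n using Nat.strong_induction_on with
  | _ n ih =>
    intro hn
    rcases Nat.lt_or_ge n 2 with h2 | h2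
    · interval_cases n
      · exact ⟨0, A.zero_mem, by rw [map_zero, dsw_asm_qCoeff_zero]⟩
      · exact ⟨1, A.one_mem, by rw [map_one, hW.one]⟩
    · have hn1 : n ≠ 1 := by omega
      have hp : n.minFac.Prime := Nat.minFac_prime hn1
      obtain ⟨m, hm⟩ := Nat.minFac_dvd n
      set p := n.minFac with hpdef
      have hpcop : p.Coprime N := Nat.Coprime.coprime_dvd_left (Nat.minFac_dvd n) hn
      have hpN : ¬ p ∣ N := (Nat.Prime.coprime_iff_not_dvd hp).mp hpcop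
      have hmpos : 0 < m := by
        rcases Nat.eq_zero_or_pos m with h0 | h0
        · rw [h0, mul_zero] at hm
          omega
        · exact h0
      have hmn : m < n := by
        rw [hm]
        have := hp.two_le
        nlinarith
      have hmcop : m.Coprime N := Nat.Coprime.coprime_dvd_left (Dvd.intro_left p hm.symm) hn
      obtain ⟨xm, hxmA, hxm⟩ := ih m hmn hmcop
      have hheck := hW.hecke p hp hpN m
      rw [← hm] at hheck
      by_cases hd : p ∣ m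
      · have hmp : m / p < n := lt_of_le_of_lt (Nat.div_le_self m p) hmn
        have hmpcop : (m / p).Coprime N :=
          Nat.Coprime.coprime_dvd_left (Nat.div_dvd_of_dvd hd) hmcop
        obtain ⟨y, hyA, hy⟩ := ih (m / p) hmp hmpcop
        rw [if_pos hd] at hheck
        refine ⟨α p * xm - e p * y,
          sub_mem (A.mul_mem _ _ (hα p hp hpN).1 hxmA)
            (A.mul_mem _ _ (dsw_asm_char_mem A ε hpcop (he p hp hpN)) hyA), ?_⟩
        rw [map_sub, map_mul, map_mul, (hα p hp hpN).2, hxm, he p hp hpN, hy]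
        linear_combination (-1 : ℂ) * hheck
      · rw [if_neg hd, mul_zero, add_zero] at hheck
        refine ⟨α p * xm, A.mul_mem _ _ (hα p hp hpN).1 hxmA, ?_⟩
        rw [map_mul, (hα p hp hpN).2, hxm]
        exact hheck.symm

/-- the models satisfy the Hecke relations exactly. -/
theorem dsw_asm_hecke_model {ε : DirichletCharacter ℂ N} {f : CuspForm (Gamma1 N) 1}
    (hW : ds_W1 N ε f) (α e a : ℕ → ds_Qb)
    (hα : ∀ p : ℕ, p.Prime → ¬ p ∣ N → ds_iota (α p) = qCoeff f p)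
    (he : ∀ p : ℕ, p.Prime → ¬ p ∣ N → ds_iota (e p) = ε (p : ZMod N))
    (ha : ∀ n : ℕ, n.Coprime N → ds_iota (a n) = qCoeff f n)
    {p : ℕ} (hp : p.Prime) (hpN : ¬ p ∣ N) {n : ℕ} (hn : n.Coprime N) :
    a (p * n) + e p * (if p ∣ n then a (n / p) else 0) - α p * a n = 0 := by
  have hpcop : p.Coprime N := (Nat.Prime.coprime_iff_not_dvd hp).mpr hpN
  apply ds_iota_injective
  have hheck := hW.hecke p hp hpN n
  rw [map_zero, map_sub, map_add, map_mul, map_mul, ha _ (Nat.Coprime.mul_left hpcop hn), ha n hn,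
    hα p hp hpN, he p hp hpN]
  by_cases hd : p ∣ n
  · rw [if_pos hd] at hheck ⊢
    rw [ha _ (Nat.Coprime.coprime_dvd_left (Nat.div_dvd_of_dvd hd) hn)]
    linear_combination hheck
  · rw [if_neg hd] at hheck ⊢
    rw [map_zero]
    linear_combination hheck

end Models

section Tail

/-- the non-constant part of the expected `q`-coefficients of the Eisenstein series, for an arbitrary
function `χ` with values in a ring (used for `χ` over `ℂ` and for its model `w` over `Q̄`). -/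
def dsw_asm_tail {R : Type*} [Ring R] (N : ℕ) {ℓ : ℕ} (χ : ZMod ℓ → R) (m : ℕ) : R :=
  if m = 0 then 0 else if N ∣ m then -2 * ∑ d ∈ (m / N).divisors, χ (d : ZMod ℓ) else 0

theorem dsw_asm_tail_eq_zero {R : Type*} [Ring R] (N : ℕ) {ℓ : ℕ} (χ : ZMod ℓ → R) {m : ℕ}
    (h : ¬ (m ≠ 0 ∧ N ∣ m)) : dsw_asm_tail N χ m = 0 := by
  unfold dsw_asm_tail
  by_cases h0 : m = 0
  · rw [if_pos h0]
  · rw [if_neg h0, if_neg (fun hd => h ⟨h0, hd⟩)]

theorem dsw_asm_eisCoeff_split (ℓ N : ℕ) (χ : DirichletCharacter ℂ ℓ) (m : ℕ) :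
    dsw_eisCoeff ℓ N χ m =
      (if m = 0 then (ℓ : ℂ)⁻¹ * ∑ a ∈ Finset.range ℓ, χ (a : ZMod ℓ) * (a : ℂ) else 0) +
        dsw_asm_tail N (⇑χ) m := by
  unfold dsw_eisCoeff dsw_asm_tail
  by_cases h0 : m = 0
  · rw [if_pos h0, if_pos h0, if_pos h0, add_zero]
  · rw [if_neg h0, if_neg h0, if_neg h0, zero_add]

theorem dsw_asm_tail_mem (A : ValuationSubring ds_Qb) (N : ℕ) {ℓ : ℕ} (w : ZMod ℓ → ds_Qb)
    (hw : ∀ a, w a ∈ A) (m : ℕ) : dsw_asm_tail N w m ∈ A := by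
  unfold dsw_asm_tail
  split_ifs
  · exact A.zero_mem
  · exact A.mul_mem _ _ (A.neg_mem _ (ofNat_mem A 2)) (dsw_asm_sum_mem A _ _ fun d _ => hw _)
  · exact A.zero_mem

theorem dsw_asm_tail_iota (N : ℕ) {ℓ : ℕ} (χ : DirichletCharacter ℂ ℓ) (w : ZMod ℓ → ds_Qb)
    (hw : ∀ a, ds_iota (w a) = χ a) (m : ℕ) :
    ds_iota (dsw_asm_tail N w m) = dsw_asm_tail N (⇑χ) m := by
  unfold dsw_asm_tail
  split_ifs
  · exact map_zero _
  · rw [map_mul, map_neg, map_ofNat, map_sum]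
    congr 1
    exact Finset.sum_congr rfl fun d _ => hw _
  · exact map_zero _

end Tail

/-- **[W-ASM]**: the seam `ds_SeamW` from the Eisenstein seam and the product seam. -/
theorem dsW_of_seams (hE : dsw_SeamEis) (hP : dsw_SeamProd) : ds_SeamW := by
  intro N _ ε f hW α e hαe D hD hint
  refine ⟨max N (max D 2) + 1, ?_⟩
  intro ℓ hℓ hℓ₀ A hA
  have hNpos : 0 < N := NeZero.pos N
  have hℓN : ¬ ℓ ∣ N := Nat.not_dvd_of_pos_of_lt hNpos (by omega)
  have hℓD : ¬ ℓ ∣ D := Nat.not_dvd_of_pos_of_lt hD (by omega)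
  have hℓ2 : ℓ ≠ 2 := by omega
  have : NeZero ℓ := ⟨hℓ.ne_zero⟩
  have hℓm : (ℓ : ds_Qb) ∈ A.nonunits := hA
  -- the Teichmüller character, the Eisenstein series, the product
  obtain ⟨χ, w, hχ, hw, hwinv, hwsum⟩ := dsw_teich ℓ hℓ hℓ2 A hA
  obtain ⟨hfneb, -⟩ := ds0_seam0 N ε f hW
  obtain ⟨E, hEneb, hEq⟩ := hE ℓ N χ hχ
  obtain ⟨g₀, -, hg₀neb, hg₀q⟩ := hP N ℓ ε χ f E hfneb hEneb
  -- the unit `u`
  set uh : ds_Qb := ∑ a ∈ Finset.range ℓ, w (a : ZMod ℓ) * (a : ds_Qb) with huh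
  have huhA : uh ∈ A :=
    dsw_asm_sum_mem A _ _ fun a _ => A.mul_mem _ _ (hw _).1 (natCast_mem A a)
  obtain ⟨huh0, huhinv⟩ := dsw_asm_inv_mem A huhA hwsum
  set u : ℂ := ∑ a ∈ Finset.range ℓ, χ (a : ZMod ℓ) * (a : ℂ) with hu
  have hιu : ds_iota uh = u := by
    rw [huh, hu, map_sum]
    refine Finset.sum_congr rfl fun a _ => ?_
    rw [map_mul, (hw _).2, map_natCast ds_iota]
  have hu0 : u ≠ 0 := by
    intro h
    apply huh0
    apply ds_iota_injective
    rw [hιu, h, map_zero]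
  have hℓ0 : (ℓ : ℂ) ≠ 0 := Nat.cast_ne_zero.mpr hℓ.ne_zero
  -- the normalised form `g₁`
  set ψ : DirichletCharacter ℂ (N * ℓ) := dsw_vn_psi N ℓ ε χ with hψ
  set g₁ : CuspForm (Gamma1 (N * ℓ)) 2 := ((ℓ : ℂ) * u⁻¹) • g₀ with hg₁
  have hg₀mem : g₀ ∈ dsw_S2 (N * ℓ) ψ := by
    rw [dsw_mem_S2]
    intro γ hγ
    have h := hg₀neb γ hγ
    rw [ModularForm.SL_slash] at h
    rw [hψ, dsw_vn_psi_apply N ℓ ε χ (dsw_vn_isCoprime_of_mem_Gamma0 hγ)]
    exact h
  have hg₁mem : g₁ ∈ dsw_S2 (N * ℓ) ψ := Submodule.smul_mem _ _ hg₀mem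
  have hq1 : ∀ n : ℕ, qCoeff ⇑g₁ n = qCoeff ⇑f n + (ℓ : ℂ) *
      (u⁻¹ * ∑ ij ∈ Finset.HasAntidiagonal.antidiagonal n,
        qCoeff ⇑f ij.1 * dsw_asm_tail N (⇑χ) ij.2) := by
    intro n
    rw [hg₁, dsw_qCoeff_smul, hg₀q,
      dsw_asm_sum_split (fun i => qCoeff ⇑f i) (fun j => qCoeff ⇑E j) (dsw_asm_tail N (⇑χ))
        ((ℓ : ℂ)⁻¹ * u) (fun m => by rw [hEq]; exact dsw_asm_eisCoeff_split ℓ N χ m) n]
    field_simp
  -- algebraic models of the coefficients of `f`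
  have hpN_of : ∀ p : ℕ, ¬ p ∣ N * ℓ → ¬ p ∣ N := fun p h h' => h (dvd_mul_of_dvd_left h' ℓ)
  have hα' : ∀ p : ℕ, p.Prime → ¬ p ∣ N → α p ∈ A ∧ ds_iota (α p) = qCoeff f p :=
    fun p hp hpN => ⟨hint p hp hpN ℓ hℓ hℓD A hA, (hαe p hp hpN).1⟩
  have he' : ∀ p : ℕ, p.Prime → ¬ p ∣ N → ds_iota (e p) = ε (p : ZMod N) :=
    fun p hp hpN => (hαe p hp hpN).2
  have hmod := dsw_asm_models A hW α e hα' he'
  choose! ah hah using hmod
  -- models of the coefficients of `g₁`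
  set r : ℕ → ds_Qb := fun n => uh⁻¹ * ∑ ij ∈ Finset.HasAntidiagonal.antidiagonal n,
    ah ij.1 * dsw_asm_tail N w ij.2 with hr
  set s : ℕ → ds_Qb := fun n => ah n + (ℓ : ds_Qb) * r n with hs
  have hterm : ∀ n : ℕ, n.Coprime N → ∀ ij ∈ Finset.HasAntidiagonal.antidiagonal n,
      ah ij.1 * dsw_asm_tail N w ij.2 ∈ A ∧
        ds_iota (ah ij.1 * dsw_asm_tail N w ij.2) =
          qCoeff ⇑f ij.1 * dsw_asm_tail N (⇑χ) ij.2 := by
    intro n hn ij hij
    have hsum : ij.1 + ij.2 = n := Finset.HasAntidiagonal.mem_antidiagonal.mp hij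
    by_cases h : ij.2 ≠ 0 ∧ N ∣ ij.2
    · obtain ⟨k, hk⟩ := h.2
      have hcop : ij.1.Coprime N := by
        rw [← hsum, hk] at hn
        exact (Nat.coprime_add_mul_left_left _ _ _).mp hn
      refine ⟨A.mul_mem _ _ (hah _ hcop).1 (dsw_asm_tail_mem A N w (fun a => (hw a).1) _), ?_⟩
      rw [map_mul, (hah _ hcop).2, dsw_asm_tail_iota N χ w (fun a => (hw a).2)]
    · rw [dsw_asm_tail_eq_zero N w h, dsw_asm_tail_eq_zero N (⇑χ) h, mul_zero, mul_zero, map_zero]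
      exact ⟨A.zero_mem, rfl⟩
  have hrA : ∀ n : ℕ, n.Coprime N → r n ∈ A ∧ ds_iota (r n) =
      u⁻¹ * ∑ ij ∈ Finset.HasAntidiagonal.antidiagonal n,
        qCoeff ⇑f ij.1 * dsw_asm_tail N (⇑χ) ij.2 := by
    intro n hn
    refine ⟨A.mul_mem _ _ huhinv (dsw_asm_sum_mem A _ _ fun ij hij => (hterm n hn ij hij).1), ?_⟩
    rw [hr]
    simp only
    rw [map_mul, map_inv₀, hιu, map_sum]
    congr 1
    exact Finset.sum_congr rfl fun ij hij => (hterm n hn ij hij).2
  have hsA : ∀ n : ℕ, n.Coprime N → s n ∈ A ∧ ds_iota (s n) = qCoeff ⇑g₁ n := by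
    intro n hn
    refine ⟨A.add_mem _ _ (hah n hn).1 (A.mul_mem _ _ (natCast_mem A ℓ) (hrA n hn).1), ?_⟩
    rw [hq1, hs]
    simp only
    rw [map_add, map_mul, map_natCast ds_iota, (hah n hn).2, (hrA n hn).2]
  have hsah : ∀ n : ℕ, n.Coprime N → s n - ah n ∈ A.nonunits := by
    intro n hn
    have : s n - ah n = r n * (ℓ : ds_Qb) := by
      rw [hs]
      ring
    rw [this]
    exact dsw_teich_mul_mem_nonunits A (hrA n hn).1 hℓm
  -- `a₁(g₁) = 1`
  have hs1 : s 1 = 1 := by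
    apply ds_iota_injective
    rw [(hsA 1 (Nat.coprime_one_left N)).2, hq1, hW.one, map_one]
    have hz : ∑ ij ∈ Finset.HasAntidiagonal.antidiagonal 1,
        qCoeff ⇑f ij.1 * dsw_asm_tail N (⇑χ) ij.2 = 0 := by
      refine Finset.sum_eq_zero fun ij hij => ?_
      have hsum : ij.1 + ij.2 = 1 := Finset.HasAntidiagonal.mem_antidiagonal.mp hij
      rcases Nat.eq_zero_or_pos ij.1 with h0 | h0
      · rw [h0, dsw_asm_qCoeff_zero, zero_mul]
      · have h2 : ij.2 = 0 := by omega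
        rw [dsw_asm_tail_eq_zero N (⇑χ) (fun h => h.1 h2), mul_zero]
    rw [hz, mul_zero, mul_zero, add_zero]
  -- the models of `ψ(p) p`
  set c : ℕ → ds_Qb := fun p => e p * (w (p : ZMod ℓ) * (p : ds_Qb)) with hc
  have hcop_of : ∀ p : ℕ, p.Prime → ¬ p ∣ N → p.Coprime N :=
    fun p hp hpN => (Nat.Prime.coprime_iff_not_dvd hp).mpr hpN
  have heA : ∀ p : ℕ, p.Prime → ¬ p ∣ N → e p ∈ A :=
    fun p hp hpN => dsw_asm_char_mem A ε (hcop_of p hp hpN) (he' p hp hpN)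
  have hcA : ∀ p : ℕ, p.Prime → ¬ p ∣ N * ℓ →
      c p ∈ A ∧ ds_iota (c p) = ψ (p : ZMod (N * ℓ)) * (p : ℂ) := by
    intro p hp hpM
    have hpN := hpN_of p hpM
    refine ⟨A.mul_mem _ _ (heA p hp hpN) (A.mul_mem _ _ (hw _).1 (natCast_mem A p)), ?_⟩
    rw [hc]
    simp only
    rw [map_mul, map_mul, map_natCast ds_iota, he' p hp hpN, (hw _).2, hψ,
      dsw_vn_psi_natCast N ℓ ε χ ((Nat.Prime.coprime_iff_not_dvd hp).mpr hpM), mul_assoc]
  have hce : ∀ p : ℕ, p.Prime → ¬ p ∣ N * ℓ → c p - e p ∈ A.nonunits := by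
    intro p hp hpM
    have hpN := hpN_of p hpM
    have hpℓ : ((p : ℕ) : ZMod ℓ) ≠ 0 := by
      intro h0
      have hd : ℓ ∣ p := (ZMod.natCast_eq_zero_iff p ℓ).mp h0
      have : ℓ = p := (Nat.prime_dvd_prime_iff_eq hℓ hp).mp hd
      exact hpM (this ▸ dvd_mul_left ℓ N)
    have h1 := hwinv _ hpℓ
    rw [ZMod.val_natCast] at h1
    have h2 : w (p : ZMod ℓ) * (p : ds_Qb) - 1 ∈ A.nonunits := by
      have hdm : (p : ds_Qb) = (ℓ : ds_Qb) * ((p / ℓ : ℕ) : ds_Qb) + ((p % ℓ : ℕ) : ds_Qb) := by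
        rw [← Nat.cast_mul, ← Nat.cast_add, Nat.div_add_mod]
      have h3 : w (p : ZMod ℓ) * (p : ds_Qb) - 1 =
          (w (p : ZMod ℓ) * ((p % ℓ : ℕ) : ds_Qb) - 1) +
            (w (p : ZMod ℓ) * ((p / ℓ : ℕ) : ds_Qb)) * (ℓ : ds_Qb) := by
        rw [hdm]
        ring
      rw [h3]
      exact dsw_teich_add_mem_nonunits A h1 (dsw_teich_mul_mem_nonunits A
        (A.mul_mem _ _ (hw _).1 (natCast_mem A _)) hℓm)
    have h4 : c p - e p = e p * (w (p : ZMod ℓ) * (p : ds_Qb) - 1) := by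
      rw [hc]
      ring
    rw [h4]
    exact dsw_teich_mul_mem_nonunits A (heA p hp hpN) h2
  -- the eigen-relations modulo `𝔪_A`
  have heig : ∀ p : ℕ, p.Prime → ¬ p ∣ N * ℓ → ∀ n : ℕ, n.Coprime N →
      s (p * n) + c p * (if p ∣ n then s (n / p) else 0) - α p * s n ∈ A.nonunits := by
    intro p hp hpM n hn
    have hpN := hpN_of p hpM
    have hpn : (p * n).Coprime N := Nat.Coprime.mul_left (hcop_of p hp hpN) hn
    refine dsw_asm_cong A (x' := ah (p * n)) (y' := if p ∣ n then ah (n / p) else 0)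
      (z' := ah n) (e := e p) (hcA p hp hpM).1 ?_ (hα' p hp hpN).1 (hsah _ hpn) ?_ (hsah n hn)
      (hce p hp hpM)
      (dsw_asm_hecke_model hW α e ah (fun q hq hqN => (hα' q hq hqN).2) he'
        (fun m hm => (hah m hm).2) hp hpN hn)
    · by_cases hd : p ∣ n
      · rw [if_pos hd]
        exact (hah _ (Nat.Coprime.coprime_dvd_left (Nat.div_dvd_of_dvd hd) hn)).1
      · rw [if_neg hd]
        exact A.zero_mem
    · by_cases hd : p ∣ n
      · rw [if_pos hd, if_pos hd]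
        exact hsah _ (Nat.Coprime.coprime_dvd_left (Nat.div_dvd_of_dvd hd) hn)
      · rw [if_neg hd, if_neg hd, sub_zero]
        exact dsw_teich_zero_mem_nonunits A
  -- the lifting lemma
  obtain ⟨g, b, β, hW2, hβ⟩ := dsw_lift g1m_seamTint (N * ℓ) ψ A N α c s hcA
    (fun p hp hpM => (hα' p hp (hpN_of p hpM)).1) ⟨g₁, hg₁mem⟩ hsA hs1
    (fun p _ hpN => dvd_mul_of_dvd_left hpN ℓ) heig
  refine ⟨N * ℓ, inferInstance, ψ, g, b, β, c, rfl, hW2, fun p hp hpM => ?_⟩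
  obtain ⟨h1, h2, h3⟩ := hβ p hp hpM
  exact ⟨h1, (hcA p hp hpM).2, h2, (hcA p hp hpM).1, h3, hce p hp hpM⟩

end Fermat.Agent.DS
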