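/-
Project DS (S48), cell DS-W, leaf [W-ASM], second half: the seam `ds_SeamW` from the level-`ℓ`
Eisenstein seam `dsw_SeamEis1` alone.

* `dsw_asm_eis_of_eis1 : dsw_SeamEis1 → dsw_SeamEis`  (`E(τ) ↦ E(t τ)`, `dsw_vn_V`);
* `dsw_asm_prod : dsw_SeamProd`                         (the product seam, proved);
* `dsW_of_eis1 : dsw_SeamEis1 → ds_SeamW`.
-/
import Mathlib
import Fermat.Agent.DS.Wt.Seam
import Fermat.Agent.DS.Wt.Eis1Level
import Fermat.Agent.DS.Wt.LevelRaise

set_option autoImplicit false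

noncomputable section

open ModularForm ModularFormClass CongruenceSubgroup
open Matrix.SpecialLinearGroup
open UpperHalfPlane hiding I
open scoped MatrixGroups ModularForm

namespace Fermat.Agent.DS

/-- the Eisenstein series at level `t ℓ` from the one at level `ℓ`: `E(τ) ↦ E(t τ)`. -/
theorem dsw_asm_eis_of_eis1 (h : dsw_SeamEis1) : dsw_SeamEis := by
  intro ℓ t _ _ χ hχ
  obtain ⟨E₁, hneb, hq0, hqn⟩ := h ℓ χ hχ
  refine ⟨dsw_vn_V t E₁, fun γ hγ => ?_, fun m => ?_⟩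
  · rw [ModularForm.SL_slash]
    exact dsw_vn_V_neben t E₁ (⇑χ) hneb γ hγ
  · rw [dsw_vn_V_qCoeff, dsw_eisCoeff, sub_self, zpow_zero, one_mul]
    by_cases h0 : m = 0
    · rw [if_pos h0, h0, if_pos (dvd_zero t), Nat.zero_div, hq0]
    · rw [if_neg h0]
      by_cases hd : t ∣ m
      · rw [if_pos hd, if_pos hd]
        exact hqn _ (Nat.div_pos (Nat.le_of_dvd (Nat.pos_of_ne_zero h0) hd) (NeZero.pos t))
      · rw [if_neg hd, if_neg hd]

/-- **the product seam**: a weight one cusp form on `Γ₁(N)` with nebentypus `ε` times a weight one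
modular form on `Γ₁(N ℓ)` with nebentypus `χ` is a weight two cusp form on `Γ₁(N ℓ)` with
nebentypus `ε χ`, and its `q`-expansion is the Cauchy product. -/
theorem dsw_asm_prod : dsw_SeamProd := by
  intro N ℓ _ _ ε χ f E hf hE
  set g₀ : CuspForm (Gamma1 (N * ℓ)) 2 :=
    ((dsw_vn_restrict (dvd_mul_right N ℓ) f).mulModularForm E).mcast (by norm_num) with hg₀
  have hcoe : ⇑g₀ = ⇑f * ⇑E := rfl
  refine ⟨g₀, fun τ => ?_, fun γ hγ => ?_, fun n => ?_⟩
  · rw [hcoe, Pi.mul_apply]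
  · have h1 := hf γ (dsw_vn_Gamma0_le (dvd_mul_right N ℓ) hγ)
    have h2 := hE γ hγ
    have h3 := ModularForm.mul_slash_SL2 1 1 γ ⇑f ⇑E
    rw [hcoe, show (2 : ℤ) = 1 + 1 by norm_num, h3, h1, h2]
    funext τ
    simp only [Pi.mul_apply, Pi.smul_apply, smul_eq_mul]
    ring
  · have h1 := dsw_vn_one_mem_strictPeriods (N * ℓ)
    have hqe : qExpansion 1 ⇑g₀ = qExpansion 1 ⇑f * qExpansion 1 ⇑E :=
      ModularForm.qExpansion_mul_coe one_pos h1 (dsw_vn_restrict (dvd_mul_right N ℓ) f) E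
    rw [qCoeff, hqe, PowerSeries.coeff_mul]
    rfl

/-- **[W-ASM]**, final form: the seam `ds_SeamW` from the level-`ℓ` Eisenstein seam. -/
theorem dsW_of_eis1 (hE : dsw_SeamEis1) : ds_SeamW :=
  dsW_of_seams (dsw_asm_eis_of_eis1 hE) dsw_asm_prod

end Fermat.Agent.DS
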