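/-
Project DS (S48), cell DS-W: the weight-lowering seam `ds_SeamW`, UNCONDITIONALLY.

Assembly of the DS-W leaves:
* `dsw_eis_hasSum`  (Wt/Eis1Q, helper28): q-expansion of the weight one Eisenstein series;
* `dsw_eis`         (Wt/Eis1, helper26): the Eisenstein seam `dsw_SeamEis` from that q-expansion;
* `dsw_asm_prod`    (Wt/Seam1, helper22): the product seam `dsw_SeamProd`;
* `dsW_of_seams`    (Wt/Seam, helper22): `dsw_SeamEis → dsw_SeamProd → ds_SeamW`.
-/
import Mathlib
import Fermat.Agent.DS.Wt.Seam1
import Fermat.Agent.DS.Wt.Eis1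
import Fermat.Agent.DS.Wt.Eis1Q

set_option autoImplicit false

namespace Fermat.Agent.DS

/-- the weight one Eisenstein seam, unconditionally. -/
theorem dsw_seamEis : dsw_SeamEis := dsw_eis dsw_eis_hasSum

/-- the level-`ℓ` weight one Eisenstein seam, unconditionally. -/
theorem dsw_seamEis1 : dsw_SeamEis1 := dsw_eis1_of_eis dsw_seamEis

/-- **DS-W**: the weight-lowering seam `ds_SeamW` (weight `2` level `N` eigenform data reduce,
modulo every large prime `ℓ`, to weight `2` level `N ℓ` data with nebentypus), unconditionally. -/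
theorem dsW_main : ds_SeamW := dsW_of_seams dsw_seamEis dsw_asm_prod

end Fermat.Agent.DS
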