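/-
DS-W / [W-EIS], part 4b: the weight one Eisenstein series `dsw_eisFun ℓ t χ` of an odd Dirichlet
character `χ` mod `ℓ` is a modular form on `Γ₁(t ℓ)` with nebentypus `χ` on `Γ₀(t ℓ)`:

* `dsw_eisFun_smul`, `dsw_eisFun_slash` : the transformation law on `Γ₀(t ℓ)`;
* `dsw_eisFun_mdifferentiable`, `dsw_eisFun_isBoundedAt` (all cusps);
* `dsw_eisForm ℓ t χ hχ : ModularForm (Gamma1 (t * ℓ)) 1`;
* `dsw_eis : (q-expansion identity) → dsw_SeamEis`.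
-/
import Mathlib
import Fermat.Agent.DS.Wt.Eis1Def
import Fermat.Agent.DS.Neben.HeckeGamma1

set_option autoImplicit false

namespace Fermat.Agent.DS

open UpperHalfPlane hiding I
open Complex CongruenceSubgroup ModularFormClass ModularForm Matrix Filter Topology
open Matrix.SpecialLinearGroup
open scoped Real MatrixGroups ModularForm Manifold

noncomputable section

/-- `G_ℓ((x, 0); ·)` for a residue class `x` mod `ℓ`. -/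
def dsw_Hb (ℓ : ℕ) (x : ZMod ℓ) : ℍ → ℂ := dsw_G ℓ ![(x.val : ℤ), 0]

lemma dsw_NZ_val {ℓ : ℕ} [NeZero ℓ] {x : ZMod ℓ} (hx : x ≠ 0) (v : ℤ) :
    dsw_NZ ℓ ![(x.val : ℤ), v] := by
  intro h
  apply hx
  have h1 := h.1
  simp only [Matrix.cons_val_zero] at h1
  have h2 := (ZMod.intCast_zmod_eq_zero_iff_dvd _ _).mpr h1
  simpa using h2

lemma dsw_G_eq_Hb {ℓ : ℕ} [NeZero ℓ] (u v : ℤ) (x : ZMod ℓ) (hx : x ≠ 0)
    (hu : (u : ZMod ℓ) = x) (hv : (ℓ : ℤ) ∣ v) (τ : ℍ) :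
    dsw_G ℓ ![u, v] τ = dsw_Hb ℓ x τ := by
  have hℓ : ℓ ≠ 0 := NeZero.ne ℓ
  obtain ⟨k, hk⟩ : (ℓ : ℤ) ∣ u - (x.val : ℤ) := by
    rw [← ZMod.intCast_zmod_eq_zero_iff_dvd]
    push_cast
    rw [hu]; simp
  obtain ⟨m, hm⟩ := hv
  have h1 : ![u, v] = ![(x.val : ℤ), 0] + (ℓ : ℤ) • ![k, m] := by
    funext i
    fin_cases i
    · show u = (x.val : ℤ) + (ℓ : ℤ) * k
      linarith
    · show v = 0 + (ℓ : ℤ) * m
      rw [hm]; ring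
  rw [h1, dsw_G_add hℓ (dsw_NZ_val hx 0)]
  rfl

lemma dsw_G_slash (ℓ : ℕ) (v : Fin 2 → ℤ) (γ : SL(2, ℤ)) :
    (dsw_G ℓ v) ∣[(1 : ℤ)] γ = dsw_G ℓ (v ᵥ* γ) := by
  funext τ
  rw [ModularForm.SL_slash_apply, dsw_G_smul]
  have hd : denom γ τ ≠ 0 := denom_ne_zero γ τ
  rw [_root_.zpow_neg, zpow_one]
  field_simp

lemma dsw_NZ_vecMul {ℓ : ℕ} {v : Fin 2 → ℤ} (hv : dsw_NZ ℓ v) (γ : SL(2, ℤ)) :
    dsw_NZ ℓ (v ᵥ* γ) := by
  intro h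
  apply hv
  have hinv : (v ᵥ* (γ : Matrix (Fin 2) (Fin 2) ℤ)) ᵥ* ((γ⁻¹ : SL(2, ℤ)) : Matrix (Fin 2) (Fin 2) ℤ) = v :=
    (dsw_vecMulEquiv γ).left_inv v
  have h0 : v 0 = (v ᵥ* (γ : Matrix (Fin 2) (Fin 2) ℤ)) 0 * (γ⁻¹ : SL(2, ℤ)) 0 0 +
      (v ᵥ* (γ : Matrix (Fin 2) (Fin 2) ℤ)) 1 * (γ⁻¹ : SL(2, ℤ)) 1 0 := by
    conv_lhs => rw [← hinv]
    simp [Matrix.vecMul, dotProduct, Fin.sum_univ_two]
  have h1 : v 1 = (v ᵥ* (γ : Matrix (Fin 2) (Fin 2) ℤ)) 0 * (γ⁻¹ : SL(2, ℤ)) 0 1 +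
      (v ᵥ* (γ : Matrix (Fin 2) (Fin 2) ℤ)) 1 * (γ⁻¹ : SL(2, ℤ)) 1 1 := by
    conv_lhs => rw [← hinv]
    simp [Matrix.vecMul, dotProduct, Fin.sum_univ_two]
  constructor
  · rw [h0]; exact dvd_add (Dvd.dvd.mul_right h.1 _) (Dvd.dvd.mul_right h.2 _)
  · rw [h1]; exact dvd_add (Dvd.dvd.mul_right h.1 _) (Dvd.dvd.mul_right h.2 _)

lemma dsw_one_lt_of_odd {ℓ : ℕ} [NeZero ℓ] (χ : DirichletCharacter ℂ ℓ) (hχ : χ (-1) = -1) :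
    1 < ℓ := by
  by_contra h
  have h1 : ℓ = 1 := by
    have := NeZero.ne ℓ
    omega
  subst h1
  have : (-1 : ZMod 1) = 1 := Subsingleton.elim _ _
  rw [this, map_one] at hχ
  norm_num at hχ

lemma dsw_eisFun_eq (ℓ t : ℕ) [NeZero ℓ] (χ : DirichletCharacter ℂ ℓ) (τ : ℍ) :
    dsw_eisFun ℓ t χ τ = (2 * π * I)⁻¹ *
      ∑ x : ZMod ℓ, χ x * dsw_Hb ℓ x (heckeDiagMatrix (t * ℓ) • τ) := by
  unfold dsw_eisFun
  congr 1
  refine Finset.sum_nbij' (fun a : ℕ => (a : ZMod ℓ)) (fun x : ZMod ℓ => x.val) ?_ ?_ ?_ ?_ ?_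
  · intro a _; exact Finset.mem_univ _
  · intro x _; exact Finset.mem_range.mpr (ZMod.val_lt x)
  · intro a ha; exact ZMod.val_natCast_of_lt (Finset.mem_range.mp ha)
  · intro x _; exact ZMod.natCast_zmod_val x
  · intro a ha
    simp only [dsw_Hb, ZMod.val_natCast_of_lt (Finset.mem_range.mp ha)]

/-- `diag(D, 1) γ = γ' diag(D, 1)` for `γ ∈ Γ₀(D)`. -/
lemma dsw_diag_conj {D : ℕ} (hD : D ≠ 0) (γ : SL(2, ℤ)) (e : ℤ) (he : γ 1 0 = D * e)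
    (h : γ 0 0 * γ 1 1 - (D * γ 0 1) * e = 1) :
    heckeDiagMatrix D * mapGL ℝ γ =
      mapGL ℝ (ds0_mkSL (γ 0 0) (D * γ 0 1) e (γ 1 1) h) * heckeDiagMatrix D := by
  ext i j
  fin_cases i <;> fin_cases j <;>
    simp [hD, Matrix.mul_apply, Fin.sum_univ_two]
  all_goals first
    | (have := congrArg (Int.cast : ℤ → ℝ) he; push_cast at this ⊢; linear_combination this)
    | (have := congrArg (Int.cast : ℤ → ℝ) he; push_cast at this ⊢; linear_combination -this)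
    | ring1

theorem dsw_eisFun_smul (ℓ t : ℕ) [NeZero ℓ] [NeZero t] (χ : DirichletCharacter ℂ ℓ)
    (hχ : χ (-1) = -1) (γ : SL(2, ℤ)) (hγ : γ ∈ Gamma0 (t * ℓ)) (τ : ℍ) :
    dsw_eisFun ℓ t χ (γ • τ) =
      denom γ τ * χ (((γ : Matrix (Fin 2) (Fin 2) ℤ) 1 1 : ℤ) : ZMod ℓ) * dsw_eisFun ℓ t χ τ := by
  have hℓ1 : 1 < ℓ := dsw_one_lt_of_odd χ hχ
  have : Fact (1 < ℓ) := ⟨hℓ1⟩
  have hD : t * ℓ ≠ 0 := mul_ne_zero (NeZero.ne t) (NeZero.ne ℓ)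
  have hdet : γ 0 0 * γ 1 1 - γ 0 1 * γ 1 0 = 1 := by
    have := Matrix.SpecialLinearGroup.det_coe γ
    rwa [Matrix.det_fin_two] at this
  obtain ⟨e, he⟩ : ((t * ℓ : ℕ) : ℤ) ∣ γ 1 0 := by
    rw [Gamma0_mem] at hγ
    exact (ZMod.intCast_zmod_eq_zero_iff_dvd _ _).mp hγ
  have h : γ 0 0 * γ 1 1 - (((t * ℓ : ℕ) : ℤ) * γ 0 1) * e = 1 := by
    linear_combination hdet + (γ 0 1) * he
  set γ' : SL(2, ℤ) := ds0_mkSL (γ 0 0) (((t * ℓ : ℕ) : ℤ) * γ 0 1) e (γ 1 1) h with hγ'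
  set σ : ℍ := heckeDiagMatrix (t * ℓ) • τ with hσ
  have hA : heckeDiagMatrix (t * ℓ) • (γ • τ) = γ' • σ := by
    rw [ModularGroup.sl_moeb, ModularGroup.sl_moeb, ← mul_smul, ← mul_smul]
    congr 1
    exact dsw_diag_conj hD γ e he h
  have hB : denom γ' σ = denom γ τ := by
    rw [ModularGroup.denom_apply, ModularGroup.denom_apply, hσ, coe_heckeDiagMatrix_smul hD, he]
    simp only [hγ', ds0_mkSL_coe, Matrix.of_apply, Matrix.cons_val', Matrix.cons_val_one,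
      Matrix.cons_val_zero, Matrix.cons_val_fin_one]
    push_cast
    ring
  -- units
  set u : ZMod ℓ := ((γ 0 0 : ℤ) : ZMod ℓ) with hu
  set w : ZMod ℓ := ((γ 1 1 : ℤ) : ZMod ℓ) with hw
  have huw : u * w = 1 := by
    have h1 : ((γ 0 0 * γ 1 1 - γ 0 1 * γ 1 0 : ℤ) : ZMod ℓ) = 1 := by rw [hdet]; simp
    have h2 : ((γ 1 0 : ℤ) : ZMod ℓ) = 0 := by
      rw [he, ZMod.intCast_zmod_eq_zero_iff_dvd]
      exact ⟨t * e, by push_cast; ring⟩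
    push_cast at h1
    rw [h2, mul_zero, sub_zero] at h1
    exact h1
  have hterm : ∀ x : ZMod ℓ, χ x * dsw_Hb ℓ x (γ' • σ) =
      denom γ τ * (χ x * dsw_Hb ℓ (x * u) σ) := by
    intro x
    rcases eq_or_ne x 0 with rfl | hx
    · simp [MulChar.map_zero]
    · have hxu : x * u ≠ 0 := by
        intro h0
        apply hx
        have := congrArg (· * w) h0
        simpa [mul_assoc, huw] using this
      have h3 : dsw_Hb ℓ x (γ' • σ) = denom γ' σ * dsw_G ℓ (![(x.val : ℤ), 0] ᵥ* γ') σ :=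
        dsw_G_smul ℓ γ' _ σ
      have h4 : ![(x.val : ℤ), 0] ᵥ* (γ' : Matrix (Fin 2) (Fin 2) ℤ) =
          ![(x.val : ℤ) * γ 0 0, (x.val : ℤ) * (((t * ℓ : ℕ) : ℤ) * γ 0 1)] := by
        funext i
        fin_cases i <;> simp [hγ', Matrix.vecMul, dotProduct, Fin.sum_univ_two]
      rw [h3, h4, hB, dsw_G_eq_Hb _ _ (x * u) hxu ?_ ?_]
      · ring
      · push_cast
        rw [ZMod.natCast_zmod_val]
      · exact ⟨(x.val : ℤ) * (t * γ 0 1), by push_cast; ring⟩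
  rw [dsw_eisFun_eq, dsw_eisFun_eq, hA]
  simp_rw [hterm]
  rw [← Finset.mul_sum]
  have hre : ∑ x : ZMod ℓ, χ x * dsw_Hb ℓ (x * u) σ = χ w * ∑ y : ZMod ℓ, χ y * dsw_Hb ℓ y σ := by
    rw [Finset.mul_sum]
    refine Fintype.sum_bijective (fun x => x * u) ?_ _ _ (fun x => ?_)
    · refine ⟨fun a b hab => ?_, fun y => ⟨y * w, ?_⟩⟩
      · have := congrArg (· * w) hab
        simpa [mul_assoc, huw] using this
      · simp only [mul_assoc]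
        rw [mul_comm w u, huw, mul_one]
    · rw [← mul_assoc, ← map_mul, mul_comm w, mul_assoc, huw, mul_one]
  rw [hre]
  ring

lemma dsw_isCusp_diag {D : ℕ} (hD : D ≠ 0) {c : OnePoint ℝ} (hc : IsCusp c 𝒮ℒ) :
    IsCusp (heckeDiagMatrix D • c) 𝒮ℒ := by
  rw [isCusp_SL2Z_iff] at hc ⊢
  obtain ⟨q, rfl⟩ := hc
  let gQ : GL (Fin 2) ℚ := Matrix.GeneralLinearGroup.mkOfDetNeZero !![(D : ℚ), 0; 0, 1]
    (by simp [Matrix.det_fin_two_of, hD])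
  refine ⟨gQ • q, ?_⟩
  rw [← Rat.coe_castHom, OnePoint.map_smul]
  congr 1
  ext i j
  fin_cases i <;> fin_cases j <;> simp [gQ, val_heckeDiagMatrix hD]

/-- `G_ℓ(v; ·)` is bounded at every cusp. -/
lemma dsw_G_isBoundedAt {ℓ : ℕ} (hℓ : ℓ ≠ 0) {v : Fin 2 → ℤ} (hv : dsw_NZ ℓ v) {c : OnePoint ℝ}
    (hc : IsCusp c 𝒮ℒ) : c.IsBoundedAt (dsw_G ℓ v) 1 := by
  rw [OnePoint.isBoundedAt_iff_forall_SL2Z hc]
  intro γ _
  rw [dsw_G_slash]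
  exact dsw_G_isBoundedAtImInfty hℓ (dsw_NZ_vecMul hv γ)

/-- The summands of the Eisenstein series: `G_ℓ((x, 0); D τ)` for `x ≠ 0`, and `0` for `x = 0`. -/
def dsw_Fx (ℓ D : ℕ) (x : ZMod ℓ) : ℍ → ℂ :=
  if x = 0 then 0 else (dsw_Hb ℓ x) ∣[(1 : ℤ)] heckeDiagMatrix D

lemma dsw_Fx_apply {ℓ D : ℕ} (hD : D ≠ 0) {x : ZMod ℓ} (hx : x ≠ 0) (τ : ℍ) :
    dsw_Fx ℓ D x τ = dsw_Hb ℓ x (heckeDiagMatrix D • τ) := by
  rw [dsw_Fx, if_neg hx, slash_heckeDiagMatrix_apply 1 hD]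
  simp

lemma dsw_Fx_mdifferentiable {ℓ : ℕ} [NeZero ℓ] (D : ℕ) (x : ZMod ℓ) : MDiff (dsw_Fx ℓ D x) := by
  unfold dsw_Fx
  split_ifs with hx
  · exact mdifferentiable_const
  · exact (dsw_G_mdifferentiable (NeZero.ne ℓ) (dsw_NZ_val hx 0)).slash 1 _

lemma dsw_Fx_isBoundedAt {ℓ : ℕ} [NeZero ℓ] {D : ℕ} (hD : D ≠ 0) (x : ZMod ℓ) {c : OnePoint ℝ}
    (hc : IsCusp c 𝒮ℒ) : c.IsBoundedAt (dsw_Fx ℓ D x) 1 := by
  unfold dsw_Fx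
  split_ifs with hx
  · intro g _
    rw [SlashAction.zero_slash]
    exact zero_form_isBoundedAtImInfty
  · rw [← OnePoint.IsBoundedAt.smul_iff]
    exact dsw_G_isBoundedAt (NeZero.ne ℓ) (dsw_NZ_val hx 0) (dsw_isCusp_diag hD hc)

lemma dsw_eisFun_eq_Fx (ℓ t : ℕ) [NeZero ℓ] [NeZero t] (χ : DirichletCharacter ℂ ℓ)
    (hχ : χ (-1) = -1) :
    dsw_eisFun ℓ t χ = fun τ => (2 * π * I)⁻¹ * ∑ x : ZMod ℓ, χ x * dsw_Fx ℓ (t * ℓ) x τ := by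
  have hℓ1 : 1 < ℓ := dsw_one_lt_of_odd χ hχ
  have : Fact (1 < ℓ) := ⟨hℓ1⟩
  have hD : t * ℓ ≠ 0 := mul_ne_zero (NeZero.ne t) (NeZero.ne ℓ)
  funext τ
  rw [dsw_eisFun_eq]
  congr 1
  refine Finset.sum_congr rfl fun x _ => ?_
  rcases eq_or_ne x 0 with rfl | hx
  · simp [MulChar.map_zero]
  · rw [dsw_Fx_apply hD hx]

theorem dsw_eisFun_mdifferentiable (ℓ t : ℕ) [NeZero ℓ] [NeZero t] (χ : DirichletCharacter ℂ ℓ)
    (hχ : χ (-1) = -1) : MDiff (dsw_eisFun ℓ t χ) := by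
  rw [dsw_eisFun_eq_Fx ℓ t χ hχ, UpperHalfPlane.mdifferentiable_iff]
  have h : ∀ x : ZMod ℓ, DifferentiableOn ℂ (dsw_Fx ℓ (t * ℓ) x ∘ ofComplex) {z | 0 < z.im} :=
    fun x => UpperHalfPlane.mdifferentiable_iff.mp (dsw_Fx_mdifferentiable (t * ℓ) x)
  have h2 : DifferentiableOn ℂ (fun z : ℂ => (2 * π * I)⁻¹ *
      ∑ x : ZMod ℓ, χ x * (dsw_Fx ℓ (t * ℓ) x ∘ ofComplex) z) {z | 0 < z.im} :=
    DifferentiableOn.const_mul (DifferentiableOn.fun_sum fun x _ => (h x).const_mul _) _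
  exact h2

theorem dsw_eisFun_isBoundedAt (ℓ t : ℕ) [NeZero ℓ] [NeZero t] (χ : DirichletCharacter ℂ ℓ)
    (hχ : χ (-1) = -1) {c : OnePoint ℝ} (hc : IsCusp c 𝒮ℒ) :
    c.IsBoundedAt (dsw_eisFun ℓ t χ) 1 := by
  have hD : t * ℓ ≠ 0 := mul_ne_zero (NeZero.ne t) (NeZero.ne ℓ)
  rw [dsw_eisFun_eq_Fx ℓ t χ hχ]
  intro g hg
  have h1 : ∀ x : ZMod ℓ, IsBoundedAtImInfty ((dsw_Fx ℓ (t * ℓ) x) ∣[(1 : ℤ)] g) :=
    fun x => dsw_Fx_isBoundedAt hD x hc g hg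
  have h2 : (fun τ => (2 * π * I)⁻¹ * ∑ x : ZMod ℓ, χ x * dsw_Fx ℓ (t * ℓ) x τ) =
      ∑ x : ZMod ℓ, ((2 * π * I)⁻¹ * χ x) • dsw_Fx ℓ (t * ℓ) x := by
    funext τ
    simp only [Finset.sum_apply, Pi.smul_apply, smul_eq_mul, Finset.mul_sum]
    refine Finset.sum_congr rfl fun x _ => by ring
  rw [h2, SlashAction.sum_slash]
  have h3 : ∀ x ∈ (Finset.univ : Finset (ZMod ℓ)),
      ((((2 * π * I)⁻¹ * χ x) • dsw_Fx ℓ (t * ℓ) x) ∣[(1 : ℤ)] g) =O[atImInfty] (1 : ℍ → ℝ) := by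
    intro x _
    rw [ModularForm.smul_slash]
    exact (h1 x).const_smul_left _
  have h4 := Asymptotics.IsBigO.sum h3
  unfold IsBoundedAtImInfty BoundedAtFilter
  convert h4 using 1

theorem dsw_eisFun_slash (ℓ t : ℕ) [NeZero ℓ] [NeZero t] (χ : DirichletCharacter ℂ ℓ)
    (hχ : χ (-1) = -1) (γ : SL(2, ℤ)) (hγ : γ ∈ Gamma0 (t * ℓ)) :
    (dsw_eisFun ℓ t χ) ∣[(1 : ℤ)] γ =
      (χ (((γ : Matrix (Fin 2) (Fin 2) ℤ) 1 1 : ℤ) : ZMod ℓ)) • dsw_eisFun ℓ t χ := by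
  funext τ
  have hd : denom γ τ ≠ 0 := denom_ne_zero γ τ
  rw [ModularForm.SL_slash_apply, dsw_eisFun_smul ℓ t χ hχ γ hγ τ, _root_.zpow_neg, zpow_one,
    Pi.smul_apply, smul_eq_mul]
  field_simp

/-- The weight one Eisenstein series of the odd character `χ`, as a modular form on `Γ₁(t ℓ)`. -/
def dsw_eisForm (ℓ t : ℕ) [NeZero ℓ] [NeZero t] (χ : DirichletCharacter ℂ ℓ) (hχ : χ (-1) = -1) :
    ModularForm (Gamma1 (t * ℓ)) 1 where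
  toFun := dsw_eisFun ℓ t χ
  slash_action_eq' A hA := by
    obtain ⟨A, (hA : A ∈ Gamma1 (t * ℓ)), rfl⟩ := hA
    have hA0 : A ∈ Gamma0 (t * ℓ) := Gamma1_in_Gamma0 (t * ℓ) hA
    have h1 := dsw_eisFun_slash ℓ t χ hχ A hA0
    have h2 : (((A : Matrix (Fin 2) (Fin 2) ℤ) 1 1 : ℤ) : ZMod ℓ) = 1 := by
      rw [Gamma1_mem] at hA
      have h3 := hA.2.1
      have h4 : ((((A : Matrix (Fin 2) (Fin 2) ℤ) 1 1 - 1 : ℤ)) : ZMod (t * ℓ)) = 0 := by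
        push_cast; rw [h3]; ring
      rw [ZMod.intCast_zmod_eq_zero_iff_dvd] at h4
      have h5 : ((ℓ : ℕ) : ℤ) ∣ (A : Matrix (Fin 2) (Fin 2) ℤ) 1 1 - 1 :=
        dvd_trans ⟨(t : ℤ), by push_cast; ring⟩ h4
      have h6 := (ZMod.intCast_zmod_eq_zero_iff_dvd _ _).mpr h5
      push_cast at h6
      exact sub_eq_zero.mp h6
    rw [h2, map_one, one_smul] at h1
    exact h1
  holo' := dsw_eisFun_mdifferentiable ℓ t χ hχ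
  bdd_at_cusps' {c} hc := by
    rw [Subgroup.IsArithmetic.isCusp_iff_isCusp_SL2Z] at hc
    exact dsw_eisFun_isBoundedAt ℓ t χ hχ hc

@[simp] lemma dsw_eisForm_coe (ℓ t : ℕ) [NeZero ℓ] [NeZero t] (χ : DirichletCharacter ℂ ℓ)
    (hχ : χ (-1) = -1) : ⇑(dsw_eisForm ℓ t χ hχ) = dsw_eisFun ℓ t χ := rfl

/-- **[W-EIS]** modulo the `q`-expansion identity. -/
theorem dsw_eis
    (hQ : ∀ (ℓ t : ℕ) [NeZero ℓ] [NeZero t] (χ : DirichletCharacter ℂ ℓ), χ (-1) = -1 →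
      ∀ τ : ℍ, HasSum (fun m : ℕ => dsw_eisCoeff ℓ t χ m • Function.Periodic.qParam 1 τ ^ m)
        (dsw_eisFun ℓ t χ τ)) : dsw_SeamEis := by
  intro ℓ t _ _ χ hχ
  refine ⟨dsw_eisForm ℓ t χ hχ, fun γ hγ => dsw_eisFun_slash ℓ t χ hχ γ hγ, fun m => ?_⟩
  have h1 : (1 : ℝ) ∈ (Gamma1 (t * ℓ) : Subgroup (GL (Fin 2) ℝ)).strictPeriods := by simp
  exact (ModularFormClass.qExpansion_coeff_unique one_pos h1 (f := dsw_eisForm ℓ t χ hχ)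
    (hQ ℓ t χ hχ) m).symm

end

end Fermat.Agent.DS
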